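import Mathlib
import Fermat.Prelude.Def_ModularCurve_X0

set_option autoImplicit false

open UpperHalfPlane ModularForm EisensteinSeries Filter Topology ModularCurve
open scoped MatrixGroups ModularForm Manifold Real PowerSeries.WithPiTopology

namespace Fermat.Agent.S28

/-- Taylor series at `0` of a function `ℂ → ℂ`, as a formal power series. -/
noncomputable def tay (F : ℂ → ℂ) : PowerSeries ℂ :=
  .mk fun m ↦ (↑m.factorial)⁻¹ * iteratedDeriv m F 0

theorem tay_coeff (F : ℂ → ℂ) (m : ℕ) :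
    (tay F).coeff m = (↑m.factorial)⁻¹ * iteratedDeriv m F 0 := by
  simp [tay]

theorem qExpansion_eq_tay (h : ℝ) (f : ℍ → ℂ) : qExpansion h f = tay (cuspFunction h f) := rfl

theorem tay_congr {F G : ℂ → ℂ} (h : F =ᶠ[𝓝 0] G) : tay F = tay G := by
  ext m
  rw [tay_coeff, tay_coeff, h.iteratedDeriv_eq]

theorem tay_mul {F G : ℂ → ℂ} (hf : AnalyticAt ℂ F 0) (hg : AnalyticAt ℂ G 0) :
    tay (F * G) = tay F * tay G := by
  ext
  simp only [tay_coeff,
    iteratedDeriv_mul hf.contDiffAt hg.contDiffAt, Finset.mul_sum, PowerSeries.coeff_mul,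
    Finset.Nat.sum_antidiagonal_eq_sum_range_succ_mk, Nat.succ_eq_add_one]
  refine Finset.sum_congr rfl fun i hi ↦ ?_
  rw [Nat.cast_choose _ (by grind)]
  field_simp [Nat.factorial_ne_zero]

theorem tay_sub {F G : ℂ → ℂ} (hf : AnalyticAt ℂ F 0) (hg : AnalyticAt ℂ G 0) :
    tay (F - G) = tay F - tay G := by
  ext m
  simp [tay_coeff, iteratedDeriv_sub hf.contDiffAt hg.contDiffAt, mul_sub]

theorem tay_one : tay (1 : ℂ → ℂ) = 1 := by
  ext m
  have h2 : iteratedDeriv m (1 : ℂ → ℂ) 0 = if m = 0 then 1 else 0 := by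
    simpa [ite_apply] using! iteratedDeriv_const
  simp +contextual [tay_coeff, h2]

theorem tay_id : tay (id : ℂ → ℂ) = PowerSeries.X := by
  ext m
  rw [tay_coeff, PowerSeries.coeff_X]
  rcases m with _ | _ | m
  · simp
  · simp [iteratedDeriv_succ]
  · have h1 : deriv (id : ℂ → ℂ) = fun _ => (1 : ℂ) := by funext x; simp
    rw [iteratedDeriv_succ', h1, iteratedDeriv_const]
    simp

theorem tay_pow {F : ℂ → ℂ} (hf : AnalyticAt ℂ F 0) (n : ℕ) : tay (F ^ n) = tay F ^ n := by
  induction n with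
  | zero => simp [tay_one]
  | succ n ih => rw [pow_succ, tay_mul (hf.pow n) hf, ih, pow_succ]

theorem tay_prod {ι : Type*} (s : Finset ι) (F : ι → ℂ → ℂ) (hF : ∀ i ∈ s, AnalyticAt ℂ (F i) 0) :
    tay (∏ i ∈ s, F i) = ∏ i ∈ s, tay (F i) := by
  classical
  induction s using Finset.induction_on with
  | empty => simp [tay_one]
  | insert a s ha ih =>
    rw [Finset.prod_insert ha, Finset.prod_insert ha,
      tay_mul (hF a (Finset.mem_insert_self a s))
        (Finset.analyticAt_prod _ fun i hi => hF i (Finset.mem_insert_of_mem hi)),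
      ih fun i hi => hF i (Finset.mem_insert_of_mem hi)]

/-- Locally uniform limits of holomorphic functions: all iterated derivatives converge. -/
theorem tendsto_iteratedDeriv_aux {ι : Type*} {φ : Filter ι} {F : ι → ℂ → ℂ} {f : ℂ → ℂ}
    {U : Set ℂ} (hU : IsOpen U) (hf : TendstoLocallyUniformlyOn F f φ U)
    (hF : ∀ᶠ n in φ, DifferentiableOn ℂ (F n) U) (k : ℕ) :
    TendstoLocallyUniformlyOn (fun n => iteratedDeriv k (F n)) (iteratedDeriv k f) φ U ∧
      ∀ᶠ n in φ, DifferentiableOn ℂ (iteratedDeriv k (F n)) U := by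
  induction k with
  | zero => simpa [iteratedDeriv_zero] using ⟨hf, hF⟩
  | succ k ih =>
    refine ⟨?_, ?_⟩
    · have := ih.1.deriv ih.2 hU
      simpa only [iteratedDeriv_succ, Function.comp_def] using this
    · filter_upwards [ih.2] with n hn
      rw [iteratedDeriv_succ]
      exact hn.deriv hU

theorem tendsto_tay_coeff {ι : Type*} {φ : Filter ι} {F : ι → ℂ → ℂ} {f : ℂ → ℂ}
    {U : Set ℂ} (hU : IsOpen U) (h0 : (0 : ℂ) ∈ U) (hf : TendstoLocallyUniformlyOn F f φ U)
    (hF : ∀ᶠ n in φ, DifferentiableOn ℂ (F n) U) (k : ℕ) :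
    Tendsto (fun n => (tay (F n)).coeff k) φ (𝓝 ((tay f).coeff k)) := by
  simp only [tay_coeff]
  exact ((tendsto_iteratedDeriv_aux hU hf hF k).1.tendsto_at h0).const_mul _

theorem tay_one_sub_pow (n : ℕ) :
    tay (fun q : ℂ => 1 - q ^ (n + 1)) = 1 - PowerSeries.X ^ (n + 1) := by
  have h : (fun q : ℂ => 1 - q ^ (n + 1)) = (1 : ℂ → ℂ) - (id : ℂ → ℂ) ^ (n + 1) := by
    funext q; simp
  have h1 : AnalyticAt ℂ (1 : ℂ → ℂ) 0 := analyticAt_const
  rw [h, tay_sub h1 (analyticAt_id.pow _), tay_one, tay_pow analyticAt_id, tay_id]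

theorem tay_tprod_one_sub_pow :
    tay (fun q : ℂ => ∏' n : ℕ, (1 - q ^ (n + 1))) = etaProd.map (Int.castRingHom ℂ) := by
  ext k
  have h1 := multipliableLocallyUniformlyOn_one_sub_pow.hasProdLocallyUniformlyOn
  rw [hasProdLocallyUniformlyOn_iff_tendstoLocallyUniformlyOn] at h1
  have h2 := tendsto_tay_coeff Metric.isOpen_ball (Metric.mem_ball_self one_pos) h1
    (.of_forall fun s => by
      exact DifferentiableOn.fun_finsetProd (fun _ _ ↦ by fun_prop)) k
  have h3 : ∀ s : Finset ℕ, tay (fun q : ℂ => ∏ n ∈ s, (1 - q ^ (n + 1))) =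
      (∏ n ∈ s, (1 - PowerSeries.X ^ (n + 1) : PowerSeries ℤ)).map (Int.castRingHom ℂ) := by
    intro s
    have : (fun q : ℂ => ∏ n ∈ s, (1 - q ^ (n + 1))) = ∏ n ∈ s, (fun q : ℂ => 1 - q ^ (n + 1)) := by
      funext q; simp
    rw [this, tay_prod _ _ (fun i _ => by fun_prop), map_prod]
    refine Finset.prod_congr rfl fun n _ => ?_
    rw [tay_one_sub_pow]
    simp
  simp only [h3, PowerSeries.coeff_map] at h2
  have h4 := (PowerSeries.WithPiTopology.multipliable_one_sub_X_pow ℤ).hasProd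
  have h5 : Tendsto (fun s : Finset ℕ =>
      (PowerSeries.coeff k (∏ n ∈ s, (1 - PowerSeries.X ^ (n + 1) : PowerSeries ℤ)))) atTop
      (𝓝 (PowerSeries.coeff k etaProd)) :=
    ((PowerSeries.WithPiTopology.continuous_coeff ℤ k).tendsto _).comp h4
  have h6 : Tendsto (fun s : Finset ℕ => (Int.castRingHom ℂ)
      (PowerSeries.coeff k (∏ n ∈ s, (1 - PowerSeries.X ^ (n + 1) : PowerSeries ℤ)))) atTop
      (𝓝 ((Int.castRingHom ℂ) (PowerSeries.coeff k etaProd))) :=
    ((continuous_of_discreteTopology (f := (Int.castRingHom ℂ))).tendsto _).comp h5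
  rw [PowerSeries.coeff_map]
  exact tendsto_nhds_unique h2 h6

/-- The `q`-expansion of the discriminant is the formal product `q ∏ (1 - qⁿ)²⁴`. -/
theorem qExpansion_discriminant :
    qExpansion 1 ModularForm.discriminant =
      PowerSeries.X * (dedekindEtaUnit.map (Int.castRingHom ℂ)) := by
  have hball : Metric.ball (0 : ℂ) 1 ∈ 𝓝 (0 : ℂ) := Metric.ball_mem_nhds _ one_pos
  have hf : AnalyticAt ℂ (fun q : ℂ => ∏' n : ℕ, (1 - q ^ (n + 1))) 0 :=
    differentiableOn_tprod_one_sub_pow.analyticAt hball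
  have h1 : cuspFunction 1 ModularForm.discriminant =ᶠ[𝓝 0]
      (id : ℂ → ℂ) * (fun q : ℂ => ∏' n : ℕ, (1 - q ^ (n + 1))) ^ 24 := by
    filter_upwards [hball] with q hq
    rw [discriminant_cuspFunction_eqOn hq]
    simp only [Pi.mul_apply, id_eq, Pi.pow_apply]
    rw [(multipliable_one_sub_pow (by simpa using hq)).tprod_pow 24]
  rw [qExpansion_eq_tay, tay_congr h1, tay_mul analyticAt_id (hf.pow 24), tay_pow hf, tay_id,
    tay_tprod_one_sub_pow, dedekindEtaUnit, map_pow]

/-- The `q`-expansion of `E₄` is the formal series `1 + 240 ∑ σ₃(n) qⁿ`. -/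
theorem qExpansion_E4 :
    qExpansion 1 E₄ = eisenstein4.map (Int.castRingHom ℂ) := by
  ext n
  rw [E_qExpansion_coeff _ ⟨2, rfl⟩, PowerSeries.coeff_map, eisenstein4, PowerSeries.coeff_mk]
  by_cases h : n = 0
  · simp [h]
  · rw [if_neg h, if_neg h]
    norm_num [show bernoulli 4 = -1 / 30 by decide +kernel, ArithmeticFunction.sigma_apply]

end Fermat.Agent.S28
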