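import Mathlib
import Fermat.Prelude.Def_ModularCurve_X0
import Fermat.Prelude.Def_ModularForm_HeckeOperatorForms
import Fermat.Prelude.Thm_ModularFormClass_qCoeff_heckeT
import Fermat.Agent.S28.DeltaQExp

set_option autoImplicit false

open UpperHalfPlane ModularForm EisensteinSeries ModularFormClass Filter Topology ModularCurve
open scoped MatrixGroups ModularForm Manifold Real

namespace Fermat.Agent.S28

/-- The Hecke operator `T_p` on level one forms. -/
noncomputable def heckeLevelOne (k : ℤ) {p : ℕ} (hp : p.Prime) (G : ModularForm 𝒮ℒ k) :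
    ModularForm 𝒮ℒ k where
  toFun := heckeT k p ⇑G
  slash_action_eq' γ hγ := by
    refine heckeT_slash_eq_self_of_mem_Gamma0 (N := 1) k hp (by simpa using hp.one_lt.ne')
      (fun γ hγ => G.slash_action_eq' γ (Subgroup.map_le_range _ _ hγ)) γ ?_
    obtain ⟨δ, rfl⟩ := hγ
    exact ⟨δ, by rw [SetLike.mem_coe, CongruenceSubgroup.Gamma0_mem]; exact Subsingleton.elim _ _, rfl⟩
  holo' := mdifferentiable_heckeT G.holo' k p
  bdd_at_cusps' hc := ModularFormClass.isBoundedAt_heckeT G p hc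

theorem coe_heckeLevelOne (k : ℤ) {p : ℕ} (hp : p.Prime) (G : ModularForm 𝒮ℒ k) :
    ⇑(heckeLevelOne k hp G) = heckeT k p ⇑G := rfl

/-- Every level one form of weight `12 m` is a combination of `E₄^(3i) Δ^(m-i)` (on the level of
`q`-expansions). -/
theorem span_E4_Delta (m : ℕ) : ∀ k : ℤ, k = 12 * m → ∀ H : ModularForm 𝒮ℒ k,
    ∃ c : ℕ → ℂ, qExpansion 1 H = ∑ i ∈ Finset.range (m + 1),
      PowerSeries.C (c i) * qExpansion 1 E₄ ^ (3 * i) *
        qExpansion 1 ModularForm.discriminant ^ (m - i) := by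
  induction m with
  | zero =>
    intro k hk H
    simp only [Nat.cast_zero, mul_zero] at hk
    subst hk
    obtain ⟨c, hc⟩ := levelOne_weight_zero_const H
    refine ⟨fun _ => c, ?_⟩
    have hf : ⇑H = c • ⇑(1 : ModularForm 𝒮ℒ 0) := by
      ext z
      simp [hc]
    rw [hf, ModularForm.qExpansion_smul one_pos one_mem_strictPeriods_SL, ModularForm.qExpansion_one]
    simp [PowerSeries.smul_eq_C_mul]
  | succ m ih =>
    intro k hk H
    have hw : ((3 * (m + 1) : ℕ) : ℤ) * 4 = k := by rw [hk]; push_cast; ring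
    obtain ⟨G, hG⟩ : ∃ G : ModularForm 𝒮ℒ k, G = ModularForm.mcast hw (E₄.pow (3 * (m + 1))) :=
      ⟨_, rfl⟩
    have hGq : qExpansion 1 G = qExpansion 1 E₄ ^ (3 * (m + 1)) := by
      rw [hG, ModularForm.qExpansion_mcast,
        ModularForm.qExpansion_pow one_pos one_mem_strictPeriods_SL]
    have hG0 : (qExpansion 1 G).coeff 0 = 1 := by
      rw [hGq, PowerSeries.coeff_zero_eq_constantCoeff, map_pow,
        ← PowerSeries.coeff_zero_eq_constantCoeff, E_qExpansion_coeff_zero _ ⟨2, rfl⟩, one_pow]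
    have h0 := (isCuspForm_iff_coeffZero_eq_zero _).mp (sub_smul_isCuspForm H G hG0)
    generalize (qExpansion 1 H).coeff 0 = a0 at h0
    generalize hf₁ : H - a0 • G = f₁ at h0
    obtain ⟨c, hc⟩ := ih (k - 12) (by rw [hk]; push_cast; ring)
      (CuspForm.discriminantEquiv (toCuspForm f₁ h0))
    have h1 := qExpansion_eq_qExpansion_discriminant_mul f₁ h0
    rw [hc] at h1
    have hH : ⇑H = a0 • ⇑G + ⇑f₁ := by
      rw [← hf₁]; ext z; simp
    refine ⟨fun i => if i = m + 1 then a0 else c i, ?_⟩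
    have hH2 : qExpansion 1 H = a0 • qExpansion 1 G + qExpansion 1 f₁ := by
      rw [hH]
      have := ModularForm.qExpansion_add one_pos one_mem_strictPeriods_SL (a0 • G) f₁
      rw [← ModularForm.qExpansion_smul one_pos one_mem_strictPeriods_SL]
      exact this
    rw [Finset.sum_range_succ, hH2, h1, hGq, add_comm]
    congr 1
    · rw [Finset.mul_sum]
      refine Finset.sum_congr rfl fun i hi => ?_
      have hi' : i < m + 1 := Finset.mem_range.mp hi
      simp only []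
      rw [if_neg (by omega), show m + 1 - i = (m - i) + 1 by omega, pow_succ]
      ring
    · simp [PowerSeries.smul_eq_C_mul]

noncomputable def E4Q : PowerSeries ℚ := eisenstein4.map (Int.castRingHom ℚ)
noncomputable def DeltaQ : PowerSeries ℚ :=
  PowerSeries.X * dedekindEtaUnit.map (Int.castRingHom ℚ)

theorem map_E4Q : E4Q.map (algebraMap ℚ ℂ) = qExpansion 1 E₄ := by
  rw [qExpansion_E4, E4Q]
  ext n
  simp [PowerSeries.coeff_map]

theorem map_DeltaQ : DeltaQ.map (algebraMap ℚ ℂ) = qExpansion 1 ModularForm.discriminant := by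
  rw [qExpansion_discriminant, DeltaQ, map_mul, PowerSeries.map_X]
  congr 1

/-- A `ℚ`-linear retraction `ℂ → ℚ`. -/
theorem exists_rat_retraction : ∃ ρ : ℂ →ₗ[ℚ] ℚ, ∀ r : ℚ, ρ (r : ℂ) = r := by
  obtain ⟨g, hg⟩ := LinearMap.exists_leftInverse_of_injective (Algebra.linearMap ℚ ℂ)
    (LinearMap.ker_eq_bot.mpr (algebraMap ℚ ℂ).injective)
  refine ⟨g, fun r => ?_⟩
  have := LinearMap.congr_fun hg r
  simpa using this

theorem formal_hecke (p : ℕ) (hp : p.Prime) (a b : ℕ) :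
    ∃ c : ℕ → ℚ, ∀ n : ℕ,
      (p : ℚ) * PowerSeries.coeff (n * p) (E4Q ^ (3 * a) * DeltaQ ^ b) +
        (if p ∣ n then (p : ℚ) ^ (12 * (a + b)) *
          PowerSeries.coeff (n / p) (E4Q ^ (3 * a) * DeltaQ ^ b) else 0)
      = PowerSeries.coeff n (∑ i ∈ Finset.range (a + b + 1),
          PowerSeries.C (c i) * E4Q ^ (3 * i) * DeltaQ ^ (a + b - i)) := by
  obtain ⟨A, hA⟩ : ∃ A, A = E4Q ^ (3 * a) * DeltaQ ^ b := ⟨_, rfl⟩
  rw [← hA]
  obtain ⟨k, hk⟩ : ∃ k : ℤ, k = 12 * ((a + b : ℕ) : ℤ) := ⟨_, rfl⟩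
  let Dform : ModularForm 𝒮ℒ 12 := ModularFormClass.modularForm CuspForm.discriminant
  have hDq : qExpansion 1 Dform = qExpansion 1 ModularForm.discriminant := rfl
  have hw : ((3 * a : ℕ) : ℤ) * 4 + ((b : ℕ) : ℤ) * 12 = k := by rw [hk]; push_cast; ring
  obtain ⟨G, hG⟩ : ∃ G : ModularForm 𝒮ℒ k,
      G = ModularForm.mcast hw ((E₄.pow (3 * a)).mul (Dform.pow b)) := ⟨_, rfl⟩
  have hGq : qExpansion 1 G = A.map (algebraMap ℚ ℂ) := by
    rw [hG, ModularForm.qExpansion_mcast,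
      ModularForm.qExpansion_mul one_pos one_mem_strictPeriods_SL,
      ModularForm.qExpansion_pow one_pos one_mem_strictPeriods_SL,
      ModularForm.qExpansion_pow one_pos one_mem_strictPeriods_SL, hDq, hA, map_mul, map_pow,
      map_pow, map_E4Q, map_DeltaQ]
  obtain ⟨c, hc⟩ := span_E4_Delta (a + b) k hk (heckeLevelOne k hp G)
  have hcoef : ∀ n, (qExpansion 1 (heckeLevelOne k hp G)).coeff n =
      coeffHeckeT k p (qCoeff G) n :=
    fun n => ModularFormClass.qCoeff_heckeT G one_mem_strictPeriods_SL hp.ne_zero n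
  obtain ⟨ρ, hρ⟩ := exists_rat_retraction
  refine ⟨fun i => ρ ((p : ℂ) * c i), fun n => ?_⟩
  have hp0 : (p : ℂ) ≠ 0 := by exact_mod_cast hp.ne_zero
  -- the complex identity
  have h1 := hcoef n
  rw [hc, coeffHeckeT_apply, map_sum] at h1
  have hq : ∀ j, qCoeff G j = ((PowerSeries.coeff j A : ℚ) : ℂ) := by
    intro j
    rw [qCoeff, hGq, PowerSeries.coeff_map]; rfl
  rw [hq, hq] at h1
  have hB : ∀ i, PowerSeries.coeff n (PowerSeries.C (c i) * qExpansion 1 E₄ ^ (3 * i) *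
      qExpansion 1 ModularForm.discriminant ^ (a + b - i)) =
      c i * ((PowerSeries.coeff n (E4Q ^ (3 * i) * DeltaQ ^ (a + b - i)) : ℚ) : ℂ) := by
    intro i
    rw [mul_assoc, PowerSeries.coeff_C_mul, ← map_E4Q, ← map_DeltaQ, ← map_pow, ← map_pow,
      ← map_mul, PowerSeries.coeff_map]
    rfl
  simp only [hB] at h1
  -- multiply by `p`
  have hpk : (p : ℂ) * (p : ℂ) ^ (k - 1) = ((p : ℚ) ^ (12 * (a + b)) : ℚ) := by
    rw [← zpow_one_add₀ hp0, hk]
    have : (1 : ℤ) + (12 * ((a + b : ℕ) : ℤ) - 1) = ((12 * (a + b) : ℕ) : ℤ) := by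
      push_cast; ring
    rw [this, zpow_natCast]
    push_cast; rfl
  have h2 : (((p : ℚ) * PowerSeries.coeff (n * p) A +
        (if p ∣ n then (p : ℚ) ^ (12 * (a + b)) * PowerSeries.coeff (n / p) A else 0) : ℚ) : ℂ) =
      ∑ i ∈ Finset.range (a + b + 1), ((p : ℂ) * c i) *
        ((PowerSeries.coeff n (E4Q ^ (3 * i) * DeltaQ ^ (a + b - i)) : ℚ) : ℂ) := by
    have h3 : ∑ i ∈ Finset.range (a + b + 1), ((p : ℂ) * c i) *
        ((PowerSeries.coeff n (E4Q ^ (3 * i) * DeltaQ ^ (a + b - i)) : ℚ) : ℂ) =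
        (p : ℂ) * ∑ i ∈ Finset.range (a + b + 1), c i *
        ((PowerSeries.coeff n (E4Q ^ (3 * i) * DeltaQ ^ (a + b - i)) : ℚ) : ℂ) := by
      rw [Finset.mul_sum]
      exact Finset.sum_congr rfl fun i _ => by ring
    rw [h3, h1]
    split_ifs with hpn
    · rw [mul_add (p : ℂ), ← mul_assoc (p : ℂ), hpk]; push_cast; ring
    · push_cast; ring
  have h4 := congrArg ρ h2
  rw [hρ, map_sum] at h4
  rw [h4, map_sum]
  refine Finset.sum_congr rfl fun i _ => ?_
  have h5 : ∀ (z : ℂ) (r : ℚ), ρ (z * (r : ℂ)) = ρ z * r := by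
    intro z r
    have : z * (r : ℂ) = r • z := by rw [Algebra.smul_def, mul_comm]; rfl
    rw [this, map_smul, smul_eq_mul, mul_comm]
  rw [h5, mul_assoc (PowerSeries.C _), PowerSeries.coeff_C_mul]

end Fermat.Agent.S28
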