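import Mathlib
import Fermat.Prelude.Def_ModularCurve_X0
import Fermat.Prelude.Def_ModularCurve_LaurentCoeff
import Fermat.Prelude.Def_ModularCurve_JqCoeff
import Fermat.Prelude.Thm_ModularCurve_coeffMap_qExpand
import Fermat.Prelude.Def_ModularCurve_X0ModL

set_option autoImplicit false

noncomputable section

namespace Fermat.Agent.S28

open ModularCurve HahnSeries

variable {A B : Type*} [CommRing A] [CommRing B]

/-- `ψ(q) ↦ ψ(u q)` on Laurent series. -/
def twist (u : Aˣ) : LaurentSeries A →+* LaurentSeries A where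
  toFun ψ :=
    { coeff := fun n => ((u ^ n : Aˣ) : A) * ψ.coeff n
      isPWO_support' := ψ.isPWO_support.mono (by
        intro n hn
        simp only [Function.mem_support, ne_eq] at hn
        exact fun h => hn (by rw [h, mul_zero])) }
  map_zero' := by ext n; simp
  map_one' := by
    ext n
    simp only [HahnSeries.coeff_one]
    split_ifs with h
    · subst h; simp
    · simp
  map_add' x y := by ext n; simp [mul_add]
  map_mul' x y := by
    ext n
    simp only [HahnSeries.coeff_mul, Finset.mul_sum]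
    refine Finset.sum_congr ?_ ?_
    · ext ij
      simp only [Finset.mem_antidiagonal, HahnSeries.mem_support, ne_eq, Units.mul_right_eq_zero]
    · intro ij hij
      have h : ij.1 + ij.2 = n := (Finset.mem_antidiagonal.mp hij).2.2
      rw [← h, zpow_add, Units.val_mul]
      ring

@[simp]
theorem twist_coeff (u : Aˣ) (ψ : LaurentSeries A) (n : ℤ) :
    (twist u ψ).coeff n = ((u ^ n : Aˣ) : A) * ψ.coeff n := rfl


theorem twist_injective (u : Aˣ) : Function.Injective (twist u) := by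
  intro x y h
  ext n
  have := congrArg (fun z => z.coeff n) h
  simpa using this

theorem coeffMap_twist (f : A →+* B) (u : Aˣ) (ψ : LaurentSeries A) :
    coeffMap f (twist u ψ) = twist (Units.map (f : A →* B) u) (coeffMap f ψ) := by
  ext n
  simp only [coeffMap_coeff, twist_coeff, map_mul]
  congr 1
  rw [← map_zpow]
  rfl

/-- `ψ(q) ↦ ψ(u t^a)`. -/
def ev (u : Aˣ) (a : ℕ) [NeZero a] : LaurentSeries A →+* LaurentSeries A :=
  (qExpand A a).comp (twist u)

theorem ev_coeff_mul (u : Aˣ) (a : ℕ) [NeZero a] (ψ : LaurentSeries A) (k : ℤ) :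
    (ev u a ψ).coeff ((a : ℤ) * k) = ((u ^ k : Aˣ) : A) * ψ.coeff k := by
  simp [ev]

theorem ev_coeff_of_not_dvd (u : Aˣ) (a : ℕ) [NeZero a] (ψ : LaurentSeries A) {k : ℤ}
    (hk : ¬ (a : ℤ) ∣ k) : (ev u a ψ).coeff k = 0 :=
  qExpand_coeff_of_not_dvd a _ hk

theorem ev_injective (u : Aˣ) (a : ℕ) [NeZero a] : Function.Injective (ev (A := A) u a) :=
  (qExpand_injective a).comp (twist_injective u)

theorem coeffMap_ev (f : A →+* B) (u : Aˣ) (a : ℕ) [NeZero a] (ψ : LaurentSeries A) :
    coeffMap f (ev u a ψ) = ev (Units.map (f : A →* B) u) a (coeffMap f ψ) := by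
  simp only [ev, RingHom.comp_apply, coeffMap_qExpand, coeffMap_twist]

theorem ev_congr {u u' : Aˣ} {a a' : ℕ} [NeZero a] [NeZero a'] (hu : u = u') (ha : a = a')
    (ψ : LaurentSeries A) : ev u a ψ = ev u' a' ψ := by
  subst hu; subst ha; rfl

theorem ev_ev (u u' : Aˣ) (a a' : ℕ) [NeZero a] [NeZero a'] [NeZero (a * a')]
    (ψ : LaurentSeries A) :
    ev u a (ev u' a' ψ) = ev (u' * u ^ a') (a * a') ψ := by
  ext n
  by_cases h : ((a * a' : ℕ) : ℤ) ∣ n
  · obtain ⟨k, rfl⟩ := h
    rw [ev_coeff_mul]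
    have : (((a * a' : ℕ) : ℤ)) * k = (a : ℤ) * ((a' : ℤ) * k) := by push_cast; ring
    rw [this, ev_coeff_mul, ev_coeff_mul, ← mul_assoc, ← Units.val_mul]
    congr 2
    rw [mul_zpow, mul_comm, zpow_mul, zpow_natCast]
  · rw [ev_coeff_of_not_dvd _ _ _ h]
    by_cases h1 : (a : ℤ) ∣ n
    · obtain ⟨m, rfl⟩ := h1
      rw [ev_coeff_mul]
      have h2 : ¬ (a' : ℤ) ∣ m := by
        rintro ⟨c, rfl⟩
        exact h ⟨c, by push_cast; ring⟩
      rw [ev_coeff_of_not_dvd _ _ _ h2, mul_zero]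
    · rw [ev_coeff_of_not_dvd _ _ _ h1]

theorem ev_one_one (ψ : LaurentSeries A) : ev (1 : Aˣ) 1 ψ = ψ := by
  ext n
  have := ev_coeff_mul (1 : Aˣ) 1 ψ n
  simpa using this

theorem ev_single (u : Aˣ) (a : ℕ) [NeZero a] (k : ℤ) (r : A) :
    ev u a (HahnSeries.single k r) = HahnSeries.single ((a : ℤ) * k) (((u ^ k : Aˣ) : A) * r) := by
  ext n
  by_cases h : (a : ℤ) ∣ n
  · obtain ⟨m, rfl⟩ := h
    rw [ev_coeff_mul]
    have ha : (a : ℤ) ≠ 0 := by exact_mod_cast NeZero.ne a
    by_cases hm : m = k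
    · subst hm; simp
    · rw [HahnSeries.coeff_single_of_ne hm, HahnSeries.coeff_single_of_ne, mul_zero]
      exact fun h => hm (mul_left_cancel₀ ha h)
  · rw [ev_coeff_of_not_dvd _ _ _ h, HahnSeries.coeff_single_of_ne]
    rintro rfl
    exact h ⟨k, rfl⟩

theorem orderTop_ev_le (u : Aˣ) (a : ℕ) [NeZero a] (ψ : LaurentSeries A) {m : ℤ}
    (h : (m : WithTop ℤ) ≤ ψ.orderTop) : (((a : ℤ) * m : ℤ) : WithTop ℤ) ≤ (ev u a ψ).orderTop := by
  by_contra hlt
  rw [not_le] at hlt
  have hne : ev u a ψ ≠ 0 := by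
    intro h0
    rw [h0] at hlt
    simp at hlt
  obtain ⟨g, hg⟩ : ∃ g : ℤ, (ev u a ψ).orderTop = g := by
    have := HahnSeries.orderTop_ne_top.mpr hne
    exact ⟨_, (WithTop.coe_untop _ this).symm⟩
  have hc := HahnSeries.coeff_orderTop_ne hg
  rw [hg] at hlt
  have hlt' : g < (a : ℤ) * m := by exact_mod_cast hlt
  by_cases hd : (a : ℤ) ∣ g
  · obtain ⟨k, rfl⟩ := hd
    rw [ev_coeff_mul] at hc
    have ha : (0 : ℤ) < a := by exact_mod_cast Nat.pos_of_ne_zero (NeZero.ne a)
    have hk : k < m := lt_of_mul_lt_mul_left hlt' ha.le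
    have : ψ.coeff k = 0 := HahnSeries.coeff_eq_zero_of_lt_orderTop
      (lt_of_lt_of_le (by exact_mod_cast hk) h)
    exact hc (by rw [this, mul_zero])
  · exact hc (ev_coeff_of_not_dvd _ _ _ hd)


theorem orderTop_ev_eq (u : Aˣ) (a : ℕ) [NeZero a] (ψ : LaurentSeries A) {m : ℤ}
    (h : ψ.orderTop = m) : (ev u a ψ).orderTop = (((a : ℤ) * m : ℤ) : WithTop ℤ) := by
  refine le_antisymm ?_ (orderTop_ev_le u a ψ h.ge)
  refine HahnSeries.orderTop_le_of_coeff_ne_zero ?_
  rw [ev_coeff_mul]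
  have := HahnSeries.coeff_orderTop_ne h
  simpa using this

section Basic

variable (A)

/-- the Eisenstein series `E₄` as a Laurent series over `A`. -/
def eS : LaurentSeries A :=
  HahnSeries.ofPowerSeries ℤ A (eisenstein4.map (Int.castRingHom A))

/-- `Δ = q ∏ (1 - qⁿ)²⁴` as a Laurent series over `A`. -/
def dS : LaurentSeries A :=
  HahnSeries.single (1 : ℤ) 1 *
    HahnSeries.ofPowerSeries ℤ A (dedekindEtaUnit.map (Int.castRingHom A))

/-- `Δ⁻¹`. -/
def dInv : LaurentSeries A :=
  HahnSeries.single (-1 : ℤ) 1 *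
    HahnSeries.ofPowerSeries ℤ A (dedekindEtaUnitInv.map (Int.castRingHom A))

theorem dS_mul_dInv : dS A * dInv A = 1 := by
  have h1 : (HahnSeries.single (1 : ℤ) (1 : A)) * HahnSeries.single (-1 : ℤ) 1 = 1 := by
    rw [HahnSeries.single_mul_single]; simp
  have h2 : HahnSeries.ofPowerSeries ℤ A (dedekindEtaUnit.map (Int.castRingHom A)) *
      HahnSeries.ofPowerSeries ℤ A (dedekindEtaUnitInv.map (Int.castRingHom A)) = 1 := by
    rw [← map_mul, ← map_mul, dedekindEtaUnit_mul_inv, map_one, map_one]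
  calc dS A * dInv A
      = (HahnSeries.single (1 : ℤ) (1 : A) * HahnSeries.single (-1 : ℤ) 1) *
        (HahnSeries.ofPowerSeries ℤ A (dedekindEtaUnit.map (Int.castRingHom A)) *
      HahnSeries.ofPowerSeries ℤ A (dedekindEtaUnitInv.map (Int.castRingHom A))) := by
        rw [dS, dInv]; ring
    _ = 1 := by rw [h1, h2, one_mul]

theorem jq_eq_eS_mul_dInv : jqModC A = eS A ^ 3 * dInv A := by
  rw [jqModC, jNum, eS, dInv, map_mul, map_mul, map_pow, map_pow]
  ring

theorem jq_mul_dS : jqModC A * dS A = eS A ^ 3 := by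
  rw [jq_eq_eS_mul_dInv, mul_assoc, mul_comm (dInv A), dS_mul_dInv, mul_one]

variable {A}

theorem map_map_intCast (f : A →+* B) (φ : PowerSeries ℤ) :
    (φ.map (Int.castRingHom A)).map f = φ.map (Int.castRingHom B) := by
  ext n
  simp

theorem coeffMap_eS (f : A →+* B) : coeffMap f (eS A) = eS B := by
  rw [eS, coeffMap_ofPowerSeries, map_map_intCast, eS]

theorem coeffMap_dS (f : A →+* B) : coeffMap f (dS A) = dS B := by
  rw [dS, map_mul, coeffMap_ofPowerSeries, map_map_intCast, coeffMap_single, map_one, dS]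

theorem coeffMap_dInv (f : A →+* B) : coeffMap f (dInv A) = dInv B := by
  rw [dInv, map_mul, coeffMap_ofPowerSeries, map_map_intCast, coeffMap_single, map_one, dInv]

variable (A)

theorem dS_coeff_one : (dS A).coeff 1 = 1 := by
  rw [dS, HahnSeries.coeff_single_mul, one_mul, sub_self,
    show (0 : ℤ) = ((0 : ℕ) : ℤ) from rfl, HahnSeries.ofPowerSeries_apply_coeff,
    PowerSeries.coeff_map, PowerSeries.coeff_zero_eq_constantCoeff, constantCoeff_dedekindEtaUnit]
  simp

theorem dS_coeff_of_lt {k : ℤ} (hk : k < 1) : (dS A).coeff k = 0 := by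
  rw [dS, HahnSeries.coeff_single_mul, one_mul]
  exact ofPowerSeries_coeff_of_neg _ (by omega)

theorem dInv_coeff_neg_one : (dInv A).coeff (-1) = 1 := by
  rw [dInv, HahnSeries.coeff_single_mul, one_mul, sub_self,
    show (0 : ℤ) = ((0 : ℕ) : ℤ) from rfl, HahnSeries.ofPowerSeries_apply_coeff,
    PowerSeries.coeff_map, PowerSeries.coeff_zero_eq_constantCoeff,
    constantCoeff_dedekindEtaUnitInv]
  simp

theorem dInv_coeff_of_lt {k : ℤ} (hk : k < -1) : (dInv A).coeff k = 0 := by
  rw [dInv, HahnSeries.coeff_single_mul, one_mul]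
  exact ofPowerSeries_coeff_of_neg _ (by omega)

theorem orderTop_eq_of_coeff [Nontrivial A] {ψ : LaurentSeries A} {m : ℤ} (h1 : ψ.coeff m = 1)
    (h2 : ∀ k < m, ψ.coeff k = 0) : ψ.orderTop = m := by
  refine HahnSeries.orderTop_eq_of_le ?_ ?_
  · simp [h1]
  · intro g hg
    by_contra hlt
    exact hg (h2 g (not_le.mp hlt))

theorem orderTop_dS [Nontrivial A] : (dS A).orderTop = (1 : ℤ) :=
  orderTop_eq_of_coeff A (dS_coeff_one A) (fun _ hk => dS_coeff_of_lt A hk)

theorem orderTop_dInv [Nontrivial A] : (dInv A).orderTop = (-1 : ℤ) :=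
  orderTop_eq_of_coeff A (dInv_coeff_neg_one A) (fun _ hk => dInv_coeff_of_lt A hk)

theorem orderTop_jq [Nontrivial A] : (jqModC A).orderTop = (-1 : ℤ) :=
  orderTop_eq_of_coeff A (coeff_jqModC_neg_one A) (fun _ hk => coeff_jqModC_of_lt A hk)

end Basic


section IntSeries

/-- Laurent series all of whose coefficients lie in a subring. -/
def intSeries (S : Subring A) : Subring (LaurentSeries A) where
  carrier := {ψ | ∀ n, ψ.coeff n ∈ S}
  mul_mem' {x y} hx hy n := by
    rw [HahnSeries.coeff_mul]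
    exact Subring.sum_mem _ fun ij _ => S.mul_mem (hx _) (hy _)
  one_mem' n := by
    rw [HahnSeries.coeff_one]
    split_ifs
    · exact S.one_mem
    · exact S.zero_mem
  add_mem' {x y} hx hy n := by
    rw [HahnSeries.coeff_add]
    exact S.add_mem (hx _) (hy _)
  zero_mem' n := by
    rw [HahnSeries.coeff_zero]
    exact S.zero_mem
  neg_mem' {x} hx n := by
    rw [HahnSeries.coeff_neg]
    exact S.neg_mem (hx _)

theorem mem_intSeries {S : Subring A} {ψ : LaurentSeries A} :
    ψ ∈ intSeries S ↔ ∀ n, ψ.coeff n ∈ S := Iff.rfl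

theorem coeffMap_injective {f : A →+* B} (hf : Function.Injective f) :
    Function.Injective (coeffMap f) := by
  intro x y h
  ext n
  apply hf
  have := congrArg (fun z => z.coeff n) h
  simpa using this

theorem range_coeffMap {f : A →+* B} (hf : Function.Injective f) :
    (coeffMap f).range = intSeries f.range := by
  ext ψ
  constructor
  · rintro ⟨φ, rfl⟩ n
    exact ⟨φ.coeff n, rfl⟩
  · intro h
    choose g hg using h
    refine ⟨⟨g, ψ.isPWO_support.mono ?_⟩, ?_⟩
    · intro n hn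
      simp only [Function.mem_support, ne_eq] at hn
      intro h0
      apply hn
      apply hf
      rw [hg, map_zero]
      exact h0
    · ext n
      exact hg n

theorem ev_mem_intSeries {S : Subring A} (u : Aˣ) (hu : (u : A) ∈ S) (hu' : ((u⁻¹ : Aˣ) : A) ∈ S)
    (a : ℕ) [NeZero a] {ψ : LaurentSeries A} (hψ : ψ ∈ intSeries S) : ev u a ψ ∈ intSeries S := by
  intro n
  by_cases h : (a : ℤ) ∣ n
  · obtain ⟨k, rfl⟩ := h
    rw [ev_coeff_mul]
    refine S.mul_mem ?_ (hψ k)
    obtain ⟨m, rfl | rfl⟩ := k.eq_nat_or_neg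
    · rw [zpow_natCast, Units.val_pow_eq_pow_val]
      exact S.pow_mem hu m
    · rw [zpow_neg, zpow_natCast, ← inv_pow, Units.val_pow_eq_pow_val]
      exact S.pow_mem hu' m
  · rw [ev_coeff_of_not_dvd _ _ _ h]
    exact S.zero_mem

end IntSeries

section PolyJ

theorem algebraMap_eq_single' (c : A) :
    (algebraMap A (LaurentSeries A) c) = HahnSeries.single 0 c := by
  rw [HahnSeries.algebraMap_apply']
  simp

theorem coeff_algebraMap_mul (c : A) (ψ : LaurentSeries A) (n : ℤ) :
    (algebraMap A (LaurentSeries A) c * ψ).coeff n = c * ψ.coeff n := by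
  rw [algebraMap_eq_single', HahnSeries.coeff_single_mul]
  simp

/-- coefficient of `P(j(u t^a))` at `t^(-a D)` for `D ≥ deg P`. -/
theorem coeff_aeval_ev_jq (u : Aˣ) (a : ℕ) [NeZero a] (P : Polynomial A) {D : ℕ}
    (hD : P.natDegree ≤ D) :
    (Polynomial.aeval (ev u a (jqModC A)) P).coeff ((a : ℤ) * (-(D : ℤ))) =
      ((u ^ (-(D : ℤ)) : Aˣ) : A) * P.coeff D := by
  rw [Polynomial.aeval_eq_sum_range' (Nat.lt_succ_of_le hD)]
  rw [HahnSeries.coeff_sum]
  rw [Finset.sum_eq_single D]
  · rw [Algebra.smul_def, coeff_algebraMap_mul, ← map_pow, ev_coeff_mul, coeff_jqModC_pow_self]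
    ring
  · intro i hi hne
    have hi' : i < D := lt_of_le_of_ne (Nat.lt_succ_iff.mp (Finset.mem_range.mp hi)) hne
    rw [Algebra.smul_def, coeff_algebraMap_mul, ← map_pow, ev_coeff_mul,
      coeff_jqModC_pow_of_lt A (by exact_mod_cast neg_lt_neg (by exact_mod_cast hi')), mul_zero,
      mul_zero]
  · intro h
    exact absurd (Finset.mem_range.mpr (Nat.lt_succ_self D)) h

theorem coeff_aeval_ev_jq_of_lt (u : Aˣ) (a : ℕ) [NeZero a] (P : Polynomial A) {n : ℤ}
    (hn : n < (a : ℤ) * (-(P.natDegree : ℤ))) :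
    (Polynomial.aeval (ev u a (jqModC A)) P).coeff n = 0 := by
  rw [Polynomial.aeval_eq_sum_range, HahnSeries.coeff_sum]
  refine Finset.sum_eq_zero fun i hi => ?_
  have hi' : i ≤ P.natDegree := Nat.lt_succ_iff.mp (Finset.mem_range.mp hi)
  rw [Algebra.smul_def, coeff_algebraMap_mul, ← map_pow]
  by_cases h : (a : ℤ) ∣ n
  · obtain ⟨k, rfl⟩ := h
    have ha : (0 : ℤ) < a := by exact_mod_cast Nat.pos_of_ne_zero (NeZero.ne a)
    have hk : k < -(P.natDegree : ℤ) := lt_of_mul_lt_mul_left hn ha.le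
    rw [ev_coeff_mul, coeff_jqModC_pow_of_lt A (by
      have : (i : ℤ) ≤ P.natDegree := by exact_mod_cast hi'
      omega), mul_zero, mul_zero]
  · rw [ev_coeff_of_not_dvd _ _ _ h, mul_zero]

/-- A polynomial in `j(u t^a)` of positive order vanishes. -/
theorem eq_zero_of_orderTop_aeval_pos (u : Aˣ) (a : ℕ) [NeZero a] (P : Polynomial A)
    (h : 0 < (Polynomial.aeval (ev u a (jqModC A)) P).orderTop) : P = 0 := by
  by_contra hP
  have h1 := coeff_aeval_ev_jq u a P le_rfl
  have h2 : (Polynomial.aeval (ev u a (jqModC A)) P).coeff ((a : ℤ) * (-(P.natDegree : ℤ))) = 0 := by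
    apply HahnSeries.coeff_eq_zero_of_lt_orderTop
    refine lt_of_le_of_lt ?_ h
    have : (a : ℤ) * (-(P.natDegree : ℤ)) ≤ 0 := by
      have ha : (0 : ℤ) ≤ a := by positivity
      have : (0 : ℤ) ≤ P.natDegree := by positivity
      nlinarith
    exact_mod_cast this
  rw [h2] at h1
  have h3 : P.coeff P.natDegree = 0 := (Units.mul_right_eq_zero _).mp h1.symm
  exact hP (Polynomial.leadingCoeff_eq_zero.mp h3)

/-- If `P(j(u t^a))` has all coefficients in the subring `S` (`u` a unit of `S`)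
then so has `P`. -/
theorem coeff_mem_of_aeval_mem_intSeries {S : Subring A} (u : Aˣ) (hu : (u : A) ∈ S)
    (hu' : ((u⁻¹ : Aˣ) : A) ∈ S) (a : ℕ) [NeZero a] :
    ∀ (d : ℕ) (P : Polynomial A), P.natDegree ≤ d →
      Polynomial.aeval (ev u a (jqModC A)) P ∈ intSeries S → ∀ i, P.coeff i ∈ S := by
  have hj : ev u a (jqModC A) ∈ intSeries S := by
    apply ev_mem_intSeries u hu hu'
    intro n
    rw [coeff_jqModC_eq_intCast]
    exact intCast_mem S _
  intro d
  induction d with
  | zero =>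
    intro P hP h i
    have h1 := coeff_aeval_ev_jq u a P hP
    have h2 := h ((a : ℤ) * (-((0 : ℕ) : ℤ)))
    rw [h1] at h2
    simp only [CharP.cast_eq_zero, neg_zero, zpow_zero, Units.val_one, one_mul] at h2
    rcases Nat.eq_zero_or_pos i with rfl | hi
    · exact h2
    · rw [Polynomial.coeff_eq_zero_of_natDegree_lt (by omega)]
      exact S.zero_mem
  | succ d ih =>
    intro P hP h
    have h1 := coeff_aeval_ev_jq u a P hP
    have h2 := h ((a : ℤ) * (-((d + 1 : ℕ) : ℤ)))
    rw [h1] at h2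
    have h3 : P.coeff (d + 1) ∈ S := by
      have : P.coeff (d + 1) = ((u ^ (((d + 1 : ℕ) : ℤ)) : Aˣ) : A) *
          (((u ^ (-((d + 1 : ℕ) : ℤ)) : Aˣ) : A) * P.coeff (d + 1)) := by
        rw [← mul_assoc, ← Units.val_mul, ← zpow_add]
        simp
      rw [this]
      refine S.mul_mem ?_ h2
      rw [zpow_natCast, Units.val_pow_eq_pow_val]
      exact S.pow_mem hu _
    set Q : Polynomial A := P - Polynomial.C (P.coeff (d + 1)) * Polynomial.X ^ (d + 1) with hQ
    have hQd : Q.natDegree ≤ d := by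
      rw [Polynomial.natDegree_le_iff_coeff_eq_zero]
      intro m hm
      rw [hQ, Polynomial.coeff_sub, Polynomial.coeff_C_mul, Polynomial.coeff_X_pow]
      rcases Nat.lt_or_ge (d + 1) m with h4 | h4
      · rw [Polynomial.coeff_eq_zero_of_natDegree_lt (by omega), if_neg (by omega)]
        simp
      · have : m = d + 1 := by omega
        subst this
        simp
    have hQmem : Polynomial.aeval (ev u a (jqModC A)) Q ∈ intSeries S := by
      rw [hQ, map_sub, map_mul, Polynomial.aeval_C, map_pow, Polynomial.aeval_X]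
      refine Subring.sub_mem _ h (Subring.mul_mem _ ?_ (Subring.pow_mem _ hj _))
      intro n
      rw [algebraMap_eq_single']
      by_cases hn : n = 0
      · subst hn
        simpa using h3
      · rw [HahnSeries.coeff_single_of_ne hn]
        exact S.zero_mem
    intro i
    have h5 := ih Q hQd hQmem i
    have : P.coeff i = Q.coeff i + (Polynomial.C (P.coeff (d + 1)) * Polynomial.X ^ (d + 1)).coeff i := by
      rw [hQ, Polynomial.coeff_sub]; ring
    rw [this, Polynomial.coeff_C_mul, Polynomial.coeff_X_pow]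
    refine S.add_mem h5 (S.mul_mem h3 ?_)
    split_ifs
    · exact S.one_mem
    · exact S.zero_mem

end PolyJ

end Fermat.Agent.S28
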