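import Mathlib

set_option autoImplicit false
set_option linter.style.haveILetI false

noncomputable section

namespace Fermat.Agent.S28

open Polynomial

/-- AL4. -/
theorem isIntegralElem_transfer {A₀ F E D : Type*} [CommRing A₀] [CommRing F] [CommRing E]
    [CommRing D] (a : A₀ →+* F) (f : F) (hf : a.IsIntegralElem f) (ψ : F →+* E) (e : D →+* E)
    (h : ∀ c, ψ (a c) ∈ e.range) : e.IsIntegralElem (ψ f) := by
  obtain ⟨Q, hQ, hQf⟩ := hf
  have hl : Q.map (ψ.comp a) ∈ Polynomial.lifts e := by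
    rw [Polynomial.lifts_iff_coeff_lifts]
    intro n
    rw [Polynomial.coeff_map]
    exact h _
  obtain ⟨Q', hQ', -, hQ'm⟩ := Polynomial.lifts_and_natDegree_eq_and_monic hl (hQ.map _)
  refine ⟨Q', hQ'm, ?_⟩
  rw [← Polynomial.eval_map, hQ', Polynomial.eval_map, ← Polynomial.hom_eval₂, hQf, map_zero]

/-- AL5. -/
def liftInj {A B D : Type*} [CommRing A] [CommRing B] [CommRing D] (f : A →+* B) (g : D →+* B)
    (hg : Function.Injective g) (h : ∀ a, f a ∈ g.range) : A →+* D where
  toFun a := (h a).choose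
  map_one' := hg (by rw [(h 1).choose_spec, map_one, map_one])
  map_zero' := hg (by rw [(h 0).choose_spec, map_zero, map_zero])
  map_mul' x y := hg (by
    rw [(h (x * y)).choose_spec, map_mul, map_mul, (h x).choose_spec, (h y).choose_spec])
  map_add' x y := hg (by
    rw [(h (x + y)).choose_spec, map_add, map_add, (h x).choose_spec, (h y).choose_spec])

theorem liftInj_spec {A B D : Type*} [CommRing A] [CommRing B] [CommRing D] (f : A →+* B)
    (g : D →+* B) (hg : Function.Injective g) (h : ∀ a, f a ∈ g.range) (a : A) :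
    g (liftInj f g hg h a) = f a := (h a).choose_spec

/-- AL6. -/
theorem isIntegralElem_of_monic_of_coeff {R A : Type*} [CommRing R] [CommRing A] (φ : R →+* A)
    (Q : A[X]) (hQ : Q.Monic) (hc : ∀ i, φ.IsIntegralElem (Q.coeff i)) (x : A)
    (hx : Q.eval x = 0) : φ.IsIntegralElem x := by
  letI := φ.toAlgebra
  show IsIntegral R x
  have hl : Q ∈ Polynomial.lifts (algebraMap (integralClosure R A) A) := by
    rw [Polynomial.lifts_iff_coeff_lifts]
    intro n
    exact ⟨⟨Q.coeff n, hc n⟩, rfl⟩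
  obtain ⟨Q', hQ', -, hQ'm⟩ := Polynomial.lifts_and_natDegree_eq_and_monic hl hQ
  have h1 : IsIntegral (integralClosure R A) x := by
    refine ⟨Q', hQ'm, ?_⟩
    rw [← Polynomial.eval_map, hQ', hx]
  exact isIntegral_trans x h1

/-- AL8 (pigeonhole coupling). -/
theorem exists_common_index {E I : Type*} [Field E] [CharZero E] [Finite I] (x y : E)
    (rx ry : I → E) (h : ∀ c : ℕ, ∃ i, x + (c : E) * y = rx i + (c : E) * ry i) :
    ∃ i, x = rx i ∧ y = ry i := by
  choose i hi using h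
  obtain ⟨c, c', hcc, hic⟩ := Finite.exists_ne_map_eq_of_infinite i
  refine ⟨i c, ?_⟩
  have h1 := hi c
  have h2 := hi c'
  rw [← hic] at h2
  have hne : (c : E) - (c' : E) ≠ 0 := sub_ne_zero.mpr (by exact_mod_cast hcc)
  have hy : y = ry (i c) := by
    have : ((c : E) - c') * (y - ry (i c)) = 0 := by linear_combination h1 - h2
    rcases mul_eq_zero.mp this with h | h
    · exact absurd h hne
    · exact sub_eq_zero.mp h
  refine ⟨?_, hy⟩
  rw [← hy] at h1
  exact add_right_cancel h1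

/-- AL3. -/
theorem mem_range_of_isIntegralElem_of_mem_closure {D E : Type*} [CommRing D] [IsDomain D]
    [IsIntegrallyClosed D] [Field E] (e : D →+* E) (he : Function.Injective e) (x : E)
    (hx : x ∈ Subfield.closure (e.range : Set E)) (hint : e.IsIntegralElem x) : x ∈ e.range := by
  rw [Subfield.mem_closure_iff, Subring.closure_eq] at hx
  obtain ⟨_, ⟨a, rfl⟩, _, ⟨b, rfl⟩, rfl⟩ := hx
  set ē : FractionRing D →+* E := IsFractionRing.lift he with hē
  have hēa : ∀ d : D, ē (algebraMap D (FractionRing D) d) = e d :=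
    fun d => IsFractionRing.lift_algebraMap he d
  have hx' : e a / e b = ē (algebraMap D (FractionRing D) a / algebraMap D (FractionRing D) b) := by
    rw [map_div₀, hēa, hēa]
  obtain ⟨Q, hQ, hQx⟩ := hint
  have hint' : IsIntegral D
      (algebraMap D (FractionRing D) a / algebraMap D (FractionRing D) b) := by
    refine ⟨Q, hQ, ?_⟩
    apply ē.injective
    rw [Polynomial.hom_eval₂, map_zero, ← hx']
    have : ē.comp (algebraMap D (FractionRing D)) = e := RingHom.ext hēa
    rw [this, hQx]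
  obtain ⟨d, hd⟩ := IsIntegrallyClosed.isIntegral_iff.mp hint'
  exact ⟨d, by rw [hx', ← hd, hēa]⟩

/-- AL7 (transfer of roots). -/
theorem exists_root_transfer {L E I : Type*} [Field L] [Field E] [Fintype I] (φ₁ φ₂ : L →+* E)
    (ρL : ℚ →+* L) (ρ : ℚ →+* E) (J z : L) (ε : ℕ → ℚ[X]) (n : ℕ) (r₁ r₂ : I → E)
    (h₁ : ∏ i, (X - C (r₁ i)) = ∑ k ∈ Finset.range (n + 1), (-1) ^ k *
        (C ((ε k).eval₂ ρ (φ₁ J)) * X ^ (n - k)))
    (h₂ : ∏ i, (X - C (r₂ i)) = ∑ k ∈ Finset.range (n + 1), (-1) ^ k *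
        (C ((ε k).eval₂ ρ (φ₂ J)) * X ^ (n - k)))
    (hz : ∃ i, φ₁ z = r₁ i) : ∃ i, φ₂ z = r₂ i := by
  set Q : L[X] := ∑ k ∈ Finset.range (n + 1), (-1) ^ k *
        (C ((ε k).eval₂ ρL J) * X ^ (n - k)) with hQ
  have hmap : ∀ φ : L →+* E, Q.map φ = ∑ k ∈ Finset.range (n + 1), (-1) ^ k *
        (C ((ε k).eval₂ ρ (φ J)) * X ^ (n - k)) := by
    intro φ
    rw [hQ, Polynomial.map_sum]
    refine Finset.sum_congr rfl fun k _ => ?_
    have : φ.comp ρL = ρ := Subsingleton.elim _ _
    have h3 : φ ((ε k).eval₂ ρL J) = (ε k).eval₂ ρ (φ J) := by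
      rw [Polynomial.hom_eval₂, this]
    simp only [Polynomial.map_mul, Polynomial.map_pow, Polynomial.map_neg, Polynomial.map_one,
      Polynomial.map_C, Polynomial.map_X, h3]
  obtain ⟨i, hi⟩ := hz
  have e1 : (Q.map φ₁).eval (φ₁ z) = 0 := by
    rw [hmap, ← h₁, Polynomial.eval_prod]
    exact Finset.prod_eq_zero (Finset.mem_univ i) (by simp [hi])
  rw [Polynomial.eval_map, Polynomial.eval₂_hom, map_eq_zero] at e1
  have e2 : (Q.map φ₂).eval (φ₂ z) = 0 := by
    rw [Polynomial.eval_map, Polynomial.eval₂_hom, e1, map_zero]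
  rw [hmap, ← h₂, Polynomial.eval_prod, Finset.prod_eq_zero_iff] at e2
  obtain ⟨j, -, hj⟩ := e2
  exact ⟨j, by simpa [sub_eq_zero] using hj⟩

end Fermat.Agent.S28
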