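import Fermat.Agent.S28.Neighbors
import Fermat.Agent.S28.FormalHecke

set_option autoImplicit false

namespace Fermat.Agent.S28

theorem heckeHyp (p : ℕ) (hp : p.Prime) : HeckeHyp p := fun a b => formal_hecke p hp a b

end Fermat.Agent.S28
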