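import Fermat.Agent.S28.Setup
import Fermat.Agent.S28.Hecke
import Fermat.Agent.S28.AbsAlg

set_option autoImplicit false
set_option linter.style.haveILetI false
set_option linter.unusedSectionVars false

noncomputable section

namespace Fermat.Agent.S28

open ModularCurve HahnSeries Polynomial

/-- integrality over `ℚ[j]`. -/
def IntJ (x : LaurentSeries ℚ) : Prop := (pe ℚ jq).IsIntegralElem x

theorem IntJ.add {x y : LaurentSeries ℚ} (hx : IntJ x) (hy : IntJ y) : IntJ (x + y) :=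
  RingHom.IsIntegralElem.add _ hx hy

theorem IntJ.mul {x y : LaurentSeries ℚ} (hx : IntJ x) (hy : IntJ y) : IntJ (x * y) :=
  RingHom.IsIntegralElem.mul _ hx hy

theorem IntJ.neg {x : LaurentSeries ℚ} (hx : IntJ x) : IntJ (-x) :=
  RingHom.IsIntegralElem.neg _ hx

theorem IntJ.pe (P : ℚ[X]) : IntJ (pe ℚ jq P) := RingHom.isIntegralElem_map _

namespace IG

/-- the subring of elements integral over `ℚ[j]`. -/
def intJSub : Subring (LaurentSeries ℚ) where
  carrier := {x | IntJ x}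
  mul_mem' := IntJ.mul
  add_mem' := IntJ.add
  neg_mem' := IntJ.neg
  one_mem' := by
    have := IntJ.pe 1
    rwa [map_one] at this
  zero_mem' := by
    have := IntJ.pe 0
    rwa [map_zero] at this

theorem intJ_rQ (c : ℚ) : IntJ (rQ ℚ c) := by
  have := IntJ.pe (Polynomial.C c)
  rwa [pe_apply, eval₂_C] at this

theorem intJ_pe_of {y : LaurentSeries ℚ} (hy : IntJ y) (P : ℚ[X]) : IntJ (Fermat.Agent.S28.pe ℚ y P) := by
  rw [pe_apply, eval₂_eq_sum_range]
  exact intJSub.sum_mem fun i _ => intJSub.mul_mem (intJ_rQ _) (intJSub.pow_mem hy _)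

/-- the neighbour polynomial over `ℚ((q))`. -/
def nbrQ (n : ℕ) (ε : ℕ → ℚ[X]) (y : LaurentSeries ℚ) : (LaurentSeries ℚ)[X] :=
  ∑ k ∈ Finset.range (n + 1), (-1) ^ k *
    (Polynomial.C (Fermat.Agent.S28.pe ℚ y (ε k)) * X ^ (n - k))

theorem intJ_nbrQ_coeff (n : ℕ) (ε : ℕ → ℚ[X]) {y : LaurentSeries ℚ} (hy : IntJ y) (i : ℕ) :
    IntJ ((nbrQ n ε y).coeff i) := by
  rw [nbrQ, finsetSum_coeff]
  refine intJSub.sum_mem fun k _ => ?_
  have : ((-1 : (LaurentSeries ℚ)[X]) ^ k *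
      (Polynomial.C (Fermat.Agent.S28.pe ℚ y (ε k)) * X ^ (n - k))) =
      Polynomial.C ((-1) ^ k * Fermat.Agent.S28.pe ℚ y (ε k)) * X ^ (n - k) := by
    rw [Polynomial.C_mul, Polynomial.C_pow, Polynomial.C_neg, Polynomial.C_1, mul_assoc]
  rw [this, coeff_C_mul, coeff_X_pow]
  refine intJSub.mul_mem (intJSub.mul_mem (intJSub.pow_mem (intJSub.neg_mem intJSub.one_mem) _)
    (intJ_pe_of hy _)) ?_
  split_ifs
  · exact intJSub.one_mem
  · exact intJSub.zero_mem

theorem intJ_eval_of_coeff {Q : (LaurentSeries ℚ)[X]} (hQ : ∀ i, IntJ (Q.coeff i))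
    {x : LaurentSeries ℚ} (hx : IntJ x) : IntJ (Q.eval x) := by
  rw [eval_eq_sum_range]
  exact intJSub.sum_mem fun i _ => intJSub.mul_mem (hQ i) (intJSub.pow_mem hx _)

theorem map_nbrQ {C' : Type} [Field C'] [CharZero C'] (s : LaurentSeries ℚ →+* LaurentSeries C')
    (n : ℕ) (ε : ℕ → ℚ[X]) (y : LaurentSeries ℚ) :
    (nbrQ n ε y).map s = ∑ k ∈ Finset.range (n + 1), (-1) ^ k *
        (Polynomial.C ((ε k).eval₂ (rQ C') (s y)) * X ^ (n - k)) := by
  rw [nbrQ, Polynomial.map_sum]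
  refine Finset.sum_congr rfl fun k _ => ?_
  have : s.comp (rQ ℚ) = rQ C' := Subsingleton.elim _ _
  have h3 : s (Fermat.Agent.S28.pe ℚ y (ε k)) = (ε k).eval₂ (rQ C') (s y) := by
    rw [pe_apply, Polynomial.hom_eval₂, this]
  simp only [Polynomial.map_mul, Polynomial.map_pow, Polynomial.map_neg, Polynomial.map_one,
    Polynomial.map_C, Polynomial.map_X, h3]

section Transfer

variable {C' : Type} [Field C'] [CharZero C']

theorem ev_ev_one (d p : ℕ) [NeZero d] [NeZero p] (ψ : LaurentSeries C') :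
    ev 1 d (ev 1 p ψ) = evz 1 (d * p) ψ := by
  rw [← evz_eq_ev, ← evz_eq_ev, evz_evz _ _ (NeZero.ne d) (NeZero.ne p)]
  simp

theorem intGens_iotaC_evz (p m : ℕ) (hp : p ≠ 0) (hm : m ≠ 0) (ψ : LaurentSeries ℚ) :
    iotaC C' p (evz 1 m ψ) = evz 1 (p * m) (coeffMap (algebraMap ℚ C') ψ) := by
  simp only [iotaC, RingHom.comp_apply, coeffMap_evz, map_one]
  rw [evz_evz _ _ hp hm]
  simp

theorem iotaC_rQ (p : ℕ) (c : ℚ) : iotaC C' p (rQ ℚ c) = rQ C' c := by
  have : (iotaC C' p).comp (rQ ℚ) = rQ C' := Subsingleton.elim _ _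
  exact congrArg (fun f => f c) this

theorem iotaC_jd (d p : ℕ) [NeZero d] [NeZero p] :
    iotaC C' p (jd d) = ev 1 d (ev 1 p (jqModC C')) := by
  rw [jd, intGens_iotaC_evz p d (NeZero.ne p) (NeZero.ne d), ev_ev_one, ← jqModC_rat, coeffMap_jq,
    mul_comm]

theorem algebraMap_natCast_pow (p k : ℕ) :
    algebraMap C' (LaurentSeries C') ((p : C') ^ k) = (p : LaurentSeries C') ^ k := by
  rw [map_pow, map_natCast]

theorem iotaC_Xg (d p : ℕ) [NeZero d] [Fact p.Prime] (ζ : C'ˣ) :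
    iotaC C' p (Xg d p) = ev 1 d (Xi p ζ none) := by
  have hp : p ≠ 0 := NeZero.ne p
  have hd : d ≠ 0 := NeZero.ne d
  rw [Xg, Xi, map_mul, map_mul, map_mul, map_mul, map_pow, map_natCast,
    intGens_iotaC_evz p (d * p) hp (Nat.mul_ne_zero hd hp), intGens_iotaC_evz p d hp hd, ev_algebraMap]
  simp only [evI, nI]
  rw [ev_ev_one, ev_ev_one, algebraMap_natCast_pow, map_pow (coeffMap _), coeffMap_eS,
    coeffMap_dInv, show p * (d * p) = d * (p * p) by ring, mul_comm p d]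

theorem iotaC_Yg (d p : ℕ) [NeZero d] [Fact p.Prime] (ζ : C'ˣ) :
    iotaC C' p (Yg d p) = ev 1 d (Yi p ζ none) := by
  have hp : p ≠ 0 := NeZero.ne p
  have hd : d ≠ 0 := NeZero.ne d
  rw [Yg, Yi, map_mul, map_mul, map_mul, map_mul, map_pow, map_natCast,
    intGens_iotaC_evz p (d * p) hp (Nat.mul_ne_zero hd hp), intGens_iotaC_evz p d hp hd, ev_algebraMap]
  simp only [evI, nI]
  rw [ev_ev_one, ev_ev_one, algebraMap_natCast_pow, coeffMap_dS, coeffMap_dInv,
    show p * (d * p) = d * (p * p) by ring, mul_comm p d]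

theorem orderTop_prod_eq {ι : Type*} (s : Finset ι) (f : ι → LaurentSeries C') (m : ι → ℤ)
    (h : ∀ i ∈ s, (f i).orderTop = (m i : WithTop ℤ)) :
    (∏ i ∈ s, f i).orderTop = ((∑ i ∈ s, m i : ℤ) : WithTop ℤ) := by
  classical
  induction s using Finset.induction_on with
  | empty => simp
  | insert a s ha ih =>
    rw [Finset.prod_insert ha, Finset.sum_insert ha, HahnSeries.orderTop_mul,
      h a (Finset.mem_insert_self a s), ih fun i hi => h i (Finset.mem_insert_of_mem hi)]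
    rfl

theorem orderTop_algebraMap_of_ne {c : C'} (hc : c ≠ 0) :
    (algebraMap C' (LaurentSeries C') c).orderTop = ((0 : ℤ) : WithTop ℤ) := by
  rw [algebraMap_eq_single', HahnSeries.orderTop_single hc]

theorem orderTop_Yi (p : ℕ) [Fact p.Prime] (ζ : C'ˣ) (i : Option (Fin p)) :
    (Yi p ζ i).orderTop =
      (((match i with | none => (p : ℤ) * p - p | some _ => 1 - (p : ℤ)) : ℤ) : WithTop ℤ) := by
  have hp : (p : C') ≠ 0 := Nat.cast_ne_zero.mpr (NeZero.ne p)
  cases i with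
  | none =>
    rw [Yi, HahnSeries.orderTop_mul, HahnSeries.orderTop_mul]
    simp only [evI, nI]
    rw [orderTop_algebraMap_of_ne (pow_ne_zero _ hp), orderTop_ev_eq _ _ _ (orderTop_dS C'),
      orderTop_ev_eq _ _ _ (orderTop_dInv C'), ← WithTop.coe_add, ← WithTop.coe_add]
    congr 1
    push_cast
    ring
  | some b =>
    rw [Yi, HahnSeries.orderTop_mul, HahnSeries.orderTop_mul]
    simp only [evI, nI]
    rw [orderTop_algebraMap_of_ne one_ne_zero, orderTop_ev_eq _ _ _ (orderTop_dS C'),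
      orderTop_ev_eq _ _ _ (orderTop_dInv C'), ← WithTop.coe_add, ← WithTop.coe_add]
    congr 1
    push_cast
    ring

theorem orderTop_prod_Yi (p : ℕ) [Fact p.Prime] (ζ : C'ˣ) :
    (∏ i : Option (Fin p), Yi p ζ i).orderTop = ((0 : ℤ) : WithTop ℤ) := by
  rw [orderTop_prod_eq Finset.univ _ _ fun i _ => orderTop_Yi p ζ i, Fintype.sum_option]
  congr 1
  simp

/-- a rational polynomial in `j(t^p)` of order `0` is a nonzero constant. -/
theorem eq_C_of_orderTop_eval₂ (p : ℕ) [NeZero p] (P : ℚ[X])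
    (h : (P.eval₂ (rQ C') (ev 1 p (jqModC C'))).orderTop = ((0 : ℤ) : WithTop ℤ)) :
    ∃ c₀ : ℚ, c₀ ≠ 0 ∧ P = Polynomial.C c₀ := by
  set P' : C'[X] := P.map (algebraMap ℚ C') with hP'
  have he : Polynomial.aeval (ev 1 p (jqModC C')) P' = P.eval₂ (rQ C') (ev 1 p (jqModC C')) := by
    rw [Polynomial.aeval_def, hP', Polynomial.eval₂_map]
    rfl
  have hdeg : P.natDegree = 0 := by
    by_contra hD
    have hD' : P'.natDegree = P.natDegree := Polynomial.natDegree_map _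
    have h1 := coeff_aeval_ev_jq (1 : C'ˣ) p P' le_rfl
    rw [he] at h1
    have h2 : (P.eval₂ (rQ C') (ev 1 p (jqModC C'))).coeff ((p : ℤ) * (-(P'.natDegree : ℤ))) = 0 := by
      apply HahnSeries.coeff_eq_zero_of_lt_orderTop
      rw [h]
      have hp : (0 : ℤ) < p := by exact_mod_cast Nat.pos_of_ne_zero (NeZero.ne p)
      have hDpos : (0 : ℤ) < P'.natDegree := by
        rw [hD']
        exact_mod_cast Nat.pos_of_ne_zero hD
      have : (p : ℤ) * (-(P'.natDegree : ℤ)) < 0 := by nlinarith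
      exact_mod_cast this
    rw [h2] at h1
    have h3 : P'.coeff P'.natDegree = 0 := (Units.mul_right_eq_zero _).mp h1.symm
    have h4 : P' = 0 := Polynomial.leadingCoeff_eq_zero.mp h3
    rw [h4] at hD'
    exact hD (by simpa using hD'.symm)
  refine ⟨P.coeff 0, ?_, Polynomial.eq_C_of_natDegree_eq_zero hdeg⟩
  intro h0
  have hP0 : P = 0 := by
    rw [Polynomial.eq_C_of_natDegree_eq_zero hdeg, h0, Polynomial.C_0]
  rw [hP0, Polynomial.eval₂_zero, HahnSeries.orderTop_zero] at h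
  exact WithTop.top_ne_coe h

end Transfer

theorem exists_primitive_unit (p : ℕ) (hp : p ≠ 0) : ∃ ζ : ℂˣ, IsPrimitiveRoot ζ p := by
  have h := Complex.isPrimitiveRoot_exp p hp
  refine ⟨(h.isUnit hp).unit, ?_⟩
  rw [← IsPrimitiveRoot.coe_units_iff]
  exact h

/-- the neighbour polynomial and its properties. -/
theorem exists_nbr (d p : ℕ) (hd : d ≠ 0) (hp : p.Prime) (c₁ c₂ : ℚ) :
    ∃ ε : ℕ → ℚ[X], (nbrQ (p + 1) ε (jd d)).Monic ∧
      (nbrQ (p + 1) ε (jd d)).eval (rQ ℚ c₁ * Xg d p + rQ ℚ c₂ * Yg d p) = 0 ∧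
      (c₁ = 0 → c₂ = 1 → ∃ c₀ : ℚ, c₀ ≠ 0 ∧ ε (p + 1) = Polynomial.C c₀) := by
  haveI : NeZero d := ⟨hd⟩
  haveI : Fact p.Prime := ⟨hp⟩
  obtain ⟨ζ, hζ⟩ := exists_primitive_unit p hp.ne_zero
  obtain ⟨ε, hε⟩ := nbr_poly p ζ hζ (heckeHyp p hp) c₁ c₂
  have hmap : (nbrQ (p + 1) ε (jd d)).map (iotaC ℂ p) =
      ∏ i : Option (Fin p), (Polynomial.X -
        Polynomial.C (rQ ℂ c₁ * ev 1 d (Xi p ζ i) + rQ ℂ c₂ * ev 1 d (Yi p ζ i))) := by
    rw [map_nbrQ, hε 1 d, iotaC_jd]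
  refine ⟨ε, ?_, ?_, ?_⟩
  · apply Polynomial.monic_of_injective (iotaC_injective ℂ p)
    rw [hmap]
    exact Polynomial.monic_prod_of_monic _ _ fun i _ => Polynomial.monic_X_sub_C _
  · apply iotaC_injective ℂ p
    rw [map_zero, ← Polynomial.eval₂_hom, ← Polynomial.eval_map, hmap, Polynomial.eval_prod]
    refine Finset.prod_eq_zero (Finset.mem_univ none) ?_
    rw [map_add, map_mul, map_mul, iotaC_rQ, iotaC_rQ, iotaC_Xg d p ζ, iotaC_Yg d p ζ]
    simp
  · intro h1 h2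
    subst h1 h2
    have h := congrArg (Polynomial.eval 0) (hε 1 1)
    rw [Polynomial.eval_prod, Polynomial.eval_finsetSum, Finset.sum_range_succ,
      Finset.sum_eq_zero] at h
    · simp only [map_zero, zero_mul, zero_add, map_one, one_mul, ev_one_one, Polynomial.eval_sub,
        Polynomial.eval_X, Polynomial.eval_C, zero_sub, Polynomial.eval_mul, Polynomial.eval_pow,
        Polynomial.eval_neg, Polynomial.eval_one, Nat.sub_self, pow_zero, mul_one] at h
      rw [Finset.prod_neg, Finset.card_univ, Fintype.card_option, Fintype.card_fin] at h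
      have h' : ∏ i : Option (Fin p), Yi p ζ i = (ε (p + 1)).eval₂ (rQ ℂ) (ev 1 p (jqModC ℂ)) := by
        have hne : ((-1 : LaurentSeries ℂ)) ^ (p + 1) ≠ 0 := pow_ne_zero _ (by simp)
        exact mul_left_cancel₀ hne h
      apply eq_C_of_orderTop_eval₂ (C' := ℂ) p
      rw [← h', orderTop_prod_Yi]
    · intro k hk
      have hk' : k < p + 1 := Finset.mem_range.mp hk
      simp only [Polynomial.eval_mul, Polynomial.eval_pow, Polynomial.eval_X]
      rw [zero_pow (by omega), mul_zero, mul_zero]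

/-- the inductive step. -/
theorem intJ_step (d p : ℕ) (hd : d ≠ 0) (hp : p.Prime) (hj : IntJ (jd d)) :
    IntJ (Xg d p) ∧ IntJ (Yg d p) ∧ IntJ (Yg d p)⁻¹ ∧ Yg d p ≠ 0 := by
  have hX : IntJ (Xg d p) := by
    obtain ⟨ε, hm, he, -⟩ := exists_nbr d p hd hp 1 0
    rw [map_one, map_zero, one_mul, zero_mul, add_zero] at he
    exact isIntegralElem_of_monic_of_coeff _ _ hm (fun i => intJ_nbrQ_coeff _ _ hj i) _ he
  obtain ⟨ε, hm, he, hc⟩ := exists_nbr d p hd hp 0 1
  rw [map_one, map_zero, one_mul, zero_mul, zero_add] at he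
  have hY : IntJ (Yg d p) :=
    isIntegralElem_of_monic_of_coeff _ _ hm (fun i => intJ_nbrQ_coeff _ _ hj i) _ he
  refine ⟨hX, hY, ?_⟩
  obtain ⟨c₀, hc₀, hε⟩ := hc rfl rfl
  set Q := nbrQ (p + 1) ε (jd d) with hQ
  have hQ0 : Q.coeff 0 = (-1) ^ (p + 1) * rQ ℚ c₀ := by
    have h1 : Q.coeff 0 = Q.eval 0 := Polynomial.coeff_zero_eq_eval_zero Q
    rw [h1, hQ, nbrQ, Polynomial.eval_finsetSum, Finset.sum_range_succ, Finset.sum_eq_zero]
    · simp only [Polynomial.eval_mul, Polynomial.eval_pow, Polynomial.eval_neg,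
        Polynomial.eval_one, Polynomial.eval_C, Nat.sub_self, pow_zero, mul_one, zero_add]
      rw [hε, pe_apply, Polynomial.eval₂_C]
    · intro k hk
      have hk' : k < p + 1 := Finset.mem_range.mp hk
      simp only [Polynomial.eval_mul, Polynomial.eval_pow, Polynomial.eval_X]
      rw [zero_pow (by omega), mul_zero, mul_zero]
  have hsplit : Q.divX.eval (Yg d p) * Yg d p + Q.coeff 0 = 0 := by
    have h2 := congrArg (Polynomial.eval (Yg d p)) (Polynomial.divX_mul_X_add Q)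
    rw [he] at h2
    simpa using h2
  set W : LaurentSeries ℚ := -(Q.divX.eval (Yg d p)) * ((-1) ^ (p + 1) * rQ ℚ c₀⁻¹) with hW
  have hWint : IntJ W := by
    refine IntJ.mul (IntJ.neg (intJ_eval_of_coeff (fun i => ?_) hY)) ?_
    · rw [Polynomial.coeff_divX]
      exact intJ_nbrQ_coeff _ _ hj _
    · exact intJSub.mul_mem (intJSub.pow_mem (intJSub.neg_mem intJSub.one_mem) _) (intJ_rQ _)
  have hcc : rQ ℚ c₀ * rQ ℚ c₀⁻¹ = 1 := by
    rw [← map_mul, mul_inv_cancel₀ hc₀, map_one]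
  have hsq : ((-1 : LaurentSeries ℚ) ^ (p + 1)) * (-1) ^ (p + 1) = 1 := by
    rw [← mul_pow]
    simp
  have hYW : Yg d p * W = 1 := by
    rw [hQ0] at hsplit
    have h3 : Q.divX.eval (Yg d p) * Yg d p = -((-1) ^ (p + 1) * rQ ℚ c₀) := by
      linear_combination hsplit
    calc Yg d p * W = -(Q.divX.eval (Yg d p) * Yg d p) * ((-1) ^ (p + 1) * rQ ℚ c₀⁻¹) := by
          rw [hW]; ring
      _ = ((-1 : LaurentSeries ℚ) ^ (p + 1) * (-1) ^ (p + 1)) * (rQ ℚ c₀ * rQ ℚ c₀⁻¹) := by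
          rw [h3]; ring
      _ = 1 := by rw [hsq, hcc, one_mul]
  refine ⟨?_, left_ne_zero_of_mul_eq_one hYW⟩
  rw [← eq_inv_of_mul_eq_one_right hYW]
  exact hWint

theorem jd_mul_Yg (d p : ℕ) : jd (d * p) * Yg d p = Xg d p := by
  rw [jd, Yg, Xg, ← jq_mul_dS, map_mul, jqModC_rat]
  ring

end IG

open IG in
theorem intJ_jd (d : ℕ) (hd : d ≠ 0) : IntJ (jd d) := by
  induction d using Nat.strong_induction_on with
  | _ d ih =>
    by_cases h1 : d = 1
    · subst h1
      have := IntJ.pe Polynomial.X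
      rw [pe_apply, Polynomial.eval₂_X] at this
      rw [jd, evz_one_one]
      exact this
    · obtain ⟨p, hp, d', rfl⟩ := Nat.exists_prime_and_dvd h1
      have hd' : d' ≠ 0 := by
        rintro rfl
        exact hd (by simp)
      have hlt : d' < p * d' := by
        have := hp.two_le
        have : 0 < d' := Nat.pos_of_ne_zero hd'
        nlinarith
      obtain ⟨hX, hY, hYi, hne⟩ := intJ_step d' p hd' hp (ih d' hlt hd')
      have : jd (p * d') = Xg d' p * (Yg d' p)⁻¹ := by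
        rw [mul_comm p d', ← jd_mul_Yg, mul_assoc, mul_inv_cancel₀ hne, mul_one]
      rw [this]
      exact hX.mul hYi

theorem intJ_Xg (d p : ℕ) (hd : d ≠ 0) (hp : p.Prime) : IntJ (Xg d p) :=
  (IG.intJ_step d p hd hp (intJ_jd d hd)).1

theorem intJ_Yg (d p : ℕ) (hd : d ≠ 0) (hp : p.Prime) : IntJ (Yg d p) :=
  (IG.intJ_step d p hd hp (intJ_jd d hd)).2.1

theorem intJ_Yg_inv (d p : ℕ) (hd : d ≠ 0) (hp : p.Prime) : IntJ (Yg d p)⁻¹ :=
  (IG.intJ_step d p hd hp (intJ_jd d hd)).2.2.1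

end Fermat.Agent.S28
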