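import Fermat.Agent.S28.Integ

set_option autoImplicit false
set_option linter.style.haveILetI false
set_option linter.unusedSectionVars false

noncomputable section

namespace Fermat.Agent.S28

open ModularCurve ModularCurve.IgusaScheme HahnSeries Polynomial

variable {ℓ : ℕ} [Fact ℓ.Prime] {V C κ : Type} [CommRing V] [IsDomain V] [IsPrincipalIdealRing V]
  [Field C] [CharZero C] [Algebra V C] [IsFractionRing V C] [Field κ] [IsAlgClosed κ]
  (𝔇 : Data ℓ V C κ) {N : ℕ} [NeZero N]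

namespace DescFin

/-- `ℚ[X] → F`, `X ↦ s`. -/
def psi (N : ℕ) [NeZero N] (s : ↥(modularFunctionFieldFull N)) :
    ℚ[X] →+* ↥(modularFunctionFieldFull N) :=
  Polynomial.eval₂RingHom (algebraMap ℚ ↥(modularFunctionFieldFull N)) s

theorem psi_apply (s : ↥(modularFunctionFieldFull N)) (c : ℚ[X]) :
    psi N s c = ∑ i ∈ Finset.range (c.natDegree + 1),
      algebraMap ℚ ↥(modularFunctionFieldFull N) (c.coeff i) * s ^ i := by
  unfold psi
  rw [Polynomial.coe_eval₂RingHom, Polynomial.eval₂_eq_sum_range]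

theorem algebraMap_mem_adjoin (ℓ : ℕ) [Fact ℓ.Prime] (s : ↥(modularFunctionFieldFull N)) (r : ℚ)
    (hr : r ∈ GaloisRep.ratLocalizedAt ℓ) :
    algebraMap ℚ ↥(modularFunctionFieldFull N) r ∈
      Algebra.adjoin ↥(GaloisRep.ratLocalizedAt ℓ) {s} := by
  have h := Subalgebra.algebraMap_mem (Algebra.adjoin ↥(GaloisRep.ratLocalizedAt ℓ) {s})
    (⟨r, hr⟩ : ↥(GaloisRep.ratLocalizedAt ℓ))
  rw [IsScalarTower.algebraMap_apply ↥(GaloisRep.ratLocalizedAt ℓ) ℚ
    ↥(modularFunctionFieldFull N)] at h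
  exact h

theorem psi_mem_adjoin (ℓ : ℕ) [Fact ℓ.Prime] (s : ↥(modularFunctionFieldFull N)) (c : ℚ[X])
    (hc : ∀ i, c.coeff i ∈ GaloisRep.ratLocalizedAt ℓ) :
    psi N s c ∈ Algebra.adjoin ↥(GaloisRep.ratLocalizedAt ℓ) {s} := by
  rw [psi_apply]
  refine Subalgebra.sum_mem _ fun i _ => ?_
  refine Subalgebra.mul_mem _ ?_
    (Subalgebra.pow_mem _ (Algebra.subset_adjoin (Set.mem_singleton s)) i)
  exact algebraMap_mem_adjoin ℓ s _ (hc i)

/-- abstract last step: a monic polynomial over `ℚ[X]` whose coefficients have `ℓ`-integral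
coefficients. -/
theorem isIntegral_of_monic (ℓ : ℕ) [Fact ℓ.Prime] (s y : ↥(modularFunctionFieldFull N))
    (Q : Polynomial ℚ[X]) (hQ : Q.Monic) (hy : Q.eval₂ (psi N s) y = 0)
    (hc : ∀ i j, (Q.coeff i).coeff j ∈ GaloisRep.ratLocalizedAt ℓ) :
    IsIntegral (Algebra.adjoin ↥(GaloisRep.ratLocalizedAt ℓ) {s}) y := by
  set q : (↥(modularFunctionFieldFull N))[X] := Q.map (psi N s) with hq
  have hqmonic : q.Monic := hQ.map _
  have hlifts : q ∈ Polynomial.lifts
      (algebraMap (Algebra.adjoin ↥(GaloisRep.ratLocalizedAt ℓ) {s})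
        ↥(modularFunctionFieldFull N)) :=
    (Polynomial.lifts_iff_coeff_lifts q).mpr fun i =>
      ⟨⟨q.coeff i, by rw [hq, Polynomial.coeff_map]; exact psi_mem_adjoin ℓ s _ (hc i)⟩, rfl⟩
  obtain ⟨q', hq'q, -, hq'monic⟩ := Polynomial.lifts_and_natDegree_eq_and_monic hlifts hqmonic
  refine ⟨q', hq'monic, ?_⟩
  rw [Polynomial.eval₂_eq_eval_map, hq'q, hq, Polynomial.eval_map, hy]

theorem aeval_eq_pe (c : ℚ[X]) :
    Polynomial.aeval (ev (1 : ℚˣ) 1 (jqModC ℚ)) c = pe ℚ jq c := by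
  rw [ev_one_one, Polynomial.aeval_def, pe_apply]
  congr 1

theorem incF_comp_psi :
    (incF N).comp (psi N (jFull N)) = (algebraMap K0 (F1 N)).comp (algebraMap ℚ[X] K0) := by
  apply Polynomial.ringHom_ext
  · intro a
    exact congrArg (fun f : ℚ →+* F1 N => f a) (Subsingleton.elim
      (((incF N).comp (psi N (jFull N))).comp Polynomial.C)
      (((algebraMap K0 (F1 N)).comp (algebraMap ℚ[X] K0)).comp Polynomial.C))
  · apply Subtype.ext
    have h1 : psi N (jFull N) X = jFull N := by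
      show Polynomial.eval₂ _ _ X = _
      rw [Polynomial.eval₂_X]
    rw [RingHom.comp_apply, h1, incF_coe, RingHom.comp_apply]
    have h2 : ((algebraMap K0 (F1 N) (algebraMap ℚ[X] K0 X) : F1 N) : LaurentSeries ℚ) =
        kap (algebraMap ℚ[X] K0 X) := rfl
    rw [h2, kap_algebraMap, pe_apply, Polynomial.eval₂_X]
    rfl

end DescFin

include 𝔇 in
/-- (J3, finite chart) an element integral over `ℚ[j]` all of whose conjugates lie in `V((t))`
is integral over `ℤ_(ℓ)[j]`. -/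
theorem mem_chartAlgFin_of (y : ↥(modularFunctionFieldFull N)) (hint : IntJ y.1)
    (hσ : ∀ σ : F1 N →ₐ[K0] Lbar C N, σ (incF N y) ∈ (eV V C N).range) :
    y ∈ chartAlgFin N ℓ := by
  have hφ : ∀ r, (algebraMap ℚ[X] K0).IsIntegralElem r → r ∈ (algebraMap ℚ[X] K0).range := by
    intro r hr
    exact IsIntegrallyClosed.isIntegral_iff.1 hr
  have hz : ((algebraMap K0 (F1 N)).comp (algebraMap ℚ[X] K0)).IsIntegralElem (incF N y) := by
    rw [intJ_iff, incF_coe]
    exact hint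
  obtain ⟨Q, hQ, hQz, hQc⟩ := exists_monic_of_embeddings_mem (K0 := K0) (L := F1 N)
    (E := Lbar C N) (algebraMap ℚ[X] K0) hφ (eV V C N).range (incF N y) hz hσ
  rw [mem_chartAlg_iff]
  apply DescFin.isIntegral_of_monic ℓ (jFull N) y Q hQ
  · apply (incF N).injective
    rw [Polynomial.hom_eval₂, DescFin.incF_comp_psi, map_zero]
    exact hQz
  · intro i
    obtain ⟨w, hw⟩ := hQc i
    rw [algebraMap_K0_Lbar, kap_algebraMap] at hw
    have h1 := 𝔇.mem_intSeries_of_eV N _ w hw.symm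
    rw [← DescFin.aeval_eq_pe] at h1
    exact coeff_mem_of_aeval_mem_intSeries (S := GaloisRep.ratLocalizedAt ℓ) (1 : ℚˣ)
      (by simp) (by simp) 1 (Q.coeff i).natDegree (Q.coeff i) le_rfl h1

end Fermat.Agent.S28
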