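import Mathlib

set_option autoImplicit false
set_option linter.unusedSectionVars false
set_option linter.unusedSimpArgs false
set_option linter.style.haveILetI false

noncomputable section

namespace Fermat.Agent.S28

/-! Task G -/
section G
open Polynomial
variable (K0 : Type*) [Field K0] [Algebra ℚ[X] K0] [IsFractionRing ℚ[X] K0]
def phiInv : ℚ[X] →+* K0 :=
  Polynomial.eval₂RingHom ((algebraMap ℚ[X] K0).comp Polynomial.C) (algebraMap ℚ[X] K0 X)⁻¹

theorem phiInv_apply (P : ℚ[X]) :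
    phiInv K0 P = P.eval₂ ((algebraMap ℚ[X] K0).comp Polynomial.C) (algebraMap ℚ[X] K0 X)⁻¹ := rfl

theorem invPoly_eval₂_X (P : ℚ[X]) :
    P.eval₂ ((algebraMap ℚ[X] K0).comp Polynomial.C) (algebraMap ℚ[X] K0 X) =
      algebraMap ℚ[X] K0 P := by
  rw [← Polynomial.hom_eval₂, Polynomial.eval₂_C_X]

theorem invPoly_X_ne_zero : algebraMap ℚ[X] K0 X ≠ 0 := by
  rw [Ne, map_eq_zero_iff _ (IsFractionRing.injective ℚ[X] K0)]
  exact X_ne_zero

theorem phiInv_injective : Function.Injective (phiInv K0) := by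
  rw [injective_iff_map_eq_zero]
  intro P hP
  have hX := invPoly_X_ne_zero K0
  letI : Invertible (algebraMap ℚ[X] K0 X)⁻¹ := invertibleOfNonzero (inv_ne_zero hX)
  have h := Polynomial.eval₂_reverse_mul_pow ((algebraMap ℚ[X] K0).comp Polynomial.C)
    (algebraMap ℚ[X] K0 X)⁻¹ P
  rw [invOf_eq_inv, inv_inv, invPoly_eval₂_X, ← phiInv_apply, hP] at h
  have h2 : algebraMap ℚ[X] K0 P.reverse = 0 := by
    rcases mul_eq_zero.mp h with h | h
    · exact h
    · exact absurd h (pow_ne_zero _ (inv_ne_zero hX))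
  rw [map_eq_zero_iff _ (IsFractionRing.injective ℚ[X] K0), Polynomial.reverse_eq_zero] at h2
  exact h2

/-- the involution `X ↦ 1/X` of `ℚ(X)`. -/
def thetaInv : K0 →+* K0 := IsFractionRing.lift (phiInv_injective K0)

theorem thetaInv_algebraMap (P : ℚ[X]) : thetaInv K0 (algebraMap ℚ[X] K0 P) = phiInv K0 P :=
  IsFractionRing.lift_algebraMap _ _

theorem thetaInv_phiInv (P : ℚ[X]) : thetaInv K0 (phiInv K0 P) = algebraMap ℚ[X] K0 P := by
  rw [phiInv_apply, Polynomial.hom_eval₂, map_inv₀, thetaInv_algebraMap]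
  have h1 : phiInv K0 X = (algebraMap ℚ[X] K0 X)⁻¹ := by simp [phiInv_apply]
  have h2 : (thetaInv K0).comp ((algebraMap ℚ[X] K0).comp Polynomial.C) =
      (algebraMap ℚ[X] K0).comp Polynomial.C := by
    ext c
    simp [thetaInv_algebraMap, phiInv_apply]
  rw [h1, inv_inv, h2, invPoly_eval₂_X]

theorem thetaInv_thetaInv (r : K0) : thetaInv K0 (thetaInv K0 r) = r := by
  have h : (thetaInv K0).comp (thetaInv K0) = RingHom.id K0 := by
    apply IsLocalization.ringHom_ext (nonZeroDivisors ℚ[X])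
    ext P
    · simp [thetaInv_algebraMap, thetaInv_phiInv]
    · simp [thetaInv_algebraMap, thetaInv_phiInv]
  exact congrArg (fun f => f r) h

theorem mem_range_phiInv_of_isIntegralElem (r : K0) (h : (phiInv K0).IsIntegralElem r) :
    r ∈ (phiInv K0).range := by
  obtain ⟨Q, hQ, hQr⟩ := h
  have h1 : IsIntegral ℚ[X] (thetaInv K0 r) := by
    refine ⟨Q, hQ, ?_⟩
    have h2 := congrArg (thetaInv K0) hQr
    rw [Polynomial.hom_eval₂, map_zero] at h2
    have h3 : (thetaInv K0).comp (phiInv K0) = algebraMap ℚ[X] K0 := by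
      ext P <;> simp [thetaInv_phiInv]
    rwa [h3] at h2
  obtain ⟨P, hP⟩ := IsIntegrallyClosed.isIntegral_iff.mp h1
  refine ⟨P, ?_⟩
  rw [← thetaInv_algebraMap, hP, thetaInv_thetaInv]
end G

end Fermat.Agent.S28
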