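import Fermat.Agent.S28.Integ
import Fermat.Agent.S28.InvPoly

set_option autoImplicit false
set_option linter.style.haveILetI false
set_option linter.unusedSectionVars false

noncomputable section

namespace Fermat.Agent.S28

open ModularCurve ModularCurve.IgusaScheme HahnSeries Polynomial

namespace DescInf

theorem kap_phiInv (c : ℚ[X]) : kap (phiInv K0 c) = pe ℚ jq⁻¹ c := by
  rw [phiInv_apply, Polynomial.hom_eval₂, map_inv₀, kap_algebraMap, pe_apply, eval₂_X, pe_apply]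
  congr 1
  ext r
  simp only [RingHom.comp_apply, kap_algebraMap, pe_apply, eval₂_C]

theorem val_comp (N : ℕ) : ((F1 N).val : F1 N →+* LaurentSeries ℚ).comp
    ((algebraMap K0 (F1 N)).comp (phiInv K0)) = pe ℚ jq⁻¹ :=
  RingHom.ext fun c => kap_phiInv c

theorem jq_mem_intSeries (S : Subring ℚ) : jq ∈ intSeries S := by
  intro n
  rw [← jqModC_rat, coeff_jqModC_eq_intCast]
  exact intCast_mem S _

/-- a polynomial in `1/j` with coefficients (as a series) in `S` has coefficients in `S`. -/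
theorem coeff_mem_of_pe_inv_mem (S : Subring ℚ) (c : ℚ[X]) (h : pe ℚ jq⁻¹ c ∈ intSeries S)
    (i : ℕ) : c.coeff i ∈ S := by
  have hj : jq ≠ 0 := jq_ne_zero
  letI : Invertible (jq⁻¹ : LaurentSeries ℚ) := invertibleOfNonzero (inv_ne_zero hj)
  have h1 := Polynomial.eval₂_reverse_mul_pow (rQ ℚ) (jq⁻¹ : LaurentSeries ℚ) c
  rw [invOf_eq_inv, inv_inv] at h1
  have h2 : c.reverse.eval₂ (rQ ℚ) jq = pe ℚ jq⁻¹ c * jq ^ c.natDegree := by
    rw [pe_apply, ← h1, mul_assoc, ← mul_pow, inv_mul_cancel₀ hj, one_pow, mul_one]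
  have h3 : Polynomial.aeval (ev (1 : ℚˣ) 1 (jqModC ℚ)) c.reverse ∈ intSeries S := by
    rw [ev_one_one, Polynomial.aeval_def]
    have : c.reverse.eval₂ (algebraMap ℚ (LaurentSeries ℚ)) (jqModC ℚ) =
        c.reverse.eval₂ (rQ ℚ) jq := by
      congr 1
    rw [this, h2]
    exact Subring.mul_mem _ h (Subring.pow_mem _ (jq_mem_intSeries S) _)
  have h4 := coeff_mem_of_aeval_mem_intSeries (S := S) (1 : ℚˣ) (by simp)
    (by simp) 1 c.reverse.natDegree c.reverse le_rfl h3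
  by_cases hi : i ≤ c.natDegree
  · have h5 := h4 (Polynomial.revAt c.natDegree i)
    rwa [Polynomial.coeff_reverse, Polynomial.revAt_invol] at h5
  · rw [Polynomial.coeff_eq_zero_of_natDegree_lt (not_le.mp hi)]
    exact S.zero_mem

variable (N : ℕ) [NeZero N]

/-- `ℚ[X] → F`, `X ↦ 1/j`. -/
def psi : ℚ[X] →+* ↥(modularFunctionFieldFull N) :=
  Polynomial.eval₂RingHom (algebraMap ℚ ↥(modularFunctionFieldFull N)) (jFull N)⁻¹

theorem psi_apply (c : ℚ[X]) :
    psi N c = c.eval₂ (algebraMap ℚ ↥(modularFunctionFieldFull N)) (jFull N)⁻¹ := rfl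

theorem subtype_comp_psi :
    ((modularFunctionFieldFull N).val : ↥(modularFunctionFieldFull N) →+* LaurentSeries ℚ).comp
      (psi N) = pe ℚ jq⁻¹ := by
  apply Polynomial.ringHom_ext
  · intro a
    rw [RingHom.comp_apply, psi_apply, pe_apply, eval₂_C, eval₂_C, eq_ratCast, map_ratCast,
      eq_ratCast]
  · rw [RingHom.comp_apply, psi_apply, pe_apply, eval₂_X, eval₂_X, map_inv₀]
    rfl

theorem algebraMap_rat_mem (ℓ : ℕ) [Fact ℓ.Prime] (S : Set ↥(modularFunctionFieldFull N))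
    (r : ℚ) (hr : r ∈ GaloisRep.ratLocalizedAt ℓ) :
    algebraMap ℚ ↥(modularFunctionFieldFull N) r ∈
      Algebra.adjoin ↥(GaloisRep.ratLocalizedAt ℓ) S := by
  have h := Subalgebra.algebraMap_mem (Algebra.adjoin ↥(GaloisRep.ratLocalizedAt ℓ) S)
    (⟨r, hr⟩ : ↥(GaloisRep.ratLocalizedAt ℓ))
  rw [IsScalarTower.algebraMap_apply ↥(GaloisRep.ratLocalizedAt ℓ) ℚ
    ↥(modularFunctionFieldFull N)] at h
  exact h

theorem psi_mem_adjoin (ℓ : ℕ) [Fact ℓ.Prime] (c : ℚ[X])
    (hc : ∀ i, c.coeff i ∈ GaloisRep.ratLocalizedAt ℓ) :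
    psi N c ∈ Algebra.adjoin ↥(GaloisRep.ratLocalizedAt ℓ)
      ({(jFull N)⁻¹} : Set ↥(modularFunctionFieldFull N)) := by
  rw [psi_apply, Polynomial.eval₂_eq_sum_range]
  refine Subalgebra.sum_mem _ fun k _ => ?_
  exact Subalgebra.mul_mem _ (algebraMap_rat_mem N ℓ _ _ (hc k))
    (Subalgebra.pow_mem _ (Algebra.subset_adjoin (Set.mem_singleton _)) _)

end DescInf

variable {ℓ : ℕ} [Fact ℓ.Prime] {V C κ : Type} [CommRing V] [IsDomain V] [IsPrincipalIdealRing V]
  [Field C] [CharZero C] [Algebra V C] [IsFractionRing V C] [Field κ] [IsAlgClosed κ]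
  (𝔇 : Data ℓ V C κ) {N : ℕ} [NeZero N]

include 𝔇 in
/-- (J3, infinite chart) an element integral over `ℚ[1/j]` all of whose conjugates lie in
`V((t))` is integral over `ℤ_(ℓ)[1/j]`. -/
theorem mem_chartAlgInf_of (y : ↥(modularFunctionFieldFull N))
    (hint : (pe ℚ jq⁻¹).IsIntegralElem y.1)
    (hσ : ∀ σ : F1 N →ₐ[K0] Lbar C N, σ (incF N y) ∈ (eV V C N).range) :
    y ∈ chartAlgInf N ℓ := by
  have hz : ((algebraMap K0 (F1 N)).comp (phiInv K0)).IsIntegralElem (incF N y) := by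
    obtain ⟨P, hP, hPy⟩ := hint
    refine ⟨P, hP, ?_⟩
    apply ((F1 N).val : F1 N →+* LaurentSeries ℚ).injective
    rw [Polynomial.hom_eval₂, DescInf.val_comp, map_zero]
    have : ((F1 N).val : F1 N →+* LaurentSeries ℚ) (incF N y) = y.1 := incF_coe N y
    rw [this]
    exact hPy
  obtain ⟨Q, hQm, hQz, hQc⟩ := exists_monic_of_embeddings_mem (K0 := K0) (L := F1 N)
    (E := Lbar C N) (phiInv K0) (mem_range_phiInv_of_isIntegralElem K0) (eV V C N).range
    (incF N y) hz hσ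
  have hcoef : ∀ i k, (Q.coeff i).coeff k ∈ GaloisRep.ratLocalizedAt ℓ := by
    intro i
    obtain ⟨w, hw⟩ := hQc i
    rw [algebraMap_K0_Lbar, DescInf.kap_phiInv] at hw
    exact DescInf.coeff_mem_of_pe_inv_mem _ _ (𝔇.mem_intSeries_of_eV N _ w hw.symm)
  have hmonic : (Q.map (DescInf.psi N)).Monic := hQm.map _
  have hlifts : Q.map (DescInf.psi N) ∈ Polynomial.lifts
      (algebraMap (Algebra.adjoin ↥(GaloisRep.ratLocalizedAt ℓ)
        ({(jFull N)⁻¹} : Set ↥(modularFunctionFieldFull N))) ↥(modularFunctionFieldFull N)) :=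
    (Polynomial.lifts_iff_coeff_lifts _).mpr fun i =>
      ⟨⟨(Q.map (DescInf.psi N)).coeff i, by
        rw [Polynomial.coeff_map]
        exact DescInf.psi_mem_adjoin N ℓ _ (hcoef i)⟩, rfl⟩
  obtain ⟨q', hq'q, -, hq'monic⟩ := Polynomial.lifts_and_natDegree_eq_and_monic hlifts hmonic
  refine (mem_chartAlg_iff N ℓ).mpr ⟨q', hq'monic, ?_⟩
  rw [Polynomial.eval₂_eq_eval_map, hq'q, Polynomial.eval_map]
  apply ((modularFunctionFieldFull N).val :
    ↥(modularFunctionFieldFull N) →+* LaurentSeries ℚ).injective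
  rw [Polynomial.hom_eval₂, DescInf.subtype_comp_psi, map_zero]
  have h1 := congrArg ((F1 N).val : F1 N →+* LaurentSeries ℚ) hQz
  rw [Polynomial.hom_eval₂, DescInf.val_comp, map_zero] at h1
  have : ((F1 N).val : F1 N →+* LaurentSeries ℚ) (incF N y) = y.1 := incF_coe N y
  rw [this] at h1
  exact h1

end Fermat.Agent.S28
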