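import Fermat.Agent.S28.Descent
import Fermat.Agent.S28.DescFin
import Fermat.Agent.S28.DescInf

set_option autoImplicit false
set_option linter.style.haveILetI false
set_option linter.unusedSectionVars false

noncomputable section

namespace Fermat.Agent.S28

open ModularCurve ModularCurve.IgusaScheme HahnSeries Polynomial

namespace Final

variable {ℓ : ℕ} [Fact ℓ.Prime] {V C κ : Type} [CommRing V] [IsDomain V] [IsPrincipalIdealRing V]
  [Field C] [CharZero C] [Algebra V C] [IsFractionRing V C] [Field κ] [IsAlgClosed κ]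
  (𝔇 : Data ℓ V C κ) {N : ℕ} [NeZero N]

/-- `1/ℓ` in the function field. -/
def cInv (ℓ N : ℕ) : ↥(modularFunctionFieldFull N) :=
  algebraMap ℚ ↥(modularFunctionFieldFull N) (ℓ : ℚ)⁻¹

theorem cInv_mul : cInv ℓ N * (ℓ : ↥(modularFunctionFieldFull N)) = 1 := by
  have hℓ : (ℓ : ℚ) ≠ 0 := by exact_mod_cast (Fact.out : ℓ.Prime).ne_zero
  have : (ℓ : ↥(modularFunctionFieldFull N)) = algebraMap ℚ _ (ℓ : ℚ) := by simp
  rw [cInv, this, ← map_mul, inv_mul_cancel₀ hℓ, map_one]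

theorem cInv_coe (w : LaurentSeries ℚ) : (cInv ℓ N).1 = pe ℚ w (Polynomial.C (ℓ : ℚ)⁻¹) := by
  rw [pe_apply, Polynomial.eval₂_C]
  have h : (modularFunctionFieldFull N).toSubfield.subtype.comp
      (algebraMap ℚ ↥(modularFunctionFieldFull N)) = rQ ℚ := Subsingleton.elim _ _
  exact congrArg (fun g => g (ℓ : ℚ)⁻¹) h

theorem sigma_cInv_mul (σ : F1 N →ₐ[K0] Lbar C N) (f : ↥(modularFunctionFieldFull N))
    (w : LaurentSeries V) (h : σ (incF N f) = eV V C N ((ℓ : LaurentSeries V) * w)) :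
    σ (incF N (cInv ℓ N * f)) = eV V C N w := by
  have h1 : (ℓ : Lbar C N) = σ (incF N (ℓ : ↥(modularFunctionFieldFull N))) := by
    rw [map_natCast, map_natCast]
  rw [map_mul, map_mul, h, map_mul, map_natCast, h1, ← mul_assoc, ← map_mul, ← map_mul, cInv_mul,
    map_one, map_one, one_mul]

theorem eq_mul_cInv_mul (f : ↥(modularFunctionFieldFull N)) :
    f = (ℓ : ↥(modularFunctionFieldFull N)) * (cInv ℓ N * f) := by
  rw [← mul_assoc, mul_comm (ℓ : ↥(modularFunctionFieldFull N)), cInv_mul, one_mul]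

include 𝔇 in
theorem div_mem_fin (hℓN : ¬ ℓ ∣ N) (f : ↥(modularFunctionFieldFull N))
    (hf : f ∈ chartAlgFin N ℓ) (y : LaurentSeries ℚ)
    (hy : y ∈ intSeries (GaloisRep.ratLocalizedAt ℓ))
    (hfy : f.1 = (ℓ : LaurentSeries ℚ) * y) : cInv ℓ N * f ∈ chartAlgFin N ℓ := by
  apply mem_chartAlgFin_of 𝔇
  · have : (cInv ℓ N * f).1 = (cInv ℓ N).1 * f.1 := rfl
    rw [this, cInv_coe jq]
    exact (IntJ.pe _).mul (intJ_of_chartAlgFin f hf)
  · intro σ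
    obtain ⟨w, hw⟩ := sigma_dvd_of_fin 𝔇 hℓN f hf y hy hfy σ
    exact ⟨w, (sigma_cInv_mul σ f w hw).symm⟩

theorem jq_mem_intSeries (S : Subring ℚ) : jq ∈ intSeries S := by
  intro n
  rw [← jqModC_rat, coeff_jqModC_eq_intCast]
  exact intCast_mem S _

include 𝔇 in
theorem div_mem_inf (hℓN : ¬ ℓ ∣ N) (f : ↥(modularFunctionFieldFull N))
    (hf : f ∈ chartAlgInf N ℓ) (y : LaurentSeries ℚ)
    (hy : y ∈ intSeries (GaloisRep.ratLocalizedAt ℓ))
    (hfy : f.1 = (ℓ : LaurentSeries ℚ) * y) : cInv ℓ N * f ∈ chartAlgInf N ℓ := by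
  apply mem_chartAlgInf_of 𝔇
  · have : (cInv ℓ N * f).1 = (cInv ℓ N).1 * f.1 := rfl
    rw [this, cInv_coe jq⁻¹]
    exact RingHom.IsIntegralElem.mul _ (RingHom.isIntegralElem_map _)
      (intJinv_of_chartAlgInf f hf)
  · intro σ
    have hf' : f ∈ chartAlg N ℓ (insert (jFull N)⁻¹ {jFull N}) :=
      chartAlg_mono N ℓ (Set.singleton_subset_iff.mpr (Set.mem_insert _ _)) hf
    obtain ⟨n, hn⟩ := exists_pow_mul_mem_chartAlg (Set.mem_singleton _) (jFull_ne_zero N) hf'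
    have h1 : ((jFull N) ^ n * f).1 = (ℓ : LaurentSeries ℚ) * (jq ^ n * y) := by
      have : ((jFull N) ^ n * f).1 = jq ^ n * f.1 := rfl
      rw [this, hfy]; ring
    obtain ⟨w, hw⟩ := sigma_dvd_of_fin 𝔇 hℓN _ hn (jq ^ n * y)
      (Subring.mul_mem _ (Subring.pow_mem _ (jq_mem_intSeries _) n) hy) h1 σ
    have h2 := sigma_cInv_mul σ _ w hw
    refine ⟨w * evz 1 N (jInv V) ^ n, ?_⟩
    rw [map_mul, ← h2, map_pow, ← integ_sigma_jFull_inv σ, ← map_pow, ← map_pow, ← map_mul,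
      ← map_mul]
    congr 2
    have hj : jFull N * (jFull N)⁻¹ = 1 := mul_inv_cancel₀ (jFull_ne_zero N)
    calc cInv ℓ N * (jFull N ^ n * f) * (jFull N)⁻¹ ^ n
        = cInv ℓ N * f * (jFull N * (jFull N)⁻¹) ^ n := by rw [mul_pow]; ring
      _ = cInv ℓ N * f := by rw [hj, one_pow, mul_one]

/-- the `q`-expansion ring hom of a chart algebra. -/
def valS (ℓ N : ℕ) [Fact ℓ.Prime] [NeZero N] (S : Set ↥(modularFunctionFieldFull N)) :
    chartAlg N ℓ S →+* LaurentSeries ℚ :=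
  (modularFunctionFieldFull N).toSubfield.subtype.comp (chartAlg N ℓ S).toSubring.subtype

theorem valS_apply (S : Set ↥(modularFunctionFieldFull N)) (f : chartAlg N ℓ S) :
    valS ℓ N S f = f.1.1 := rfl

/-- `ℤ_(ℓ)((q)) → ℚ((q))`. -/
def gR (ℓ : ℕ) : LaurentSeries ↥(GaloisRep.ratLocalizedAt ℓ) →+* LaurentSeries ℚ :=
  coeffMap (GaloisRep.ratLocalizedAt ℓ).subtype

theorem gR_injective : Function.Injective (gR ℓ) :=
  coeffMap_injective Subtype.val_injective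

theorem range_gR : (gR ℓ).range = intSeries (GaloisRep.ratLocalizedAt ℓ) := by
  rw [gR, range_coeffMap Subtype.val_injective, Subring.range_subtype]

include 𝔇 in
theorem exists_phi (hℓN : ¬ ℓ ∣ N) (S : Set ↥(modularFunctionFieldFull N))
    (hS : S ⊆ {jFull N, (jFull N)⁻¹}) :
    ∃ φ : chartAlg N ℓ S →+* LaurentSeries (ZMod ℓ), ∀ f : chartAlg N ℓ S,
      φ f = 0 ↔ ∃ y ∈ intSeries (GaloisRep.ratLocalizedAt ℓ),
        f.1.1 = (ℓ : LaurentSeries ℚ) * y := by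
  have hrange : ∀ f : chartAlg N ℓ S, valS ℓ N S f ∈ (gR ℓ).range := by
    intro f
    rw [range_gR, valS_apply]
    exact mem_intSeries_of_chartAlg 𝔇 hℓN S hS f.1 f.2
  set L := liftInj (valS ℓ N S) (gR ℓ) gR_injective hrange with hL
  have hLs : ∀ f, gR ℓ (L f) = f.1.1 := fun f => liftInj_spec _ _ _ _ f
  have hℓ0 : ((ℓ : ℕ) : ↥(GaloisRep.ratLocalizedAt ℓ)) ≠ 0 := by
    exact_mod_cast (Fact.out : ℓ.Prime).ne_zero
  refine ⟨(coeffMap (resR ℓ)).comp L, fun f => ?_⟩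
  rw [RingHom.comp_apply, coeffMap_eq_zero_iff (resR ℓ) ℓ hℓ0 (ker_resR ℓ)]
  constructor
  · rintro ⟨y', hy'⟩
    refine ⟨gR ℓ y', ?_, ?_⟩
    · rw [← range_gR]; exact ⟨y', rfl⟩
    · rw [← hLs, hy', map_mul, map_natCast]
  · rintro ⟨y, hy, hfy⟩
    rw [← range_gR] at hy
    obtain ⟨y', rfl⟩ := hy
    refine ⟨y', gR_injective ?_⟩
    rw [hLs, hfy, map_mul, map_natCast]

include 𝔇 in
theorem exists_phi_ker (hℓN : ¬ ℓ ∣ N) (S : Set ↥(modularFunctionFieldFull N))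
    (hS : S ⊆ {jFull N, (jFull N)⁻¹})
    (hdiv : ∀ f : ↥(modularFunctionFieldFull N), f ∈ chartAlg N ℓ S →
      ∀ y ∈ intSeries (GaloisRep.ratLocalizedAt ℓ), f.1 = (ℓ : LaurentSeries ℚ) * y →
        cInv ℓ N * f ∈ chartAlg N ℓ S) :
    ∃ φ : chartAlg N ℓ S →+* LaurentSeries (ZMod ℓ),
      RingHom.ker φ = Ideal.span {(ℓ : chartAlg N ℓ S)} := by
  obtain ⟨φ, hφ⟩ := exists_phi 𝔇 hℓN S hS
  refine ⟨φ, ?_⟩
  ext f
  rw [RingHom.mem_ker, hφ, Ideal.mem_span_singleton]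
  constructor
  · rintro ⟨y, hy, hfy⟩
    refine ⟨⟨cInv ℓ N * f.1, hdiv f.1 f.2 y hy hfy⟩, Subtype.ext ?_⟩
    exact eq_mul_cInv_mul f.1
  · rintro ⟨g, rfl⟩
    exact ⟨g.1.1, mem_intSeries_of_chartAlg 𝔇 hℓN S hS g.1 g.2, rfl⟩

end Final

end Fermat.Agent.S28
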