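import Fermat.Agent.S28.TensorDomain

/-!
S28, sub-task C: scheme part.  Given mod-`ℓ` `q`-expansion ring homs on the charts of the
Igusa scheme with kernel `(ℓ)`, every characteristic-`ℓ` fibre is integral.
-/

set_option autoImplicit false

open AlgebraicGeometry CategoryTheory CategoryTheory.Limits ModularCurve ModularCurve.IgusaScheme
open TensorProduct

noncomputable section

namespace Fermat.Agent.S28

/-- A scheme covered by integral opens that all contain a common point is integral. -/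
theorem isIntegral_of_openCover {X : Scheme.{0}} (𝒲 : X.OpenCover)
    (hint : ∀ i, IsIntegral (𝒲.X i))
    (x₀ : X) (hx₀ : ∀ i, x₀ ∈ Set.range (𝒲.f i).base) : IsIntegral X := by
  have : IsReduced X := by
    have : ∀ i, IsReduced (𝒲.X i) := fun i => inferInstance
    exact IsReduced.of_openCover (𝒰 := 𝒲)
  have : PreirreducibleSpace X := by
    refine PreirreducibleSpace.of_isOpenCover (U := fun i => (𝒲.f i).opensRange) ?_
      𝒲.isOpenCover_opensRange ?_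
    · intro i j _ hd
      have h1 : x₀ ∈ (𝒲.f i).opensRange ⊓ (𝒲.f j).opensRange := ⟨hx₀ i, hx₀ j⟩
      rw [disjoint_iff.mp hd] at h1
      exact h1
    · intro i
      have : IsPreirreducible (Set.range (𝒲.f i).base) := by
        rw [← Set.image_univ]
        exact (PreirreducibleSpace.isPreirreducible_univ).image _ (𝒲.f i).continuous.continuousOn
      exact Subtype.preirreducibleSpace this
  have : IrreducibleSpace X := { toNonempty := ⟨x₀⟩ }
  exact isIntegral_of_irreducibleSpace_of_isReduced X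

theorem mem_range_pullback_map {X Y Z U M : Scheme.{0}} (f : X ⟶ Z) (g : Y ⟶ Z) (ι : U ⟶ X)
    (j : M ⟶ U) (m : M ⟶ Z) (k : M ⟶ X) (hk : k = j ≫ ι) (hm : m ≫ 𝟙 Z = k ≫ f)
    (hg : g ≫ 𝟙 Z = 𝟙 Y ≫ g)
    (t : ↥(pullback m g)) :
    (pullback.map m g f g k (𝟙 _) (𝟙 _) hm hg).base t ∈
      Set.range (pullback.map (ι ≫ f) g f g ι (𝟙 _) (𝟙 _) (by simp) (by simp)).base := by
  have e3 : m ≫ 𝟙 Z = j ≫ (ι ≫ f) := by rw [hm, hk, Category.assoc]
  have key : pullback.map m g (ι ≫ f) g j (𝟙 _) (𝟙 _) e3 hg ≫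
      pullback.map (ι ≫ f) g f g ι (𝟙 _) (𝟙 _) (by simp) (by simp) =
      pullback.map m g f g k (𝟙 _) (𝟙 _) hm hg := by
    subst hk
    rw [pullback.map_comp]
    congr 1
  refine ⟨(pullback.map m g (ι ≫ f) g j (𝟙 _) (𝟙 _) e3 hg).base t, ?_⟩
  rw [← key]
  rfl

variable (N : ℕ) [NeZero N] (ℓ : ℕ) [Fact ℓ.Prime]

theorem isIntegral_piece (A : Type) [CommRing A] [Algebra (Rl ℓ) A]
    (φ : A →+* LaurentSeries (ZMod ℓ)) (hφ : RingHom.ker φ = Ideal.span {(ℓ : A)})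
    (K : Type) [Field K] [CharP K ℓ] [Algebra (Rl ℓ) K]
    (f : Spec (CommRingCat.of A) ⟶ Spec (CommRingCat.of (Rl ℓ)))
    (hf : f = Spec.map (CommRingCat.ofHom (algebraMap (Rl ℓ) A))) :
    IsIntegral (pullback f (Spec.map (CommRingCat.ofHom (algebraMap (Rl ℓ) K)))) := by
  subst hf
  have : IsDomain (A ⊗[Rl ℓ] K) := isDomain_tensor φ K hφ
  have : IsIntegral (Spec (CommRingCat.of (A ⊗[Rl ℓ] K))) := inferInstance
  exact IsIntegral.of_isIso (pullbackSpecIso (Rl ℓ) A K).inv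

/-- objects of the two-chart cover -/
def chartObj : Bool → Scheme.{0}
  | true => XFin N ℓ
  | false => XInf N ℓ

/-- maps of the two-chart cover -/
def chartMap : (b : Bool) → chartObj N ℓ b ⟶ ModularCurve.IgusaScheme N ℓ
  | true => ιFin N ℓ
  | false => ιInf N ℓ

instance chartMap_isOpenImmersion (b : Bool) : IsOpenImmersion (chartMap N ℓ b) := by
  cases b
  · exact isOpenImmersion_ιInf N ℓ
  · exact isOpenImmersion_ιFin N ℓ

/-- The two-chart cover of the Igusa scheme. -/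
def twoCover : (ModularCurve.IgusaScheme N ℓ).OpenCover :=
  Scheme.Cover.mkOfCovers Bool (chartObj N ℓ) (chartMap N ℓ) (by
    intro x
    rcases mem_range_ιFin_or_mem_range_ιInf N ℓ x with ⟨y, hy⟩ | ⟨y, hy⟩
    · exact ⟨true, y, hy⟩
    · exact ⟨false, y, hy⟩)

theorem fFin_toBase :
    fFin N ℓ ≫ Spec.map (CommRingCat.ofHom (algebraMap (Rl ℓ) (chartAlgFin N ℓ))) =
      Spec.map (CommRingCat.ofHom (algebraMap (Rl ℓ) (chartAlgMid N ℓ))) := by
  have h : (inclFin N ℓ).toRingHom.comp (algebraMap (Rl ℓ) (chartAlgFin N ℓ)) =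
      algebraMap (Rl ℓ) (chartAlgMid N ℓ) :=
    RingHom.ext fun a => (inclFin N ℓ).commutes a
  simp only [← Spec.map_comp, ← CommRingCat.ofHom_comp, h]

theorem isIntegral_of_qExpansion_homs
    (N : ℕ) [NeZero N] (ℓ : ℕ) [Fact ℓ.Prime]
    (φfin : chartAlgFin N ℓ →+* LaurentSeries (ZMod ℓ))
    (hfin : RingHom.ker φfin = Ideal.span {(ℓ : chartAlgFin N ℓ)})
    (φinf : chartAlgInf N ℓ →+* LaurentSeries (ZMod ℓ))
    (hinf : RingHom.ker φinf = Ideal.span {(ℓ : chartAlgInf N ℓ)})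
    (φmid : chartAlgMid N ℓ →+* LaurentSeries (ZMod ℓ))
    (K : Type) [Field K] [CharP K ℓ] [Algebra ↥(GaloisRep.ratLocalizedAt ℓ) K] :
    IsIntegral (pullback (igusaTo N ℓ)
      (Spec.map (CommRingCat.ofHom (algebraMap ↥(GaloisRep.ratLocalizedAt ℓ) K)))) := by
  have hnt : Nontrivial (chartAlgMid N ℓ ⊗[Rl ℓ] K) := nontrivial_tensor φmid K
  obtain ⟨t'⟩ : Nonempty (Spec (CommRingCat.of (chartAlgMid N ℓ ⊗[Rl ℓ] K))) :=
    inferInstanceAs (Nonempty (PrimeSpectrum (chartAlgMid N ℓ ⊗[Rl ℓ] K)))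
  have e1 : Spec.map (CommRingCat.ofHom (algebraMap (Rl ℓ) (chartAlgMid N ℓ))) ≫ 𝟙 _ =
      (fFin N ℓ ≫ ιFin N ℓ) ≫ igusaTo N ℓ := by
    rw [Category.comp_id, Category.assoc, ιFin_igusaTo, fFin_toBase]
  have e2 : Spec.map (CommRingCat.ofHom (algebraMap (Rl ℓ) K)) ≫ 𝟙 _ =
      𝟙 _ ≫ Spec.map (CommRingCat.ofHom (algebraMap (Rl ℓ) K)) := by simp
  refine isIntegral_of_openCover
    (Scheme.Pullback.openCoverOfLeft (twoCover N ℓ) (igusaTo N ℓ)
      (Spec.map (CommRingCat.ofHom (algebraMap (Rl ℓ) K)))) ?_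
    ((pullback.map _ _ _ _ (fFin N ℓ ≫ ιFin N ℓ) (𝟙 _) (𝟙 _) e1 e2).base
      ((pullbackSpecIso (Rl ℓ) (chartAlgMid N ℓ) K).inv.base t')) ?_
  · rintro (_ | _)
    · exact isIntegral_piece ℓ (chartAlgInf N ℓ) φinf hinf K _ (ιInf_igusaTo N ℓ)
    · exact isIntegral_piece ℓ (chartAlgFin N ℓ) φfin hfin K _ (ιFin_igusaTo N ℓ)
  · rintro (_ | _)
    · exact mem_range_pullback_map (igusaTo N ℓ) _ (ιInf N ℓ) (fInf N ℓ) _ _
        (glue_condition N ℓ) e1 e2 _
    · exact mem_range_pullback_map (igusaTo N ℓ) _ (ιFin N ℓ) (fFin N ℓ) _ _ rfl e1 e2 _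

end Fermat.Agent.S28
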