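import Mathlib
import Fermat.Prelude.Def_GaloisRep_Flat
import Fermat.Prelude.Def_ModularCurve_LaurentCoeff

set_option autoImplicit false

noncomputable section

namespace Fermat.Agent.S28

open ModularCurve

/-! Task E -/
section E
variable (ℓ : ℕ) [Fact ℓ.Prime]
abbrev kb := AlgebraicClosure (ZMod ℓ)
abbrev WV := WittVector ℓ (kb ℓ)
abbrev WC := FractionRing (WV ℓ)
instance : IsDomain (WV ℓ) := inferInstance
instance : IsPrincipalIdealRing (WV ℓ) := inferInstance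

theorem charZero_WV : CharZero (WV ℓ) := by
  obtain ⟨c, hc⟩ := CharP.exists (WV ℓ)
  rcases CharP.char_is_prime_or_zero (WV ℓ) c with h | h
  · exfalso
    have h1 : (c : WV ℓ) = 0 := CharP.cast_eq_zero _ _
    have h2 : (c : kb ℓ) = 0 := by
      have h := congrArg (WittVector.constantCoeff : WV ℓ →+* kb ℓ) h1
      rwa [map_natCast, map_zero] at h
    have h3 : ℓ ∣ c := (CharP.cast_eq_zero_iff (kb ℓ) ℓ c).mp h2
    have h4 : ℓ = c := (Nat.prime_dvd_prime_iff_eq Fact.out h).mp h3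
    subst h4
    exact WittVector.p_nonzero ℓ (kb ℓ) h1
  · subst h
    exact CharP.charP_to_charZero _

instance instCharZeroWC : CharZero (WC ℓ) :=
  have := charZero_WV ℓ
  charZero_of_injective_algebraMap (IsFractionRing.injective (WV ℓ) (WC ℓ))
def wRed : WV ℓ →+* kb ℓ := WittVector.constantCoeff
theorem ker_wRed : RingHom.ker (wRed ℓ) = Ideal.span {(ℓ : WV ℓ)} :=
  WittVector.ker_constantCoeff
def wTau : (kb ℓ)ˣ →* (WV ℓ)ˣ := Units.map (WittVector.teichmuller ℓ : kb ℓ →* WV ℓ)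
theorem wRed_wTau (x : (kb ℓ)ˣ) : wRed ℓ (wTau ℓ x : WV ℓ) = x := by
  simp [wRed, wTau, WittVector.constantCoeff_apply, WittVector.teichmuller_coeff_zero]
theorem mem_ratLocalizedAt_iff (c : ℚ) :
    (∃ v : WV ℓ, algebraMap (WV ℓ) (WC ℓ) v = algebraMap ℚ (WC ℓ) c) ↔
      c ∈ GaloisRep.ratLocalizedAt ℓ := by
  have hℓ : ℓ.Prime := Fact.out
  have hinj := IsFractionRing.injective (WV ℓ) (WC ℓ)
  have hden0 : ((c.den : WC ℓ)) ≠ 0 := by exact_mod_cast c.den_ne_zero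
  have hc : algebraMap ℚ (WC ℓ) c = (c.num : WC ℓ) / (c.den : WC ℓ) := by
    rw [eq_ratCast, Rat.cast_def]
  constructor
  · rintro ⟨v, hv⟩
    show c.den.Coprime ℓ
    rw [Nat.coprime_comm, hℓ.coprime_iff_not_dvd]
    intro hdvd
    rw [hc, eq_div_iff hden0] at hv
    have h1 : v * (c.den : WV ℓ) = (c.num : WV ℓ) := by
      apply hinj
      rw [map_mul, map_natCast, map_intCast, hv]
    have h2 := congrArg (wRed ℓ) h1
    rw [map_mul, map_natCast, map_intCast, (CharP.cast_eq_zero_iff (kb ℓ) ℓ c.den).mpr hdvd,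
      mul_zero] at h2
    have h3 : (ℓ : ℤ) ∣ c.num := (CharP.intCast_eq_zero_iff (kb ℓ) ℓ c.num).mp h2.symm
    have h4 : ℓ ∣ c.num.natAbs := Int.natCast_dvd.mp h3
    have h5 := Nat.dvd_gcd h4 hdvd
    rw [c.reduced] at h5
    exact hℓ.one_lt.ne' (Nat.dvd_one.mp h5)
  · intro hmem
    have hcop : c.den.Coprime ℓ := hmem
    have hnd : ¬ ℓ ∣ c.den := by
      rw [Nat.coprime_comm, hℓ.coprime_iff_not_dvd] at hcop
      exact hcop
    have hu : IsUnit (c.den : WV ℓ) := by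
      apply WittVector.isUnit_of_coeff_zero_ne_zero
      have : (c.den : WV ℓ).coeff 0 = (c.den : kb ℓ) :=
        map_natCast (WittVector.constantCoeff : WV ℓ →+* kb ℓ) c.den
      rw [this, Ne, CharP.cast_eq_zero_iff (kb ℓ) ℓ]
      exact hnd
    obtain ⟨u, hu⟩ := hu
    refine ⟨(c.num : WV ℓ) * ((u⁻¹ : (WV ℓ)ˣ) : WV ℓ), ?_⟩
    rw [hc, eq_div_iff hden0, map_mul, map_intCast, mul_assoc]
    have : algebraMap (WV ℓ) (WC ℓ) ((u⁻¹ : (WV ℓ)ˣ) : WV ℓ) * (c.den : WC ℓ) = 1 := by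
      rw [← map_natCast (algebraMap (WV ℓ) (WC ℓ)), ← map_mul, ← hu, Units.inv_mul, map_one]
    rw [this, mul_one]
end E

end Fermat.Agent.S28
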