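import Mathlib

set_option autoImplicit false

noncomputable section

namespace Fermat.Agent.S28

open Polynomial

/-- AL1 (trace). -/
theorem sum_embeddings_eq_poly {K0 L E : Type*} [Field K0] [CharZero K0] [Algebra ℚ[X] K0]
    [IsFractionRing ℚ[X] K0] [Field L] [Algebra K0 L] [FiniteDimensional K0 L] [Field E]
    [IsAlgClosed E] [Algebra K0 E] (z : L)
    (hz : ((algebraMap K0 L).comp (algebraMap ℚ[X] K0)).IsIntegralElem z) :
    ∃ P : ℚ[X], ∑ σ : L →ₐ[K0] E, σ z = algebraMap K0 E (algebraMap ℚ[X] K0 P) := by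
  let _ : Algebra ℚ[X] L := ((algebraMap K0 L).comp (algebraMap ℚ[X] K0)).toAlgebra
  have : IsScalarTower ℚ[X] K0 L := IsScalarTower.of_algebraMap_eq' rfl
  have hz' : IsIntegral ℚ[X] z := hz
  have htr : IsIntegral ℚ[X] (Algebra.trace K0 L z) := Algebra.isIntegral_trace hz'
  obtain ⟨P, hP⟩ := IsIntegrallyClosed.isIntegral_iff.1 htr
  refine ⟨P, ?_⟩
  rw [hP, trace_eq_sum_embeddings E]

/-- AL2 (descent of integrality). -/
theorem exists_monic_of_embeddings_mem {K0 L E : Type*} [Field K0] [CharZero K0]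
    [Field L] [Algebra K0 L] [FiniteDimensional K0 L] [Field E]
    [IsAlgClosed E] [Algebra K0 E] (φ : ℚ[X] →+* K0)
    (hφ : ∀ r, φ.IsIntegralElem r → r ∈ φ.range) (𝒟 : Subring E) (z : L)
    (hz : ((algebraMap K0 L).comp φ).IsIntegralElem z) (hσ : ∀ σ : L →ₐ[K0] E, σ z ∈ 𝒟) :
    ∃ Q : Polynomial ℚ[X], Q.Monic ∧ Q.eval₂ ((algebraMap K0 L).comp φ) z = 0 ∧
      ∀ i, algebraMap K0 E (φ (Q.coeff i)) ∈ 𝒟 := by
  classical
  obtain ⟨f, hf, hfz⟩ := hz
  have hzint : IsIntegral K0 z := Algebra.IsIntegral.isIntegral z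
  have hmonic : (minpoly K0 z).Monic := minpoly.monic hzint
  let _ : Algebra ℚ[X] K0 := φ.toAlgebra
  have hdvd : minpoly K0 z ∣ f.map (algebraMap ℚ[X] K0) := by
    apply minpoly.dvd
    rw [aeval_def, eval₂_map]
    exact hfz
  have hl := integralClosure.mem_lifts_of_monic_of_dvd_map K0 hf hmonic hdvd
  have hl' : minpoly K0 z ∈ lifts φ := by
    rw [lifts_iff_coeff_lifts] at hl ⊢
    intro n
    obtain ⟨⟨c, hc⟩, hcn⟩ := hl n
    have : φ.IsIntegralElem c := hc
    obtain ⟨r, hr⟩ := hφ c this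
    exact ⟨r, by rw [hr]; exact hcn⟩
  obtain ⟨Q, hQmap, -, hQmonic⟩ := lifts_and_natDegree_eq_and_monic hl' hmonic
  refine ⟨Q, hQmonic, ?_, ?_⟩
  · rw [← eval₂_map, hQmap]
    exact minpoly.aeval K0 z
  · intro i
    have h1 : algebraMap K0 E (φ (Q.coeff i)) = ((minpoly K0 z).map (algebraMap K0 E)).coeff i := by
      rw [← hQmap, coeff_map, coeff_map]
    rw [h1]
    have hsplit : ((minpoly K0 z).map (algebraMap K0 E)).Splits := IsAlgClosed.splits _
    have hprod := hsplit.eq_prod_roots_of_monic (hmonic.map _)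
    have hmem : (minpoly K0 z).map (algebraMap K0 E) ∈ lifts 𝒟.subtype := by
      rw [hprod]
      apply Subsemiring.multiset_prod_mem
      intro a ha
      obtain ⟨r, hr, rfl⟩ := Multiset.mem_map.1 ha
      have hr' : r ∈ (minpoly K0 z).rootSet E := by
        rw [rootSet_def, aroots_def]
        simpa using hr
      rw [← Algebra.IsAlgebraic.range_eval_eq_rootSet_minpoly E z] at hr'
      obtain ⟨σ, rfl⟩ := hr'
      rw [mem_lifts]
      exact ⟨X - C ⟨σ z, hσ σ⟩, by simp⟩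
    rw [lifts_iff_coeff_lifts] at hmem
    obtain ⟨c, hc⟩ := hmem i
    rw [← hc]
    exact c.2

end Fermat.Agent.S28
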