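import Fermat.Agent.S28.IntGens

set_option autoImplicit false
set_option linter.style.haveILetI false

noncomputable section

namespace Fermat.Agent.S28

open ModularCurve HahnSeries Polynomial

theorem gens_finite (N : ℕ) [NeZero N] : (gens N).Finite := by
  have hfin : ((fun dp : ℕ × ℕ => Xg dp.1 dp.2) '' (↑(N.divisors ×ˢ N.divisors) : Set (ℕ × ℕ)) ∪
      (fun dp : ℕ × ℕ => Yg dp.1 dp.2) '' (↑(N.divisors ×ˢ N.divisors) : Set (ℕ × ℕ))).Finite :=
    ((Finset.finite_toSet _).image _).union ((Finset.finite_toSet _).image _)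
  refine hfin.subset ?_
  rintro x ⟨d, p, -, hdp, hx⟩
  have hN : N ≠ 0 := NeZero.ne N
  have hmem : (d, p) ∈ (↑(N.divisors ×ˢ N.divisors) : Set (ℕ × ℕ)) := by
    simp only [Finset.coe_product, Set.mem_prod, Finset.mem_coe, Nat.mem_divisors]
    exact ⟨⟨(Dvd.intro _ rfl).trans hdp, hN⟩, ⟨(Dvd.intro_left _ rfl).trans hdp, hN⟩⟩
  rcases hx with rfl | rfl
  · exact Or.inl ⟨(d, p), hmem, rfl⟩
  · exact Or.inr ⟨(d, p), hmem, rfl⟩

/-- integral over `ℚ[j]` implies integral (algebraic) over `K0`. -/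
theorem IntJ.isIntegral_K0 {x : LaurentSeries ℚ} (hx : IntJ x) : IsIntegral K0 x := by
  obtain ⟨P, hP, hPx⟩ := hx
  refine ⟨P.map (algebraMap ℚ[X] K0), hP.map _, ?_⟩
  rw [Polynomial.eval₂_map]
  have : (algebraMap K0 (LaurentSeries ℚ)).comp (algebraMap ℚ[X] K0) = Fermat.Agent.S28.pe ℚ jq := by
    exact RingHom.ext fun Q => kap_algebraMap Q
  rw [this]
  exact hPx

instance finiteDimensional_F1 (N : ℕ) [NeZero N] : FiniteDimensional K0 (F1 N) := by
  haveI : Finite (gens N) := (gens_finite N).to_subtype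
  apply IntermediateField.finiteDimensional_adjoin
  rintro x ⟨d, p, hp, hdp, hx⟩
  have hd : d ≠ 0 := by
    rintro rfl
    rw [zero_mul, zero_dvd_iff] at hdp
    exact NeZero.ne N hdp
  rcases hx with rfl | rfl
  · exact (intJ_Xg d p hd hp).isIntegral_K0
  · exact (intJ_Yg d p hd hp).isIntegral_K0

theorem intJ_iff {N : ℕ} (z : F1 N) :
    ((algebraMap K0 (F1 N)).comp (algebraMap ℚ[X] K0)).IsIntegralElem z ↔ IntJ z.1 := by
  have hcomp : ((F1 N).val : F1 N →+* LaurentSeries ℚ).comp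
      ((algebraMap K0 (F1 N)).comp (algebraMap ℚ[X] K0)) = Fermat.Agent.S28.pe ℚ jq := by
    exact RingHom.ext fun Q => kap_algebraMap Q
  constructor
  · rintro ⟨P, hP, hPz⟩
    refine ⟨P, hP, ?_⟩
    have := congrArg ((F1 N).val : F1 N →+* LaurentSeries ℚ) hPz
    rw [Polynomial.hom_eval₂, hcomp, map_zero] at this
    exact this
  · rintro ⟨P, hP, hPz⟩
    refine ⟨P, hP, ?_⟩
    apply ((F1 N).val : F1 N →+* LaurentSeries ℚ).injective
    rw [Polynomial.hom_eval₂, hcomp, map_zero]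
    exact hPz

end Fermat.Agent.S28
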