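import Fermat.Agent.S28.Struct2
import Fermat.Agent.S28.Finite
import Fermat.Agent.S28.AbsGalois

set_option autoImplicit false
set_option linter.style.haveILetI false
set_option linter.unusedSectionVars false

noncomputable section

namespace Fermat.Agent.S28

open ModularCurve HahnSeries Polynomial

variable {ℓ : ℕ} [Fact ℓ.Prime] {V C κ : Type} [CommRing V] [IsDomain V]
  [Field C] [CharZero C] [Algebra V C] [IsFractionRing V C] [Field κ] [IsAlgClosed κ]
  (𝔇 : Data ℓ V C κ) {N : ℕ} [NeZero N]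

variable (V C N) in
/-- elements integral over `ℚ[j]` all of whose conjugates lie in `V((t))`. -/
def Aprime : Subring (F1 N) where
  carrier := {z | IntJ z.1 ∧ ∀ σ : F1 N →ₐ[K0] Lbar C N, σ z ∈ (eV V C N).range}
  mul_mem' {a b} ha hb := ⟨ha.1.mul hb.1, fun σ => by
    rw [map_mul]; exact Subring.mul_mem _ (ha.2 σ) (hb.2 σ)⟩
  one_mem' := ⟨by simpa using IntJ.pe 1, fun σ => by rw [map_one]; exact Subring.one_mem _⟩
  add_mem' {a b} ha hb := ⟨ha.1.add hb.1, fun σ => by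
    rw [map_add]; exact Subring.add_mem _ (ha.2 σ) (hb.2 σ)⟩
  zero_mem' := ⟨by simpa using IntJ.pe 0, fun σ => by rw [map_zero]; exact Subring.zero_mem _⟩
  neg_mem' {a} ha := ⟨ha.1.neg, fun σ => by rw [map_neg]; exact Subring.neg_mem _ (ha.2 σ)⟩

theorem mem_Aprime {z : F1 N} : z ∈ Aprime V C N ↔
    IntJ z.1 ∧ ∀ σ : F1 N →ₐ[K0] Lbar C N, σ z ∈ (eV V C N).range := Iff.rfl

/-- the reduction mod `ℓ` of the embedding `σ`. -/
def chi (σ : F1 N →ₐ[K0] Lbar C N) : Aprime V C N →+* LaurentSeries κ :=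
  𝔇.redS.comp (liftInj (σ.toRingHom.comp (Aprime V C N).subtype) (eV V C N) (eV_injective N)
    (fun z => z.2.2 σ))

theorem chi_spec (σ : F1 N →ₐ[K0] Lbar C N) (z : Aprime V C N) (w : LaurentSeries V)
    (h : σ z.1 = eV V C N w) : chi 𝔇 σ z = 𝔇.redS w := by
  have h1 := liftInj_spec (σ.toRingHom.comp (Aprime V C N).subtype) (eV V C N) (eV_injective N)
    (fun z => z.2.2 σ) z
  have h2 : (σ.toRingHom.comp (Aprime V C N).subtype) z = eV V C N w := h
  rw [h2] at h1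
  rw [chi, RingHom.comp_apply, eV_injective N h1]

namespace Aprime

/-- `coeffMap` commutes with evaluation of polynomials. -/
theorem coeffMap_aeval {A B : Type*} [CommRing A] [CommRing B] (f : A →+* B)
    (y : LaurentSeries A) (P : A[X]) :
    coeffMap f (Polynomial.aeval y P) = Polynomial.aeval (coeffMap f y) (P.map f) := by
  rw [Polynomial.aeval_def, Polynomial.aeval_def, Polynomial.hom_eval₂, Polynomial.eval₂_map]
  congr 1
  ext c : 1
  simp only [RingHom.comp_apply, algebraMap_eq_single', coeffMap_single]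

theorem iotaC_pe (P : ℚ[X]) :
    iotaC C N (pe ℚ jq P) =
      Polynomial.aeval (ev 1 N (jqModC C)) (P.map (algebraMap ℚ C)) := by
  have h1 : (iotaC C N).comp (rQ ℚ) = rQ C := Subsingleton.elim _ _
  have h2 : iotaC C N jq = ev 1 N (jqModC C) := by
    rw [iotaC, RingHom.comp_apply, ← jqModC_rat, coeffMap_jq, evz_eq_ev]
  rw [pe_apply, Polynomial.hom_eval₂, h1, h2, Polynomial.aeval_def, Polynomial.eval₂_map]
  rfl

end Aprime

/-- traces are polynomials in `j`, so a trace of positive order vanishes. -/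
theorem chi_sum (z : Aprime V C N)
    (h : 0 < (∑ σ : F1 N →ₐ[K0] Lbar C N, chi 𝔇 σ z).orderTop) :
    ∑ σ : F1 N →ₐ[K0] Lbar C N, chi 𝔇 σ z = 0 := by
  have hinj : Function.Injective (algebraMap V C) := IsFractionRing.injective V C
  obtain ⟨P, hP⟩ := sum_embeddings_eq_poly (K0 := K0) (L := F1 N) (E := Lbar C N) z.1
    ((intJ_iff z.1).mpr z.2.1)
  choose w hw using fun σ : F1 N →ₐ[K0] Lbar C N => z.2.2 σ
  set W : LaurentSeries V := ∑ σ, w σ with hW
  have hchi : ∑ σ : F1 N →ₐ[K0] Lbar C N, chi 𝔇 σ z = 𝔇.redS W := by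
    rw [hW, map_sum]
    exact Finset.sum_congr rfl fun σ _ => chi_spec 𝔇 σ z (w σ) (hw σ).symm
  have heW : eV V C N W = inc C N (iotaC C N (pe ℚ jq P)) := by
    rw [hW, map_sum, Finset.sum_congr rfl fun σ _ => hw σ, hP, algebraMap_K0_Lbar, kap_algebraMap]
  set P' : C[X] := P.map (algebraMap ℚ C) with hP'
  have hcW : coeffMap (algebraMap V C) W = Polynomial.aeval (ev 1 N (jqModC C)) P' := by
    rw [← Aprime.iotaC_pe]
    exact inc_injective C N heW
  have hmem : Polynomial.aeval (ev 1 N (jqModC C)) P' ∈ intSeries (algebraMap V C).range := by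
    rw [← range_coeffMap hinj, ← hcW]
    exact ⟨W, rfl⟩
  have hcoef := coeff_mem_of_aeval_mem_intSeries (S := (algebraMap V C).range) (1 : Cˣ)
    (by simp) (by simp) N P'.natDegree P' le_rfl
    hmem
  have hl : P' ∈ Polynomial.lifts (algebraMap V C) := by
    rw [Polynomial.lifts_iff_coeff_lifts]
    intro n
    exact hcoef n
  obtain ⟨PV, hPV⟩ := hl
  have hWV : W = Polynomial.aeval (ev 1 N (jqModC V)) PV := by
    apply coeffMap_injective hinj
    rw [hcW, Aprime.coeffMap_aeval, coeffMap_ev, coeffMap_jq, map_one]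
    congr 1
    exact hPV.symm
  have hred : 𝔇.redS W = Polynomial.aeval (ev 1 N (jqModC κ)) (PV.map 𝔇.red) := by
    rw [hWV, Data.redS, Aprime.coeffMap_aeval, coeffMap_ev, coeffMap_jq, map_one]
  rw [hchi, hred] at h ⊢
  rw [eq_zero_of_orderTop_aeval_pos _ _ _ h, map_zero]

include 𝔇 in
theorem jd_mem_Aprime (hℓN : ¬ ℓ ∣ N) {d : ℕ} (hd : d ∣ N) :
    (⟨jd d, jd_mem_F1 hd⟩ : F1 N) ∈ Aprime V C N := by
  have hd0 : d ≠ 0 := by
    rintro rfl
    exact NeZero.ne N (Nat.eq_zero_of_zero_dvd hd)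
  refine ⟨intJ_jd d hd0, fun σ => ?_⟩
  rw [(pts_good 𝔇 hℓN σ hd).2.2.eq]
  exact RingHom.mem_range_self _ _

theorem chi_injective (hℓN : ¬ ℓ ∣ N) :
    Function.Injective (chi 𝔇 : (F1 N →ₐ[K0] Lbar C N) → _) := by
  intro σ σ' h
  apply eq_of_pts_eq 𝔇 hℓN
  intro d hd
  have g := pts_good 𝔇 hℓN σ hd
  have g' := pts_good 𝔇 hℓN σ' hd
  set z : Aprime V C N := ⟨⟨jd d, jd_mem_F1 hd⟩, jd_mem_Aprime 𝔇 hℓN hd⟩ with hz
  have e1 := chi_spec 𝔇 σ z _ (g.2.2.eq (jd_mem_F1 hd))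
  have e2 := chi_spec 𝔇 σ' z _ (g'.2.2.eq (jd_mem_F1 hd))
  rw [h] at e1
  exact 𝔇.redS_EvV_jq_inj g.1 g'.1 (e1.symm.trans e2)

end Fermat.Agent.S28
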