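import Mathlib

set_option autoImplicit false

noncomputable section

namespace Fermat.Agent.S28

section CombAux

variable {N : ℕ} {a : ℕ → ℕ}

theorem comb_ne_zero (hN : N ≠ 0) (ha1 : a 1 = N)
    (hedge : ∀ d p : ℕ, p.Prime → d * p ∣ N → a (d * p) = p * a d ∨ a d = p * a (d * p))
    (d : ℕ) : d ∣ N → a d ≠ 0 := by
  induction d using induction_on_primes with
  | zero => intro h; exact absurd (Nat.eq_zero_of_zero_dvd h) hN
  | one => intro _; rw [ha1]; exact hN
  | prime_mul r d hr ih =>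
    intro h
    have hd : d ∣ N := (Dvd.intro_left r rfl).trans h
    have h' : d * r ∣ N := by rwa [mul_comm]
    rw [mul_comm]
    rcases hedge d r hr h' with h1 | h1
    · rw [h1]; exact mul_ne_zero hr.ne_zero (ih hd)
    · intro h0
      rw [h0, mul_zero] at h1
      exact ih hd h1

theorem comb_other_edge (hN : N ≠ 0) (ha1 : a 1 = N)
    (hedge : ∀ d p : ℕ, p.Prime → d * p ∣ N → a (d * p) = p * a d ∨ a d = p * a (d * p))
    {p r : ℕ} (hp : p.Prime) (hr : r.Prime) (hpr : p ≠ r) (d : ℕ) (h : d * r ∣ N) :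
    padicValNat p (a (d * r)) = padicValNat p (a d) := by
  have : Fact p.Prime := ⟨hp⟩
  have : Fact r.Prime := ⟨hr⟩
  have hd : a d ≠ 0 := comb_ne_zero hN ha1 hedge d ((Dvd.intro _ rfl).trans h)
  have hdr : a (d * r) ≠ 0 := comb_ne_zero hN ha1 hedge _ h
  rcases hedge d r hr h with h1 | h1
  · rw [h1, padicValNat.mul hr.ne_zero hd, padicValNat_primes hpr, zero_add]
  · rw [h1, padicValNat.mul hr.ne_zero hdr, padicValNat_primes hpr, zero_add]

theorem comb_indep (hN : N ≠ 0) (ha1 : a 1 = N)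
    (hedge : ∀ d p : ℕ, p.Prime → d * p ∣ N → a (d * p) = p * a d ∨ a d = p * a (d * p))
    {p : ℕ} (hp : p.Prime) (m : ℕ) :
    ¬ p ∣ m → ∀ d, d * m ∣ N → padicValNat p (a (d * m)) = padicValNat p (a d) := by
  induction m using induction_on_primes with
  | zero => intro h; exact absurd (dvd_zero p) h
  | one => intro _ d _; rw [mul_one]
  | prime_mul r m hr ih =>
    intro hpm d hd
    have hpr : p ≠ r := fun h => hpm (h ▸ Dvd.intro _ rfl)
    have hpm' : ¬ p ∣ m := fun h => hpm (Dvd.dvd.mul_left h r)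
    have e : d * (r * m) = d * m * r := by ring
    rw [e] at hd ⊢
    rw [comb_other_edge hN ha1 hedge hp hr hpr _ hd]
    exact ih hpm' d ((Dvd.intro _ rfl).trans hd)

theorem comb_own_edge (hN : N ≠ 0) (ha1 : a 1 = N)
    (hedge : ∀ d p : ℕ, p.Prime → d * p ∣ N → a (d * p) = p * a d ∨ a d = p * a (d * p))
    {p : ℕ} (hp : p.Prime) (d : ℕ) (h : d * p ∣ N) :
    (a (d * p) = p * a d ∧ padicValNat p (a (d * p)) = padicValNat p (a d) + 1) ∨
    (a d = p * a (d * p) ∧ padicValNat p (a d) = padicValNat p (a (d * p)) + 1) := by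
  have : Fact p.Prime := ⟨hp⟩
  have hd : a d ≠ 0 := comb_ne_zero hN ha1 hedge d ((Dvd.intro _ rfl).trans h)
  have hdr : a (d * p) ≠ 0 := comb_ne_zero hN ha1 hedge _ h
  rcases hedge d p hp h with h1 | h1
  · left
    refine ⟨h1, ?_⟩
    rw [h1, padicValNat.mul hp.ne_zero hd, padicValNat_self, add_comm]
  · right
    refine ⟨h1, ?_⟩
    conv_lhs => rw [h1]
    rw [padicValNat.mul hp.ne_zero hdr, padicValNat_self, add_comm]

/-- going up the `p`-chain, a descending edge stays descending. -/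
theorem comb_chain (hN : N ≠ 0) (ha1 : a 1 = N)
    (hedge : ∀ d p : ℕ, p.Prime → d * p ∣ N → a (d * p) = p * a d ∨ a d = p * a (d * p))
    (hnb : ∀ d p : ℕ, p.Prime → d * p * p ∣ N →
      ¬ (a d = p * a (d * p) ∧ a (d * p * p) = p * a (d * p)))
    {p : ℕ} (hp : p.Prime) (i : ℕ)
    (hi : padicValNat p (a (p ^ i)) = padicValNat p (a (p ^ i * p)) + 1) (n : ℕ) :
    p ^ (i + n) * p ∣ N →
      padicValNat p (a (p ^ (i + n))) = padicValNat p (a (p ^ (i + n) * p)) + 1 := by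
  induction n with
  | zero => intro _; exact hi
  | succ n ih =>
    intro h
    have e : p ^ (i + (n + 1)) = p ^ (i + n) * p := by rw [← add_assoc, pow_succ]
    rw [e] at h ⊢
    have h' : p ^ (i + n) * p ∣ N := (Dvd.intro _ rfl).trans h
    have ih' := ih h'
    have hdown : a (p ^ (i + n)) = p * a (p ^ (i + n) * p) := by
      rcases comb_own_edge hN ha1 hedge hp _ h' with ⟨_, h2⟩ | ⟨h1, _⟩
      · omega
      · exact h1
    rcases comb_own_edge hN ha1 hedge hp _ h with ⟨h1, _⟩ | ⟨_, h2⟩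
    · exact absurd ⟨hdown, h1⟩ (hnb _ p hp h)
    · exact h2

/-- if some `p`-edge descends then all top `p`-edges descend. -/
theorem comb_top (hN : N ≠ 0) (ha1 : a 1 = N)
    (hedge : ∀ d p : ℕ, p.Prime → d * p ∣ N → a (d * p) = p * a d ∨ a d = p * a (d * p))
    (hnb : ∀ d p : ℕ, p.Prime → d * p * p ∣ N →
      ¬ (a d = p * a (d * p) ∧ a (d * p * p) = p * a (d * p)))
    {p : ℕ} (hp : p.Prime) (d₀ : ℕ) (hd₀ : d₀ * p ∣ N) (hdown : ¬ a (d₀ * p) = p * a d₀)
    (e c : ℕ) (hec : e * p * c = N) (hc : ¬ p ∣ c) : a e = p * a (e * p) := by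
  have hd₀0 : d₀ ≠ 0 := by
    rintro rfl
    rw [zero_mul] at hd₀
    exact hN (Nat.eq_zero_of_zero_dvd hd₀)
  have he0 : e ≠ 0 := by
    rintro rfl
    rw [zero_mul, zero_mul] at hec
    exact hN hec.symm
  have hep : e * p ∣ N := Dvd.intro _ hec
  obtain ⟨i, m₀, hm₀, rfl⟩ := Nat.exists_eq_pow_mul_and_not_dvd hd₀0 p hp.ne_one
  obtain ⟨j, m₁, hm₁, rfl⟩ := Nat.exists_eq_pow_mul_and_not_dvd he0 p hp.ne_one
  -- the edge at `p ^ i` descends
  have h1 : padicValNat p (a (p ^ i * m₀)) = padicValNat p (a (p ^ i)) :=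
    comb_indep hN ha1 hedge hp m₀ hm₀ _ ((Dvd.intro _ rfl).trans hd₀)
  have e2 : p ^ i * m₀ * p = p ^ i * p * m₀ := by ring
  have h2 : padicValNat p (a (p ^ i * m₀ * p)) = padicValNat p (a (p ^ i * p)) := by
    rw [e2]
    exact comb_indep hN ha1 hedge hp m₀ hm₀ _ (by rw [← e2]; exact hd₀)
  have h3 : padicValNat p (a (p ^ i)) = padicValNat p (a (p ^ i * p)) + 1 := by
    rcases comb_own_edge hN ha1 hedge hp _ hd₀ with ⟨h, _⟩ | ⟨_, h⟩
    · exact absurd h hdown
    · rw [← h1, ← h2]; exact h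
  -- `i ≤ j`
  have hij : i ≤ j := by
    have hdvd : p ^ (i + 1) ∣ p ^ (j + 1) * (m₁ * c) := by
      have : p ^ (j + 1) * (m₁ * c) = N := by rw [← hec]; ring
      rw [this]
      refine Dvd.dvd.trans ?_ hd₀
      exact ⟨m₀, by ring⟩
    have hcop : Nat.Coprime (p ^ (i + 1)) (m₁ * c) := by
      apply Nat.Coprime.pow_left
      rw [Nat.Prime.coprime_iff_not_dvd hp]
      intro h
      rcases (Nat.Prime.dvd_mul hp).1 h with h | h
      · exact hm₁ h
      · exact hc h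
    have := hcop.dvd_of_dvd_mul_right hdvd
    have := (Nat.pow_dvd_pow_iff_le_right hp.one_lt).1 this
    omega
  obtain ⟨n, rfl⟩ := Nat.exists_eq_add_of_le hij
  have e4 : p ^ (i + n) * m₁ * p = p ^ (i + n) * p * m₁ := by ring
  have h4 := comb_chain hN ha1 hedge hnb hp i h3 n
    ((Dvd.intro m₁ (by rw [← e4])).trans hep)
  have h5 : padicValNat p (a (p ^ (i + n) * m₁)) = padicValNat p (a (p ^ (i + n))) :=
    comb_indep hN ha1 hedge hp m₁ hm₁ _ ((Dvd.intro _ rfl).trans hep)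
  have h6 : padicValNat p (a (p ^ (i + n) * m₁ * p)) = padicValNat p (a (p ^ (i + n) * p)) := by
    rw [e4]
    exact comb_indep hN ha1 hedge hp m₁ hm₁ _ (by rw [← e4]; exact hep)
  rcases comb_own_edge hN ha1 hedge hp _ hep with ⟨_, h⟩ | ⟨h, _⟩
  · omega
  · exact h

end CombAux

theorem comb_order (N : ℕ) (hN : N ≠ 0) (a : ℕ → ℕ) (ha1 : a 1 = N)
    (hedge : ∀ d p : ℕ, p.Prime → d * p ∣ N → a (d * p) = p * a d ∨ a d = p * a (d * p))
    (hnb : ∀ d p : ℕ, p.Prime → d * p * p ∣ N →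
      ¬ (a d = p * a (d * p) ∧ a (d * p * p) = p * a (d * p))) :
    (∀ d p : ℕ, p.Prime → d * p ∣ N → a (d * p) = p * a d) ∨
    0 < ∑ S ∈ N.primeFactors.powerset,
        ((∏ p ∈ N.primeFactors \ S, p : ℕ) : ℤ) *
          ((-1) ^ (S.card + 1) * ((a (N / ∏ p ∈ S, p) : ℤ) - N)) := by
  classical
  by_cases hall : ∀ d p : ℕ, p.Prime → d * p ∣ N → a (d * p) = p * a d
  · exact Or.inl hall
  right
  push Not at hall
  obtain ⟨d₀, p, hp, hd₀, hdown⟩ := hall
  have hpN : p ∈ N.primeFactors :=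
    Nat.mem_primeFactors.2 ⟨hp, (Dvd.intro_left _ rfl).trans hd₀, hN⟩
  set P := N.primeFactors with hP
  have hprod_dvd : ∀ S ⊆ P, ∏ r ∈ S, r ∣ N := fun S hS =>
    (Finset.prod_dvd_prod_of_subset _ _ _ hS).trans (Nat.prod_primeFactors_dvd N)
  have key : ∀ t ∈ (P.erase p).powerset,
      a (N / ∏ r ∈ insert p t, r) = p * a (N / ∏ r ∈ t, r) := by
    intro t ht
    rw [Finset.mem_powerset] at ht
    have hpt : p ∉ t := fun h => (Finset.mem_erase.1 (ht h)).1 rfl
    have hdvd : ∏ r ∈ insert p t, r ∣ N := by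
      apply hprod_dvd
      intro x hx
      rcases Finset.mem_insert.1 hx with rfl | hx
      · exact hpN
      · exact Finset.mem_of_mem_erase (ht hx)
    rw [Finset.prod_insert hpt] at hdvd ⊢
    obtain ⟨e, he⟩ := hdvd
    have hpos : 0 < p * ∏ r ∈ t, r := by
      apply Nat.pos_of_ne_zero
      intro h0
      rw [h0, zero_mul] at he
      exact hN he
    have hpos' : 0 < ∏ r ∈ t, r := Nat.pos_of_mul_pos_left hpos |> fun h => by
      rcases Nat.eq_zero_or_pos (∏ r ∈ t, r) with h0 | h0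
      · rw [h0, mul_zero] at hpos; exact absurd hpos (lt_irrefl 0)
      · exact h0
    have h1 : N / (p * ∏ r ∈ t, r) = e := by rw [he]; exact Nat.mul_div_cancel_left _ hpos
    have h2 : N / ∏ r ∈ t, r = e * p := by
      have : N = (∏ r ∈ t, r) * (e * p) := by rw [he]; ring
      rw [this]; exact Nat.mul_div_cancel_left _ hpos'
    rw [h1, h2]
    apply comb_top hN ha1 hedge hnb hp d₀ hd₀ hdown e (∏ r ∈ t, r) (by rw [he]; ring)
    intro hdiv
    rw [Prime.dvd_finsetProd_iff hp.prime] at hdiv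
    obtain ⟨r, hr, hpr⟩ := hdiv
    have hrprime : r.Prime := Nat.prime_of_mem_primeFactors (Finset.mem_of_mem_erase (ht hr))
    have : p = r := (Nat.prime_dvd_prime_iff_eq hp hrprime).1 hpr
    exact hpt (this ▸ hr)
  have hterm : ∀ S : Finset ℕ, ((∏ r ∈ P \ S, r : ℕ) : ℤ) *
      ((-1) ^ (S.card + 1) * ((a (N / ∏ r ∈ S, r) : ℤ) - N)) =
      ((∏ r ∈ P \ S, r : ℕ) : ℤ) * ((-1) ^ (S.card + 1) * (a (N / ∏ r ∈ S, r) : ℤ)) +
        (N : ℤ) * ((-1) ^ S.card * ((∏ r ∈ P \ S, r : ℕ) : ℤ)) := by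
    intro S
    ring
  rw [Finset.sum_congr rfl (fun S _ => hterm S), Finset.sum_add_distrib, ← Finset.mul_sum]
  have hG : ∑ S ∈ P.powerset,
      ((∏ r ∈ P \ S, r : ℕ) : ℤ) * ((-1) ^ (S.card + 1) * (a (N / ∏ r ∈ S, r) : ℤ)) = 0 := by
    have hPins : P.powerset = (insert p (P.erase p)).powerset := by
      rw [Finset.insert_erase hpN]
    rw [hPins, Finset.sum_powerset_insert (Finset.notMem_erase p P), ← Finset.sum_add_distrib]
    refine Finset.sum_eq_zero fun t ht => ?_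
    have ht' := Finset.mem_powerset.1 ht
    have hpt : p ∉ t := fun h => (Finset.mem_erase.1 (ht' h)).1 rfl
    rw [key t ht, Finset.card_insert_of_notMem hpt, Finset.sdiff_insert]
    have hmem : p ∈ P \ t := Finset.mem_sdiff.2 ⟨hpN, hpt⟩
    rw [← Finset.mul_prod_erase (P \ t) (fun r => r) hmem]
    push_cast
    ring
  have hH : ∑ S ∈ P.powerset, ((-1 : ℤ) ^ S.card * ((∏ r ∈ P \ S, r : ℕ) : ℤ))
      = ∏ r ∈ P, ((-1 : ℤ) + (r : ℤ)) := by
    rw [Finset.prod_add]
    refine Finset.sum_congr rfl fun S _ => ?_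
    rw [Finset.prod_const, Nat.cast_prod]
  rw [hG, hH, zero_add]
  apply mul_pos (by exact_mod_cast Nat.pos_of_ne_zero hN)
  apply Finset.prod_pos
  intro r hr
  have : 2 ≤ r := (Nat.prime_of_mem_primeFactors hr).two_le
  have : (2 : ℤ) ≤ (r : ℤ) := by exact_mod_cast this
  linarith

end Fermat.Agent.S28
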