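import Mathlib

set_option autoImplicit false

noncomputable section

namespace Fermat.Agent.S28

open HahnSeries

/-- Artin-style independence of characters, with an eventually-vanishing hypothesis. -/
theorem artin_eventually {A' 𝕂 Ω : Type*} [CommRing A'] [Field 𝕂] [DecidableEq Ω]
    (χ : Ω → A' →+* 𝕂) (hχ : Function.Injective χ) (g : A') (hg0 : ∀ σ, χ σ g ≠ 0) :
    ∀ (n : ℕ) (s : Finset Ω), s.card = n → ∀ c : Ω → 𝕂,
      (∀ h : A', ∃ L₀ : ℕ, ∀ L ≥ L₀, ∑ σ ∈ s, c σ * χ σ g ^ L * χ σ h = 0) →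
      ∀ σ ∈ s, c σ = 0 := by
  intro n
  induction n with
  | zero =>
    intro s hs c _ σ hσ
    rw [Finset.card_eq_zero] at hs
    simp [hs] at hσ
  | succ n ih =>
    intro s hs c H σ₂ hσ₂
    by_cases hex : ∃ σ₁ ∈ s, σ₁ ≠ σ₂
    · obtain ⟨σ₁, hσ₁, hne⟩ := hex
      obtain ⟨a, ha⟩ : ∃ a, χ σ₁ a ≠ χ σ₂ a := by
        by_contra hcon
        push_neg at hcon
        exact hne (hχ (RingHom.ext hcon))
      have hcard : (s.erase σ₁).card = n := by
        rw [Finset.card_erase_of_mem hσ₁, hs]; rfl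
      have key := ih (s.erase σ₁) hcard (fun σ => c σ * (χ σ a - χ σ₁ a)) (by
        intro h
        obtain ⟨L₁, hL₁⟩ := H h
        obtain ⟨L₂, hL₂⟩ := H (a * h)
        refine ⟨max L₁ L₂, fun L hL => ?_⟩
        have h1 := hL₁ L (le_trans (le_max_left _ _) hL)
        have h2 := hL₂ L (le_trans (le_max_right _ _) hL)
        have h3 : ∑ σ ∈ s, c σ * (χ σ a - χ σ₁ a) * χ σ g ^ L * χ σ h = 0 := by
          have : ∀ σ ∈ s, c σ * (χ σ a - χ σ₁ a) * χ σ g ^ L * χ σ h =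
              c σ * χ σ g ^ L * χ σ (a * h) - χ σ₁ a * (c σ * χ σ g ^ L * χ σ h) := by
            intro σ _
            rw [map_mul]; ring
          rw [Finset.sum_congr rfl this, Finset.sum_sub_distrib, ← Finset.mul_sum, h1, h2]
          simp
        rw [← Finset.add_sum_erase s _ hσ₁] at h3
        simpa using h3) σ₂ (Finset.mem_erase.mpr ⟨hne.symm, hσ₂⟩)
      have hne' : χ σ₂ a - χ σ₁ a ≠ 0 := sub_ne_zero.mpr (Ne.symm ha)
      exact (mul_eq_zero.mp key).resolve_right hne'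
    · push_neg at hex
      have hs' : s = {σ₂} := by
        ext σ
        simp only [Finset.mem_singleton]
        exact ⟨fun h => hex σ h, fun h => h ▸ hσ₂⟩
      obtain ⟨L₀, hL₀⟩ := H 1
      have := hL₀ L₀ le_rfl
      rw [hs'] at this
      simp only [Finset.sum_singleton, map_one, mul_one] at this
      exact (mul_eq_zero.mp this).resolve_right (pow_ne_zero _ (hg0 σ₂))

theorem orderTop_sum_pos {κ ι : Type*} [Field κ] (s : Finset ι) (F : ι → LaurentSeries κ)
    (h : ∀ i ∈ s, 0 < (F i).orderTop) : 0 < (∑ i ∈ s, F i).orderTop := by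
  classical
  induction s using Finset.induction_on with
  | empty => simp
  | insert i s hi ih =>
    rw [Finset.sum_insert hi]
    refine lt_of_lt_of_le ?_ HahnSeries.min_orderTop_le_orderTop_add
    exact lt_min (h i (Finset.mem_insert_self _ _))
      (ih fun j hj => h j (Finset.mem_insert_of_mem hj))

theorem exists_pow_orderTop_pos {κ : Type*} [Field κ] (x γ : LaurentSeries κ)
    (hγ : 0 < γ.orderTop) : ∃ L₀ : ℕ, ∀ L ≥ L₀, 0 < (x * γ ^ L).orderTop := by
  by_cases hx : x = 0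
  · exact ⟨0, fun L _ => by simp [hx]⟩
  by_cases hγ0 : γ = 0
  · refine ⟨1, fun L hL => ?_⟩
    have : L ≠ 0 := by omega
    simp [hγ0, this]
  obtain ⟨m, hm⟩ : ∃ m : ℤ, x.orderTop = m :=
    ⟨_, (WithTop.coe_untop _ (HahnSeries.orderTop_ne_top.mpr hx)).symm⟩
  obtain ⟨r, hr⟩ : ∃ r : ℤ, γ.orderTop = r :=
    ⟨_, (WithTop.coe_untop _ (HahnSeries.orderTop_ne_top.mpr hγ0)).symm⟩
  have hr0 : 0 < r := by
    rw [hr] at hγ
    exact_mod_cast hγ
  refine ⟨(1 - m).toNat, fun L hL => ?_⟩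
  have hpow : (γ ^ L).orderTop = ((L * r : ℤ) : WithTop ℤ) := by
    clear hL
    induction L with
    | zero => simp
    | succ L ih =>
      rw [pow_succ, HahnSeries.orderTop_mul, ih, hr, ← WithTop.coe_add]
      congr 1
      push_cast; ring
  rw [HahnSeries.orderTop_mul, hm, hpow, ← WithTop.coe_add]
  have h1 : (1 - m) ≤ L := by
    have := Int.self_le_toNat (1 - m)
    have h2 : ((1 - m).toNat : ℤ) ≤ L := by exact_mod_cast hL
    omega
  have h2 : (L : ℤ) ≤ L * r := by nlinarith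
  have : 0 < m + L * r := by omega
  exact_mod_cast this

/-- The trace trick. -/
theorem trace_trick {A' κ Ω : Type*} [CommRing A'] [Field κ] [Fintype Ω] [DecidableEq Ω]
    (χ : Ω → A' →+* LaurentSeries κ) (hχ : Function.Injective χ)
    (hP : ∀ z : A', 0 < (∑ σ, χ σ z).orderTop → ∑ σ, χ σ z = 0)
    (T : Set Ω) (g : A') (hg0 : ∀ σ, χ σ g ≠ 0) (hg : ∀ σ, σ ∉ T → 0 < (χ σ g).orderTop)
    (f : A') (hf : ∀ σ ∈ T, χ σ f = 0) : ∀ σ, χ σ f = 0 := by
  intro σ
  refine artin_eventually χ hχ g hg0 _ Finset.univ rfl (fun σ => χ σ f) ?_ σ (Finset.mem_univ _)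
  intro h
  have hex : ∀ σ, ∃ L₀ : ℕ, ∀ L ≥ L₀, 0 < (χ σ (f * h) * χ σ g ^ L).orderTop := by
    intro σ
    by_cases hσ : σ ∈ T
    · exact ⟨0, fun L _ => by simp [map_mul, hf σ hσ]⟩
    · exact exists_pow_orderTop_pos _ _ (hg σ hσ)
  choose L₀ hL₀ using hex
  refine ⟨Finset.univ.sup L₀, fun L hL => ?_⟩
  have h1 : ∀ σ, χ σ f * χ σ g ^ L * χ σ h = χ σ (f * h * g ^ L) := by
    intro σ
    simp only [map_mul, map_pow]; ring
  rw [Finset.sum_congr rfl fun σ _ => h1 σ]
  apply hP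
  apply orderTop_sum_pos
  intro σ _
  have := hL₀ σ L (le_trans (Finset.le_sup (Finset.mem_univ σ)) hL)
  simpa only [map_mul, map_pow] using this

end Fermat.Agent.S28
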