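import Fermat.Agent.S28.Aprime
import Fermat.Agent.S28.Comb

set_option autoImplicit false
set_option linter.style.haveILetI false
set_option linter.unusedSectionVars false

noncomputable section

namespace Fermat.Agent.S28

open ModularCurve HahnSeries Polynomial

/-- `d¹² Δ(q^d)/Δ(q)`. -/
def Ug (d : ℕ) : LaurentSeries ℚ := (d : LaurentSeries ℚ) ^ 12 * evz 1 d (dS ℚ) * dInv ℚ

theorem Ug_one : Ug 1 = 1 := by
  rw [Ug, Nat.cast_one, one_pow, one_mul, evz_one_one, dS_mul_dInv]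

theorem Ug_mul (d p : ℕ) : Ug (d * p) = Ug d * Yg d p := by
  have h : evz 1 d (dS ℚ) * evz 1 d (dInv ℚ) = 1 := by
    rw [← map_mul, dS_mul_dInv, map_one]
  rw [Ug, Ug, Yg, Nat.cast_mul]
  linear_combination (-((d : LaurentSeries ℚ) ^ 12 * (p : LaurentSeries ℚ) ^ 12 *
    evz 1 (d * p) (dS ℚ) * dInv ℚ)) * h

theorem intJ_Ug (d : ℕ) (hd : d ≠ 0) : IntJ (Ug d) ∧ IntJ (Ug d)⁻¹ := by
  induction d using Nat.strong_induction_on with
  | _ d ih =>
    by_cases h1 : d = 1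
    · subst h1
      rw [Ug_one, inv_one]
      exact ⟨IG.intJSub.one_mem, IG.intJSub.one_mem⟩
    · obtain ⟨p, hp, d', rfl⟩ := Nat.exists_prime_and_dvd h1
      have hd' : d' ≠ 0 := by
        rintro rfl
        exact hd (by simp)
      have hlt : d' < p * d' := by
        have := hp.two_le
        have : 0 < d' := Nat.pos_of_ne_zero hd'
        nlinarith
      obtain ⟨i1, i2⟩ := ih d' hlt hd'
      rw [mul_comm p d', Ug_mul, mul_inv]
      exact ⟨i1.mul (intJ_Yg d' p hd' hp), i2.mul (intJ_Yg_inv d' p hd' hp)⟩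

namespace UnitG

section Order

variable {κ : Type} [Field κ]

theorem orderTop_of_mul_eq_one {A B : LaurentSeries κ} (h : A * B = 1) {m : ℤ}
    (hA : A.orderTop = (m : WithTop ℤ)) : B.orderTop = ((-m : ℤ) : WithTop ℤ) := by
  have h1 := congrArg HahnSeries.orderTop h
  rw [HahnSeries.orderTop_mul, HahnSeries.orderTop_one, hA] at h1
  cases hB : B.orderTop with
  | top => rw [hB] at h1; simp at h1
  | coe b =>
    rw [hB] at h1
    have : m + b = 0 := by exact_mod_cast h1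
    congr 1
    omega

theorem orderTop_pow_eq {A : LaurentSeries κ} {m : ℤ} (hA : A.orderTop = (m : WithTop ℤ))
    (n : ℕ) : (A ^ n).orderTop = (((n : ℤ) * m : ℤ) : WithTop ℤ) := by
  induction n with
  | zero => simp
  | succ n ih =>
    rw [pow_succ, HahnSeries.orderTop_mul, ih, hA, ← WithTop.coe_add]
    congr 1
    push_cast
    ring

theorem orderTop_prod_eq {ι : Type*} (s : Finset ι) (f : ι → LaurentSeries κ) (m : ι → ℤ)
    (h : ∀ i ∈ s, (f i).orderTop = (m i : WithTop ℤ)) :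
    (∏ i ∈ s, f i).orderTop = ((∑ i ∈ s, m i : ℤ) : WithTop ℤ) := by
  classical
  induction s using Finset.induction_on with
  | empty => simp
  | insert a s ha ih =>
    rw [Finset.prod_insert ha, Finset.sum_insert ha, HahnSeries.orderTop_mul,
      h a (Finset.mem_insert_self a s), ih fun i hi => h i (Finset.mem_insert_of_mem hi)]
    rfl

end Order

section Aux

variable {ℓ : ℕ} [Fact ℓ.Prime] {V C κ : Type} [CommRing V] [IsDomain V]
  [Field C] [CharZero C] [Algebra V C] [IsFractionRing V C] [Field κ] [IsAlgClosed κ]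
  (𝔇 : Data ℓ V C κ) {N : ℕ} [NeZero N]

theorem not_dvd_nrm {p : ℕ} (hp : p.Prime) (hpℓ : p ≠ ℓ) (P Q : Pt κ) : ¬ ℓ ∣ nrm p P Q := by
  have hℓ : ℓ.Prime := Fact.out
  unfold nrm
  split_ifs
  · intro h
    exact hpℓ ((Nat.prime_dvd_prime_iff_eq hℓ hp).1 (hℓ.dvd_of_dvd_pow h)).symm
  · intro h
    exact hℓ.one_lt.ne' (Nat.dvd_one.1 h)

theorem maps_Ug_aux (hℓN : ¬ ℓ ∣ N) (σ : F1 N →ₐ[K0] Lbar C N) (d : ℕ) : d ∣ N →
    ∃ w w' : LaurentSeries V, w * w' = 1 ∧ Maps σ (Ug d) (eV V C N w) ∧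
      (𝔇.redS w).orderTop = (((pts 𝔇 hℓN σ d).2 : ℤ) - N : ℤ) := by
  have hN : N ≠ 0 := NeZero.ne N
  induction d using Nat.strong_induction_on with
  | _ d ih =>
    intro hdN
    have hd : d ≠ 0 := by rintro rfl; exact hN (Nat.eq_zero_of_zero_dvd hdN)
    by_cases h1 : d = 1
    · subst h1
      refine ⟨1, 1, one_mul 1, ?_, ?_⟩
      · rw [Ug_one, map_one]
        exact Maps.one
      · rw [map_one, pts_one, HahnSeries.orderTop_one]
        simp
    · obtain ⟨p, hp, d', rfl⟩ := Nat.exists_prime_and_dvd h1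
      have hd' : d' ≠ 0 := by
        rintro rfl
        exact hd (by simp)
      have hlt : d' < p * d' := by
        have := hp.two_le
        have : 0 < d' := Nat.pos_of_ne_zero hd'
        nlinarith
      rw [mul_comm p d'] at hdN ⊢
      have hd'N : d' ∣ N := (Dvd.intro p rfl).trans hdN
      have hpℓ : p ≠ ℓ := by
        rintro rfl
        exact hℓN ((Dvd.intro_left d' rfl).trans hdN)
      obtain ⟨w₀, w₀', hw, hm, ho⟩ := ih d' hlt hd'N
      have hY := (pts_edge 𝔇 hℓN σ hp hdN).2.2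
      set P := pts 𝔇 hℓN σ d' with hP
      set Q := pts 𝔇 hℓN σ (d' * p) with hQ
      have hP0 : P.2 ≠ 0 := (pts_good 𝔇 hℓN σ hd'N).1
      have hQ0 : Q.2 ≠ 0 := (pts_good 𝔇 hℓN σ hdN).1
      have hn := not_dvd_nrm (ℓ := ℓ) hp hpℓ P Q
      obtain ⟨v, hv⟩ := isUnit_iff_exists_inv.1 (𝔇.isUnit_natCast _ hn)
      refine ⟨w₀ * ((nrm p P Q : LaurentSeries V) * 𝔇.EvV Q (dS V) * 𝔇.EvV P (dInv V)),
        w₀' * (algebraMap V (LaurentSeries V) v * 𝔇.EvV Q (dInv V) * 𝔇.EvV P (dS V)), ?_, ?_, ?_⟩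
      · have e1 : (nrm p P Q : LaurentSeries V) * algebraMap V (LaurentSeries V) v = 1 := by
          rw [← map_natCast (algebraMap V (LaurentSeries V)), ← map_mul, hv, map_one]
        have e2 : 𝔇.EvV Q (dS V) * 𝔇.EvV Q (dInv V) = 1 := by
          rw [← map_mul, dS_mul_dInv, map_one]
        have e3 : 𝔇.EvV P (dS V) * 𝔇.EvV P (dInv V) = 1 := by
          rw [← map_mul, dS_mul_dInv, map_one]
        calc _ = (w₀ * w₀') * ((nrm p P Q : LaurentSeries V) * algebraMap V (LaurentSeries V) v) *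
              (𝔇.EvV Q (dS V) * 𝔇.EvV Q (dInv V)) * (𝔇.EvV P (dS V) * 𝔇.EvV P (dInv V)) := by
              ring
          _ = 1 := by rw [hw, e1, e2, e3]; simp
      · rw [Ug_mul, map_mul]
        exact hm.mul hY
      · have r1 : 𝔇.redS (dS V) = dS κ := coeffMap_dS _
        have r2 : 𝔇.redS (dInv V) = dInv κ := coeffMap_dInv _
        rw [map_mul, map_mul, map_mul, map_natCast, Data.redS_EvV, Data.redS_EvV, r1, r2,
          HahnSeries.orderTop_mul, HahnSeries.orderTop_mul, HahnSeries.orderTop_mul, ho,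
          orderTop_natCast_of_ne_zero _ (𝔇.natCast_ne_zero _ hn),
          orderTop_evz_eq _ hQ0 _ (orderTop_dS κ), orderTop_evz_eq _ hP0 _ (orderTop_dInv κ),
          zero_add, ← WithTop.coe_add, ← WithTop.coe_add]
        congr 1
        ring

end Aux

end UnitG

variable {ℓ : ℕ} [Fact ℓ.Prime] {V C κ : Type} [CommRing V] [IsDomain V]
  [Field C] [CharZero C] [Algebra V C] [IsFractionRing V C] [Field κ] [IsAlgClosed κ]
  (𝔇 : Data ℓ V C κ) {N : ℕ} [NeZero N]

/-- the conjugates of `Ug d` and its inverse lie in `V((t))`, and the order of their reductions. -/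
theorem maps_Ug (hℓN : ¬ ℓ ∣ N) (σ : F1 N →ₐ[K0] Lbar C N) {d : ℕ} (hd : d ∣ N) :
    ∃ w w' : LaurentSeries V, Maps σ (Ug d) (eV V C N w) ∧ Maps σ (Ug d)⁻¹ (eV V C N w') ∧
      (𝔇.redS w).orderTop = (((pts 𝔇 hℓN σ d).2 : ℤ) - N : ℤ) ∧
      (𝔇.redS w').orderTop = ((N : ℤ) - ((pts 𝔇 hℓN σ d).2 : ℤ) : ℤ) := by
  obtain ⟨w, w', hw, hm, ho⟩ := UnitG.maps_Ug_aux 𝔇 hℓN σ d hd
  refine ⟨w, w', hm, ?_, ho, ?_⟩
  · have h1 : eV V C N w * eV V C N w' = 1 := by rw [← map_mul, hw, map_one]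
    rw [← inv_eq_of_mul_eq_one_right h1]
    exact hm.inv
  · have h1 : 𝔇.redS w * 𝔇.redS w' = 1 := by rw [← map_mul, hw, map_one]
    rw [UnitG.orderTop_of_mul_eq_one h1 ho]
    congr 1
    ring

namespace UnitG

theorem exists_Aprime_Ug (hℓN : ¬ ℓ ∣ N) {d : ℕ} (hd : d ∣ N) :
    ∃ g g' : Aprime V C N, ∀ σ : F1 N →ₐ[K0] Lbar C N,
      (chi 𝔇 σ g).orderTop = (((pts 𝔇 hℓN σ d).2 : ℤ) - N : ℤ) ∧
      (chi 𝔇 σ g').orderTop = ((N : ℤ) - ((pts 𝔇 hℓN σ d).2 : ℤ) : ℤ) := by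
  have hN : N ≠ 0 := NeZero.ne N
  have hd0 : d ≠ 0 := by rintro rfl; exact hN (Nat.eq_zero_of_zero_dvd hd)
  obtain ⟨w1, w2, m1, m2, -, -⟩ := maps_Ug 𝔇 hℓN (iota1 C N) hd
  have hg : (⟨Ug d, m1.mem⟩ : F1 N) ∈ Aprime V C N := by
    refine ⟨(intJ_Ug d hd0).1, fun σ => ?_⟩
    obtain ⟨w, -, h1, -, -, -⟩ := maps_Ug 𝔇 hℓN σ hd
    exact ⟨w, (h1.eq _).symm⟩
  have hg' : (⟨(Ug d)⁻¹, m2.mem⟩ : F1 N) ∈ Aprime V C N := by
    refine ⟨(intJ_Ug d hd0).2, fun σ => ?_⟩
    obtain ⟨-, w', -, h2, -, -⟩ := maps_Ug 𝔇 hℓN σ hd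
    exact ⟨w', (h2.eq _).symm⟩
  refine ⟨⟨_, hg⟩, ⟨_, hg'⟩, fun σ => ?_⟩
  obtain ⟨w, w', h1, h2, o1, o2⟩ := maps_Ug 𝔇 hℓN σ hd
  rw [chi_spec 𝔇 σ ⟨_, hg⟩ w (h1.eq _), chi_spec 𝔇 σ ⟨_, hg'⟩ w' (h2.eq _)]
  exact ⟨o1, o2⟩

theorem exists_prod {ι : Type*} (s : Finset ι) (n : ι → ℕ)
    (c : (F1 N →ₐ[K0] Lbar C N) → ι → ℤ)
    (h : ∀ i ∈ s, ∃ t : Aprime V C N, ∀ σ : F1 N →ₐ[K0] Lbar C N,
      (chi 𝔇 σ t).orderTop = (c σ i : WithTop ℤ)) :
    ∃ g : Aprime V C N, ∀ σ : F1 N →ₐ[K0] Lbar C N,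
      (chi 𝔇 σ g).orderTop = ((∑ i ∈ s, (n i : ℤ) * c σ i : ℤ) : WithTop ℤ) := by
  classical
  induction s using Finset.induction_on with
  | empty =>
    refine ⟨1, fun σ => ?_⟩
    rw [map_one, HahnSeries.orderTop_one]
    simp
  | insert a s ha ih =>
    obtain ⟨g₀, hg₀⟩ := ih fun i hi => h i (Finset.mem_insert_of_mem hi)
    obtain ⟨t, ht⟩ := h a (Finset.mem_insert_self a s)
    refine ⟨t ^ n a * g₀, fun σ => ?_⟩
    rw [map_mul, map_pow, HahnSeries.orderTop_mul, orderTop_pow_eq (ht σ), hg₀ σ,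
      Finset.sum_insert ha]
    rfl

theorem up_snd {p : ℕ} (P : Pt κ) : (up p P).2 = p * P.2 := rfl

theorem false_of_eq_sq {p a : ℕ} (hp : p.Prime) (ha : a ≠ 0) (h : a = p * (p * a)) : False := by
  have h1 : a * 1 = a * (p * p) := by
    rw [mul_one]
    calc a = p * (p * a) := h
      _ = a * (p * p) := by ring
  have h2 := Nat.eq_of_mul_eq_mul_left (Nat.pos_of_ne_zero ha) h1
  have h3 := hp.two_le
  nlinarith

end UnitG

open UnitG in
/-- The modular unit: nonzero mod `ℓ` at every embedding, of positive order at every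
embedding other than the standard ones. -/
theorem exists_unit (hℓN : ¬ ℓ ∣ N) : ∃ g : Aprime V C N,
    (∀ σ : F1 N →ₐ[K0] Lbar C N, chi 𝔇 σ g ≠ 0) ∧
    ∀ σ : F1 N →ₐ[K0] Lbar C N, (¬ ∀ d, d ∣ N → pts 𝔇 hℓN σ d = (1, N * d)) →
      0 < (chi 𝔇 σ g).orderTop := by
  classical
  have hN : N ≠ 0 := NeZero.ne N
  obtain ⟨g, hg⟩ := exists_prod 𝔇 (N := N) N.primeFactors.powerset
    (fun S => ∏ p ∈ N.primeFactors \ S, p)
    (fun σ S => (-1) ^ (S.card + 1) * (((pts 𝔇 hℓN σ (N / ∏ p ∈ S, p)).2 : ℤ) - N)) (by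
      intro S hS
      have hdvd : (∏ p ∈ S, p) ∣ N :=
        (Finset.prod_dvd_prod_of_subset _ _ _ (Finset.mem_powerset.1 hS)).trans
          (Nat.prod_primeFactors_dvd N)
      obtain ⟨t, t', ht⟩ := exists_Aprime_Ug 𝔇 hℓN (Nat.div_dvd_of_dvd hdvd)
      rcases Nat.even_or_odd S.card with he | ho
      · refine ⟨t', fun σ => ?_⟩
        rw [(ht σ).2, Odd.neg_one_pow he.add_one]
        congr 1
        ring
      · refine ⟨t, fun σ => ?_⟩
        rw [(ht σ).1, Even.neg_one_pow ho.add_one]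
        congr 1
        ring)
  refine ⟨g, fun σ h0 => ?_, fun σ hσ => ?_⟩
  · have := hg σ
    rw [h0, HahnSeries.orderTop_zero] at this
    exact WithTop.top_ne_coe this
  · rw [hg σ]
    have ha0 : ∀ d, d ∣ N → (pts 𝔇 hℓN σ d).2 ≠ 0 := fun d hd => (pts_good 𝔇 hℓN σ hd).1
    rcases comb_order N hN (fun d => (pts 𝔇 hℓN σ d).2) (by simp [pts_one]) (by
        intro d p hp hdp
        rcases (pts_edge 𝔇 hℓN σ hp hdp).1 with h | h
        · left
          simp only [h, up_snd]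
        · right
          show (pts 𝔇 hℓN σ d).2 = _
          rw [h, up_snd]) (by
        rintro d p hp hdpp ⟨h1, h2⟩
        have hdp : d * p ∣ N := (Dvd.intro p rfl).trans hdpp
        have e1 : pts 𝔇 hℓN σ d = up p (pts 𝔇 hℓN σ (d * p)) := by
          rcases (pts_edge 𝔇 hℓN σ hp hdp).1 with h | h
          · exfalso
            have h3 : (pts 𝔇 hℓN σ (d * p)).2 = p * (pts 𝔇 hℓN σ d).2 := by rw [h, up_snd]
            rw [h1] at h3
            exact false_of_eq_sq hp (ha0 _ hdp) h3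
          · exact h
        have e2 : pts 𝔇 hℓN σ (d * p * p) = up p (pts 𝔇 hℓN σ (d * p)) := by
          rcases (pts_edge 𝔇 hℓN σ hp hdpp).1 with h | h
          · exact h
          · exfalso
            have h3 : (pts 𝔇 hℓN σ (d * p)).2 = p * (pts 𝔇 hℓN σ (d * p * p)).2 := by
              conv_lhs => rw [h, up_snd]
            rw [h2] at h3
            exact false_of_eq_sq hp (ha0 _ hdp) h3
        exact pts_noback 𝔇 hℓN σ hp hdpp (e2.trans e1.symm)) with hall | hpos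
    · exfalso
      apply hσ
      intro d
      induction d using Nat.strong_induction_on with
      | _ d ih =>
        intro hdN
        have hd : d ≠ 0 := by rintro rfl; exact hN (Nat.eq_zero_of_zero_dvd hdN)
        by_cases h1 : d = 1
        · subst h1
          rw [pts_one, mul_one]
        · obtain ⟨p, hp, d', rfl⟩ := Nat.exists_prime_and_dvd h1
          have hd' : d' ≠ 0 := by
            rintro rfl
            exact hd (by simp)
          have hlt : d' < p * d' := by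
            have := hp.two_le
            have : 0 < d' := Nat.pos_of_ne_zero hd'
            nlinarith
          rw [mul_comm p d'] at hdN ⊢
          have hd'N : d' ∣ N := (Dvd.intro p rfl).trans hdN
          have hup : pts 𝔇 hℓN σ (d' * p) = up p (pts 𝔇 hℓN σ d') := by
            rcases (pts_edge 𝔇 hℓN σ hp hdN).1 with h | h
            · exact h
            · exfalso
              have h3 : (pts 𝔇 hℓN σ d').2 = p * (pts 𝔇 hℓN σ (d' * p)).2 := by
                conv_lhs => rw [h, up_snd]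
              have h4 := hall d' p hp hdN
              rw [h4] at h3
              exact false_of_eq_sq hp (ha0 _ hd'N) h3
          rw [hup, ih d' hlt hd'N]
          simp only [up, one_pow]
          congr 1
          ring
    · exact_mod_cast hpos

end Fermat.Agent.S28
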