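import Fermat.Agent.S28.Integ
import Fermat.Agent.S28.UnitG
import Fermat.Agent.S28.TraceTrick
import Fermat.Agent.S28.InvPoly

set_option autoImplicit false
set_option linter.style.haveILetI false
set_option linter.unusedSectionVars false

noncomputable section

namespace Fermat.Agent.S28

open ModularCurve ModularCurve.IgusaScheme HahnSeries Polynomial

variable {ℓ : ℕ} [Fact ℓ.Prime] {V C κ : Type} [CommRing V] [IsDomain V] [IsPrincipalIdealRing V]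
  [Field C] [CharZero C] [Algebra V C] [IsFractionRing V C] [Field κ] [IsAlgClosed κ]
  (𝔇 : Data ℓ V C κ) {N : ℕ} [NeZero N]

include 𝔇 in
/-- (J2) the `q`-expansion principle at all cusps. -/
theorem sigma_dvd_of_fin (hℓN : ¬ ℓ ∣ N) (f : ↥(modularFunctionFieldFull N))
    (hf : f ∈ chartAlgFin N ℓ) (y : LaurentSeries ℚ)
    (hy : y ∈ intSeries (GaloisRep.ratLocalizedAt ℓ))
    (hfy : f.1 = (ℓ : LaurentSeries ℚ) * y) (σ : F1 N →ₐ[K0] Lbar C N) :
    ∃ w : LaurentSeries V, σ (incF N f) = eV V C N ((ℓ : LaurentSeries V) * w) := by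
  classical
  have hfA : incF N f ∈ Aprime V C N :=
    ⟨by rw [incF_coe]; exact intJ_of_chartAlgFin f hf, fun σ =>
      sigma_mem_range_of_chartAlg 𝔇 hℓN σ _ (sFin_subset N) f hf⟩
  obtain ⟨g, hg0, hg⟩ := exists_unit 𝔇 hℓN
  have key := trace_trick (chi 𝔇 : (F1 N →ₐ[K0] Lbar C N) → _) (chi_injective 𝔇 hℓN)
    (chi_sum 𝔇) {σ | ∀ d, d ∣ N → pts 𝔇 hℓN σ d = (1, N * d)} g hg0 (fun σ hσ => hg σ hσ)
    ⟨incF N f, hfA⟩ (by
      intro σ hσ
      obtain ⟨w, hw⟩ := 𝔇.exists_eV_of_mem_intSeries N y hy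
      have h1 : Maps σ f.1 (inc C N (iotaC C N f.1)) := maps_of_pts_std 𝔇 hℓN σ hσ f.2
      have h2 : σ (incF N f) = eV V C N ((ℓ : LaurentSeries V) * w) := by
        have h3 : incF N f = ⟨f.1, h1.mem⟩ := Subtype.ext (incF_coe N f)
        rw [h3, h1.eq, hfy, map_mul, map_mul, map_mul, hw, map_natCast, map_natCast, map_natCast]
      rw [chi_spec 𝔇 σ ⟨incF N f, hfA⟩ _ h2]
      exact (𝔇.redS_eq_zero_iff _).mpr ⟨w, rfl⟩) σ
  obtain ⟨w, hw⟩ := hfA.2 σ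
  rw [chi_spec 𝔇 σ ⟨incF N f, hfA⟩ w hw.symm] at key
  obtain ⟨w', rfl⟩ := (𝔇.redS_eq_zero_iff _).mp key
  exact ⟨w', hw.symm⟩

end Fermat.Agent.S28
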