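import Fermat.Agent.S28.PointsLemmas
import Fermat.Agent.S28.Hecke
import Fermat.Agent.S28.AbsAlg

set_option autoImplicit false
set_option linter.style.haveILetI false
set_option linter.unusedSectionVars false

noncomputable section

namespace Fermat.Agent.S28

open ModularCurve HahnSeries Polynomial

namespace Edge

section CSide

variable {C : Type} [Field C] [CharZero C] (p : ℕ) [Fact p.Prime] (ζ : Cˣ)

/-- the unit of the `i`-th neighbour. -/
def uI (u : Cˣ) : Option (Fin p) → Cˣ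
  | none => u ^ (p * p)
  | some b => ζ ^ (b : ℕ) * u

/-- the exponent of the `i`-th neighbour. -/
def aI (a : ℕ) : Option (Fin p) → ℕ
  | none => a * (p * p)
  | some _ => a

/-- the normalising integer. -/
def mI : Option (Fin p) → ℕ
  | none => p ^ 12
  | some _ => 1

theorem ev_evI (u : Cˣ) (a : ℕ) [NeZero a] (i : Option (Fin p)) (ψ : LaurentSeries C) :
    ev u a (evI p ζ i ψ) = evz (uI p ζ u i) (aI p a i) ψ := by
  have hp : p ≠ 0 := (Fact.out : p.Prime).ne_zero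
  have ha : a ≠ 0 := NeZero.ne a
  cases i with
  | none =>
    haveI : NeZero (p * p) := ⟨Nat.mul_ne_zero hp hp⟩
    haveI : NeZero (a * (p * p)) := ⟨Nat.mul_ne_zero ha (Nat.mul_ne_zero hp hp)⟩
    simp only [evI, uI, aI]
    rw [ev_ev, evz_eq_ev, one_mul]
  | some b =>
    haveI : NeZero (a * 1) := ⟨by simpa using ha⟩
    simp only [evI, uI, aI]
    rw [ev_ev, evz_eq_ev]
    exact ev_congr (by rw [pow_one]) (by rw [mul_one]) ψ

theorem ev_ev_one_p (u : Cˣ) (a : ℕ) [NeZero a] (ψ : LaurentSeries C) :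
    ev u a (ev 1 p ψ) = evz (u ^ p) (a * p) ψ := by
  have hp : p ≠ 0 := (Fact.out : p.Prime).ne_zero
  have ha : a ≠ 0 := NeZero.ne a
  haveI : NeZero (a * p) := ⟨Nat.mul_ne_zero ha hp⟩
  rw [ev_ev, evz_eq_ev, one_mul]

theorem algebraMap_nI (i : Option (Fin p)) :
    algebraMap C (LaurentSeries C) (nI p C i) = (mI p i : LaurentSeries C) := by
  cases i with
  | none => simp [nI, mI]
  | some b => simp [nI, mI]

theorem ev_Xi (u : Cˣ) (a : ℕ) [NeZero a] (i : Option (Fin p)) :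
    ev u a (Xi p ζ i) = (mI p i : LaurentSeries C) * evz (uI p ζ u i) (aI p a i) (eS C ^ 3) *
      evz (u ^ p) (a * p) (dInv C) := by
  rw [Xi, map_mul, map_mul, ev_evI, ev_ev_one_p, algebraMap_nI, map_natCast]

theorem ev_Yi (u : Cˣ) (a : ℕ) [NeZero a] (i : Option (Fin p)) :
    ev u a (Yi p ζ i) = (mI p i : LaurentSeries C) * evz (uI p ζ u i) (aI p a i) (dS C) *
      evz (u ^ p) (a * p) (dInv C) := by
  rw [Yi, map_mul, map_mul, ev_evI, ev_ev_one_p, algebraMap_nI, map_natCast]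

end CSide

section Iota

variable (C : Type) [Field C] [CharZero C] (N : ℕ) [NeZero N]

theorem iotaC_jd {d : ℕ} (hd : d ≠ 0) : iotaC C N (jd d) = evz 1 (N * d) (jqModC C) := by
  rw [jd, iotaC_evz N hd, ← jqModC_rat, coeffMap_jq]

theorem iotaC_Xg {d p : ℕ} (hd : d ≠ 0) (hp : p ≠ 0) :
    iotaC C N (Xg d p) = ((p ^ 12 : ℕ) : LaurentSeries C) * evz 1 (N * (d * p)) (eS C ^ 3) *
      evz 1 (N * d) (dInv C) := by
  rw [Xg, map_mul, map_mul, iotaC_evz N hd, iotaC_evz N (Nat.mul_ne_zero hd hp), map_pow,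
    map_pow, coeffMap_eS, coeffMap_dInv, map_natCast]
  push_cast
  rfl

theorem iotaC_Yg {d p : ℕ} (hd : d ≠ 0) (hp : p ≠ 0) :
    iotaC C N (Yg d p) = ((p ^ 12 : ℕ) : LaurentSeries C) * evz 1 (N * (d * p)) (dS C) *
      evz 1 (N * d) (dInv C) := by
  rw [Yg, map_mul, map_mul, iotaC_evz N hd, iotaC_evz N (Nat.mul_ne_zero hd hp), map_pow,
    coeffMap_dS, coeffMap_dInv, map_natCast]
  push_cast
  rfl

end Iota

section Aux

variable {C : Type} [Field C] [CharZero C] {N : ℕ} [NeZero N]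

instance : CharZero (Lbar C N) :=
  charZero_of_injective_ringHom (f := (inc C N).comp (rQ C)) (RingHom.injective _)

theorem Xg_mem {d p : ℕ} (hp : p.Prime) (hdp : d * p ∣ N) : Xg d p ∈ F1 N :=
  IntermediateField.subset_adjoin K0 _ ⟨d, p, hp, hdp, Or.inl rfl⟩

theorem Yg_mem {d p : ℕ} (hp : p.Prime) (hdp : d * p ∣ N) : Yg d p ∈ F1 N :=
  IntermediateField.subset_adjoin K0 _ ⟨d, p, hp, hdp, Or.inr rfl⟩

theorem edge_aux (σ : F1 N →ₐ[K0] Lbar C N) (d p : ℕ) [Fact p.Prime] (hdp : d * p ∣ N)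
    (ζ : Cˣ) (hζ : IsPrimitiveRoot ζ p) (u : Cˣ) (a' : ℕ) [NeZero a']
    (hJ : Maps σ (jd d) (inc C N (ev u a' (ev 1 p (jqModC C))))) :
    ∃ i : Option (Fin p), Maps σ (Xg d p) (inc C N (ev u a' (Xi p ζ i))) ∧
      Maps σ (Yg d p) (inc C N (ev u a' (Yi p ζ i))) := by
  have hp : p.Prime := Fact.out
  have hN : N ≠ 0 := NeZero.ne N
  obtain ⟨m, hm⟩ := hdp
  have hd : d ≠ 0 := by rintro rfl; simp at hm; exact hN hm
  have hm0 : m ≠ 0 := by rintro rfl; simp at hm; exact hN hm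
  have hdp : d * p ∣ N := ⟨m, hm⟩
  have hX := Xg_mem hp hdp
  have hY := Yg_mem hp hdp
  -- the first instance
  haveI : NeZero (d * m * d) := ⟨Nat.mul_ne_zero (Nat.mul_ne_zero hd hm0) hd⟩
  have e1 : d * m * d * p = N * d := by rw [hm]; ring
  have e2 : d * m * d * (p * p) = N * (d * p) := by rw [hm]; ring
  have hJ1 : iotaC C N (jd d) = ev 1 (d * m * d) (ev 1 p (jqModC C)) := by
    rw [iotaC_jd C N hd, ev_ev_one_p, one_pow, e1]
  have hX1 : iotaC C N (Xg d p) = ev 1 (d * m * d) (Xi p ζ none) := by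
    rw [iotaC_Xg C N hd hp.ne_zero, ev_Xi]
    simp only [uI, aI, mI, one_pow, e1, e2]
  have hY1 : iotaC C N (Yg d p) = ev 1 (d * m * d) (Yi p ζ none) := by
    rw [iotaC_Yg C N hd hp.ne_zero, ev_Yi]
    simp only [uI, aI, mI, one_pow, e1, e2]
  obtain ⟨i, hi1, hi2⟩ := exists_common_index (E := Lbar C N) (I := Option (Fin p))
    (σ ⟨Xg d p, hX⟩) (σ ⟨Yg d p, hY⟩) (fun i => inc C N (ev u a' (Xi p ζ i)))
    (fun i => inc C N (ev u a' (Yi p ζ i))) (by
      intro c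
      obtain ⟨ε, hε⟩ := nbr_poly p ζ hζ (heckeHyp p hp) 1 c
      have h1 := congrArg (Polynomial.map (inc C N)) (hε 1 (d * m * d))
      have h2 := congrArg (Polynomial.map (inc C N)) (hε u a')
      simp only [Polynomial.map_prod, Polynomial.map_sub, Polynomial.map_X, Polynomial.map_C,
        Polynomial.map_sum, Polynomial.map_mul, Polynomial.map_pow, Polynomial.map_neg,
        Polynomial.map_one] at h1 h2
      have key : ∀ (k : ℕ) (y : LaurentSeries C), inc C N ((ε k).eval₂ (rQ C) y)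
          = (ε k).eval₂ ((inc C N).comp (rQ C)) (inc C N y) :=
        fun k y => Polynomial.hom_eval₂ _ _ _ _
      simp only [key] at h1 h2
      have hz : (⟨Xg d p + (c : LaurentSeries ℚ) * Yg d p,
          (F1 N).add_mem hX ((F1 N).mul_mem (natCast_mem _ c) hY)⟩ : F1 N)
          = ⟨Xg d p, hX⟩ + (c : F1 N) * ⟨Yg d p, hY⟩ := by
        apply Subtype.ext
        simp
      obtain ⟨i, hi⟩ := exists_root_transfer (L := F1 N) (E := Lbar C N) (I := Option (Fin p))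
        (iota1 C N : F1 N →+* Lbar C N) (σ : F1 N →+* Lbar C N)
        ((algebraMap K0 (F1 N)).comp (algebraMap ℚ K0)) ((inc C N).comp (rQ C))
        ⟨jd d, hJ.mem⟩ (⟨Xg d p, hX⟩ + (c : F1 N) * ⟨Yg d p, hY⟩) ε (p + 1)
        (fun i => inc C N (rQ C 1 * ev 1 (d * m * d) (Xi p ζ i)
          + rQ C c * ev 1 (d * m * d) (Yi p ζ i)))
        (fun i => inc C N (rQ C 1 * ev u a' (Xi p ζ i) + rQ C c * ev u a' (Yi p ζ i)))
        (by
          have : (iota1 C N : F1 N →+* Lbar C N) ⟨jd d, hJ.mem⟩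
              = inc C N (ev 1 (d * m * d) (ev 1 p (jqModC C))) := by
            show iota1 C N ⟨jd d, hJ.mem⟩ = _
            rw [iota1_apply, hJ1]
          rw [this]
          exact h1)
        (by
          have : (σ : F1 N →+* Lbar C N) ⟨jd d, hJ.mem⟩
              = inc C N (ev u a' (ev 1 p (jqModC C))) := hJ.eq _
          rw [this]
          exact h2)
        ⟨none, by
          show iota1 C N _ = _
          rw [map_add, map_mul, map_natCast, iota1_apply, iota1_apply, hX1, hY1]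
          simp only [map_add, map_mul, map_one, map_natCast, one_mul]⟩
      refine ⟨i, ?_⟩
      have hi' : σ (⟨Xg d p, hX⟩ + (c : F1 N) * ⟨Yg d p, hY⟩) = _ := hi
      rw [map_add, map_mul, map_natCast] at hi'
      rw [hi']
      simp only [map_add, map_mul, map_one, map_natCast, one_mul])
  exact ⟨i, ⟨hX, hi1⟩, ⟨hY, hi2⟩⟩

end Aux

section Main

variable {ℓ : ℕ} [Fact ℓ.Prime] {V C κ : Type} [CommRing V] [IsDomain V]
  [Field C] [CharZero C] [Algebra V C] [IsFractionRing V C] [Field κ] [IsAlgClosed κ]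
  (𝔇 : Data ℓ V C κ) {N : ℕ} [NeZero N]

theorem eV_form (n : ℕ) (P Q : Pt κ) (ψ : LaurentSeries V) :
    eV V C N ((n : LaurentSeries V) * 𝔇.EvV Q ψ * 𝔇.EvV P (dInv V)) =
      inc C N ((n : LaurentSeries C) * evz (𝔇.T Q.1) Q.2 (coeffMap (algebraMap V C) ψ) *
        evz (𝔇.T P.1) P.2 (dInv C)) := by
  simp only [eV, RingHom.comp_apply, map_mul, map_natCast, Data.coeffMap_EvV, coeffMap_dInv]

theorem eV_EvV (P : Pt κ) (ψ : LaurentSeries V) :
    eV V C N (𝔇.EvV P ψ) = inc C N (evz (𝔇.T P.1) P.2 (coeffMap (algebraMap V C) ψ)) := by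
  simp only [eV, RingHom.comp_apply, Data.coeffMap_EvV]

theorem jd_mul_Yg (d p : ℕ) : jd (d * p) * Yg d p = Xg d p := by
  rw [jd, Yg, Xg, ← jq_mul_dS ℚ, map_mul, jqModC_rat]
  ring

theorem Yg_ne_zero (d p : ℕ) (hp : p ≠ 0) : Yg d p ≠ 0 := by
  have h1 : (p : LaurentSeries ℚ) ≠ 0 := by
    have : (p : LaurentSeries ℚ) = rQ ℚ (p : ℚ) := by rw [map_natCast]
    rw [this]
    exact (_root_.map_ne_zero _).2 (by exact_mod_cast hp)
  have h2 : dS ℚ ≠ 0 := left_ne_zero_of_mul_eq_one (dS_mul_dInv ℚ)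
  have h3 : dInv ℚ ≠ 0 := right_ne_zero_of_mul_eq_one (dS_mul_dInv ℚ)
  rw [Yg]
  refine mul_ne_zero (mul_ne_zero (pow_ne_zero _ h1) ?_) ?_
  · exact (map_ne_zero_iff _ (evz_injective 1 _)).2 h2
  · exact (map_ne_zero_iff _ (evz_injective 1 _)).2 h3

/-- from the `X` and `Y` statements to `j(q^{dp})`. -/
theorem maps_jd_of (σ : F1 N →ₐ[K0] Lbar C N) (d p : ℕ) (hp : p ≠ 0) (n : ℕ) (P Q : Pt κ)
    (hX : Maps σ (Xg d p) (eV V C N ((n : LaurentSeries V) * 𝔇.EvV Q (eS V ^ 3) *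
        𝔇.EvV P (dInv V))))
    (hY : Maps σ (Yg d p) (eV V C N ((n : LaurentSeries V) * 𝔇.EvV Q (dS V) *
        𝔇.EvV P (dInv V)))) :
    Maps σ (jd (d * p)) (eV V C N (𝔇.EvV Q (jqModC V))) := by
  have hY0 := Yg_ne_zero d p hp
  have hBY : eV V C N ((n : LaurentSeries V) * 𝔇.EvV Q (dS V) * 𝔇.EvV P (dInv V)) ≠ 0 := by
    obtain ⟨h, e⟩ := hY
    rw [← e]
    refine (_root_.map_ne_zero σ).2 ?_
    intro h0
    exact hY0 (congrArg Subtype.val h0)
  have h := hX.mul hY.inv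
  have e1 : Xg d p * (Yg d p)⁻¹ = jd (d * p) := by
    rw [← jd_mul_Yg, mul_assoc, mul_inv_cancel₀ hY0, mul_one]
  have e2 : eV V C N ((n : LaurentSeries V) * 𝔇.EvV Q (eS V ^ 3) * 𝔇.EvV P (dInv V)) =
      eV V C N (𝔇.EvV Q (jqModC V)) *
        eV V C N ((n : LaurentSeries V) * 𝔇.EvV Q (dS V) * 𝔇.EvV P (dInv V)) := by
    rw [← map_mul, ← jq_mul_dS V, map_mul (𝔇.EvV Q)]
    congr 1
    ring
  rw [e1, e2, mul_assoc, mul_inv_cancel₀ hBY, mul_one] at h
  exact h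

include 𝔇 in
theorem edge_natCast_ne_zero (m : ℕ) (h : ¬ ℓ ∣ m) : (m : κ) ≠ 0 := by
  intro h0
  have hℓ : ℓ.Prime := Fact.out
  have hc : IsCoprime (ℓ : ℤ) (m : ℤ) :=
    Nat.isCoprime_iff_coprime.2 ((Nat.Prime.coprime_iff_not_dvd hℓ).2 h)
  obtain ⟨s, t, hst⟩ := hc
  have h1 : (m : V) ∈ RingHom.ker 𝔇.red := by
    rw [RingHom.mem_ker, map_natCast, h0]
  have h2 : (ℓ : V) ∈ RingHom.ker 𝔇.red := by
    rw [𝔇.ker_red]
    exact Ideal.mem_span_singleton_self _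
  have h3 : (1 : V) ∈ RingHom.ker 𝔇.red := by
    have : (1 : V) = (s : V) * (ℓ : V) + (t : V) * (m : V) := by
      have := congrArg (Int.cast : ℤ → V) hst
      push_cast at this
      exact this.symm
    rw [this]
    exact Ideal.add_mem _ (Ideal.mul_mem_left _ _ h2) (Ideal.mul_mem_left _ _ h1)
  rw [RingHom.mem_ker, map_one] at h3
  exact one_ne_zero h3

end Main

end Edge

section Main

variable {ℓ : ℕ} [Fact ℓ.Prime] {V C κ : Type} [CommRing V] [IsDomain V]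
  [Field C] [CharZero C] [Algebra V C] [IsFractionRing V C] [Field κ] [IsAlgClosed κ]
  (𝔇 : Data ℓ V C κ) {N : ℕ} [NeZero N]

open Edge in
/-- The edge lemma: if `σ(j(q^d)) = j(P)` then `σ` sends `X_{d,p}, Y_{d,p}, j(q^{dp})` to the
corresponding functions at one and the same `p`-neighbour `Q` of `P`. -/
theorem edge (σ : F1 N →ₐ[K0] Lbar C N) (d p : ℕ) (hp : p.Prime) (hpℓ : p ≠ ℓ)
    (hdp : d * p ∣ N) (P : Pt κ) (hP : Good 𝔇 σ d P) :
    ∃ Q : Pt κ, Good 𝔇 σ (d * p) Q ∧ (Q = up p P ∨ P = up p Q) ∧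
      Maps σ (Xg d p) (eV V C N ((nrm p P Q : LaurentSeries V) * 𝔇.EvV Q (eS V ^ 3) *
        𝔇.EvV P (dInv V))) ∧
      Maps σ (Yg d p) (eV V C N ((nrm p P Q : LaurentSeries V) * 𝔇.EvV Q (dS V) *
        𝔇.EvV P (dInv V))) := by
  haveI : Fact p.Prime := ⟨hp⟩
  have hN : N ≠ 0 := NeZero.ne N
  obtain ⟨x, a⟩ := P
  obtain ⟨ha0, hNa, hmaps⟩ := hP
  simp only at ha0 hNa
  obtain ⟨m, hm⟩ := id hdp
  have hd : d ≠ 0 := by rintro rfl; simp at hm; exact hN hm
  have hm0 : m ≠ 0 := by rintro rfl; simp at hm; exact hN hm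
  have hNd : N / d = p * m := by
    rw [hm, mul_assoc, Nat.mul_div_cancel_left _ (Nat.pos_of_ne_zero hd)]
  have hNdp : N / (d * p) = m := by
    rw [hm, Nat.mul_div_cancel_left _ (Nat.pos_of_ne_zero (Nat.mul_ne_zero hd hp.ne_zero))]
  rw [hNd] at hNa
  obtain ⟨t, ht⟩ := hNa
  have ht0 : t ≠ 0 := by rintro rfl; simp at ht; exact ha0 ht
  set a' : ℕ := m * t with ha'
  have ha'0 : a' ≠ 0 := Nat.mul_ne_zero hm0 ht0
  haveI : NeZero a' := ⟨ha'0⟩
  have haa' : a = a' * p := by rw [ht, ha']; ring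
  -- the p-th root of x
  obtain ⟨y, hy⟩ := IsAlgClosed.exists_pow_nat_eq (x : κ) hp.pos
  have hy0 : y ≠ 0 := by
    rintro rfl
    rw [zero_pow hp.ne_zero] at hy
    exact x.ne_zero hy.symm
  set yU : κˣ := Units.mk0 y hy0 with hyU
  have hyx : yU ^ p = x := by
    apply Units.ext
    rw [Units.val_pow_eq_pow_val, hyU, Units.val_mk0, hy]
  -- the primitive root
  have hℓp : ¬ ℓ ∣ p := by
    intro h
    exact hpℓ ((Nat.prime_dvd_prime_iff_eq Fact.out hp).1 h).symm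
  haveI : NeZero (p : κ) := ⟨edge_natCast_ne_zero 𝔇 p hℓp⟩
  obtain ⟨z, hz⟩ := HasEnoughRootsOfUnity.exists_primitiveRoot κ p
  set zU : κˣ := (hz.isUnit hp.ne_zero).unit with hzU
  have hzU' : IsPrimitiveRoot zU p := IsPrimitiveRoot.coe_units_iff.1 (by simpa [hzU] using hz)
  have hζ : IsPrimitiveRoot (𝔇.T zU) p := hzU'.map_of_injective 𝔇.T_injective
  have hup : (𝔇.T yU) ^ p = 𝔇.T x := by rw [← map_pow, hyx]
  have hJ : Maps σ (jd d) (inc C N (ev (𝔇.T yU) a' (ev 1 p (jqModC C)))) := by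
    rw [ev_ev_one_p, hup, ← haa']
    rw [eV_EvV, coeffMap_jq] at hmaps
    exact hmaps
  obtain ⟨i, hiX, hiY⟩ := edge_aux σ d p hdp (𝔇.T zU) hζ (𝔇.T yU) a' hJ
  rw [ev_Xi, hup, ← haa'] at hiX
  rw [ev_Yi, hup, ← haa'] at hiY
  -- the neighbour
  have main : ∀ Q : Pt κ, 𝔇.T Q.1 = uI p (𝔇.T zU) (𝔇.T yU) i → Q.2 = aI p a' i →
      nrm p (x, a) Q = mI p i → m ∣ Q.2 → (Q = up p (x, a) ∨ (x, a) = up p Q) →
      ∃ Q : Pt κ, Good 𝔇 σ (d * p) Q ∧ (Q = up p (x, a) ∨ (x, a) = up p Q) ∧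
      Maps σ (Xg d p) (eV V C N ((nrm p (x, a) Q : LaurentSeries V) * 𝔇.EvV Q (eS V ^ 3) *
        𝔇.EvV (x, a) (dInv V))) ∧
      Maps σ (Yg d p) (eV V C N ((nrm p (x, a) Q : LaurentSeries V) * 𝔇.EvV Q (dS V) *
        𝔇.EvV (x, a) (dInv V))) := by
    intro Q h1 h2 h3 h4 h5
    have hX : Maps σ (Xg d p) (eV V C N ((nrm p (x, a) Q : LaurentSeries V) *
        𝔇.EvV Q (eS V ^ 3) * 𝔇.EvV (x, a) (dInv V))) := by
      rw [eV_form, h1, h2, h3, map_pow, coeffMap_eS]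
      exact hiX
    have hY : Maps σ (Yg d p) (eV V C N ((nrm p (x, a) Q : LaurentSeries V) *
        𝔇.EvV Q (dS V) * 𝔇.EvV (x, a) (dInv V))) := by
      rw [eV_form, h1, h2, h3, coeffMap_dS]
      exact hiY
    refine ⟨Q, ⟨?_, ?_, maps_jd_of 𝔇 σ d p hp.ne_zero _ _ _ hX hY⟩, h5, hX, hY⟩
    · rw [h2]
      cases i with
      | none => exact Nat.mul_ne_zero ha'0 (Nat.mul_ne_zero hp.ne_zero hp.ne_zero)
      | some b => exact ha'0
    · rw [hNdp]
      exact h4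
  cases i with
  | none =>
    refine main (up p (x, a)) ?_ ?_ ?_ ?_ (Or.inl rfl)
    · simp only [up, uI]
      rw [map_pow, ← hup, ← pow_mul]
    · simp only [up, aI]
      rw [haa']; ring
    · simp only [up, nrm, mI, if_true]
    · simp only [up]
      rw [ht]
      exact ⟨p * p * t, by ring⟩
  | some b =>
    refine main (zU ^ (b : ℕ) * yU, a') ?_ ?_ ?_ ?_ (Or.inr ?_)
    · simp only [uI]
      rw [map_mul, map_pow]
    · simp only [aI]
    · simp only [nrm, mI]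
      rw [if_neg]
      intro h
      rw [haa'] at h
      have h1 : a' * 1 = a' * (p * p) := by
        rw [mul_one]
        calc a' = p * (a' * p) := h
          _ = a' * (p * p) := by ring
      have h2 := Nat.eq_of_mul_eq_mul_left (Nat.pos_of_ne_zero ha'0) h1
      have h3 := hp.two_le
      nlinarith
    · exact ⟨t, rfl⟩
    · simp only [up]
      rw [mul_pow, ← pow_mul, mul_comm (b : ℕ) p, pow_mul, hzU'.pow_eq_one, one_pow, one_mul, hyx,
        haa', mul_comm]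

end Main

end Fermat.Agent.S28
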