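import Fermat.Statements.S28
set_option autoImplicit false
open AlgebraicGeometry CategoryTheory CategoryTheory.Limits ModularCurve ModularCurve.IgusaScheme
noncomputable section
namespace Fermat.Agent.S28

/-- SUBTASK B1 -/
theorem powerSeries_ufd (V : Type*) [CommRing V] [IsDomain V] [IsPrincipalIdealRing V] :
    UniqueFactorizationMonoid (PowerSeries V) := inferInstance

theorem laurentSeries_isIntegrallyClosed (V : Type*) [CommRing V] [IsDomain V]
    [IsPrincipalIdealRing V] : IsIntegrallyClosed (LaurentSeries V) := by
  haveI : UniqueFactorizationMonoid (PowerSeries V) := powerSeries_ufd V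
  haveI : IsIntegrallyClosed (PowerSeries V) := inferInstance
  refine isIntegrallyClosed_of_isLocalization (R := PowerSeries V) (LaurentSeries V)
    (Submonoid.powers (PowerSeries.X : PowerSeries V)) ?_
  rintro _ ⟨n, rfl⟩
  exact mem_nonZeroDivisors_of_ne_zero (pow_ne_zero _ PowerSeries.X_ne_zero)

theorem coeffMap_injective_of_injective {V C : Type*} [CommRing V] [CommRing C] (i : V →+* C)
    (hi : Function.Injective i) : Function.Injective (coeffMap i) := by
  intro a b hab
  ext k
  apply hi
  have := congrArg (fun z => HahnSeries.coeff z k) hab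
  simpa [coeffMap_coeff] using this

theorem mem_range_coeffMap_of_isIntegral {V C : Type*} [CommRing V] [IsDomain V]
    [IsPrincipalIdealRing V] [Field C] (i : V →+* C) (hi : Function.Injective i)
    (x : LaurentSeries C) (g h : LaurentSeries V) (hh : h ≠ 0)
    (hx : x * coeffMap i h = coeffMap i g)
    (hint : (coeffMap i).IsIntegralElem x) :
    ∃ y : LaurentSeries V, coeffMap i y = x := by
  haveI := laurentSeries_isIntegrallyClosed V
  have hinj : Function.Injective (coeffMap i) := coeffMap_injective_of_injective i hi
  let K := FractionRing (LaurentSeries V)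
  let φ : K →+* LaurentSeries C := IsFractionRing.lift hinj
  have hφ : ∀ a, φ (algebraMap (LaurentSeries V) K a) = coeffMap i a :=
    fun a => IsFractionRing.lift_algebraMap hinj a
  have hh' : coeffMap i h ≠ 0 := by
    intro h0
    exact hh (hinj (by rw [h0, map_zero]))
  let z : K := algebraMap (LaurentSeries V) K g / algebraMap (LaurentSeries V) K h
  have hz : φ z = x := by
    simp only [z, map_div₀, hφ]
    rw [← hx]
    field_simp
  have hzint : IsIntegral (LaurentSeries V) z := by
    obtain ⟨p, hp, hpx⟩ := hint
    refine ⟨p, hp, ?_⟩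
    apply φ.injective
    rw [map_zero, Polynomial.hom_eval₂, hz]
    have : φ.comp (algebraMap (LaurentSeries V) K) = coeffMap i := RingHom.ext hφ
    rw [this]
    exact hpx
  obtain ⟨y, hy⟩ := IsIntegrallyClosed.isIntegral_iff.mp hzint
  exact ⟨y, by rw [← hφ, hy, hz]⟩

end Fermat.Agent.S28
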