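import Fermat.Agent.S28.Aprime
import Fermat.Agent.S28.PowerSeriesUFD
import Fermat.Statements.S28

set_option autoImplicit false
set_option linter.style.haveILetI false
set_option linter.unusedSectionVars false

noncomputable section

namespace Fermat.Agent.S28

open ModularCurve ModularCurve.IgusaScheme HahnSeries Polynomial

/-- the inclusion of the modular function field into `F₁`. -/
def incF (N : ℕ) [NeZero N] : ↥(modularFunctionFieldFull N) →+* F1 N :=
  RingHom.codRestrict (modularFunctionFieldFull N).toSubfield.subtype (F1 N)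
    (fun x => full_le_F1 x.2)

theorem incF_coe (N : ℕ) [NeZero N] (x : ↥(modularFunctionFieldFull N)) :
    ((incF N x : F1 N) : LaurentSeries ℚ) = x.1 := by
  unfold incF
  rw [RingHom.codRestrict_apply]
  rfl

variable {ℓ : ℕ} [Fact ℓ.Prime] {V C κ : Type} [CommRing V] [IsDomain V] [IsPrincipalIdealRing V]
  [Field C] [CharZero C] [Algebra V C] [IsFractionRing V C] [Field κ] [IsAlgClosed κ]
  (𝔇 : Data ℓ V C κ) {N : ℕ} [NeZero N]

/-- rational constants in `Lbar` come from `V((t))` when they are `ℓ`-integral. -/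
theorem integ_ratCast_mem_range (𝔇 : Data ℓ V C κ) (N : ℕ) (r : ↥(GaloisRep.ratLocalizedAt ℓ)) :
    (((r : ℚ) : Lbar C N)) ∈ (eV V C N).range := by
  obtain ⟨v, hv⟩ := (𝔇.mem_iff (r : ℚ)).mpr r.2
  refine ⟨HahnSeries.single 0 v, ?_⟩
  show inc C N (coeffMap (algebraMap V C) (HahnSeries.single 0 v)) = _
  rw [coeffMap_single, hv, eq_ratCast, ← HahnSeries.C_apply, map_ratCast, map_ratCast]

theorem integ_sigma_jFull (σ : F1 N →ₐ[K0] Lbar C N) :
    σ (incF N (jFull N)) = eV V C N (evz 1 N (jqModC V)) := by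
  have h1 : Maps σ (kap (algebraMap ℚ[X] K0 X)) _ := Maps.kap (algebraMap ℚ[X] K0 X)
  have h2 : kap (algebraMap ℚ[X] K0 X) = jq := by
    rw [kap_algebraMap, pe_apply, eval₂_X]
  rw [h2] at h1
  obtain ⟨hm, hσ⟩ := h1
  have h3 : incF N (jFull N) = ⟨jq, hm⟩ := Subtype.ext (incF_coe N (jFull N))
  rw [h3, hσ, inc_iotaC_jq (V := V)]

theorem integ_sigma_jFull_inv (σ : F1 N →ₐ[K0] Lbar C N) :
    σ (incF N (jFull N)⁻¹) = eV V C N (evz 1 N (jInv V)) := by
  rw [map_inv₀, map_inv₀, integ_sigma_jFull (V := V)]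
  apply inv_eq_of_mul_eq_one_right
  rw [← map_mul, ← map_mul, jq_mul_jInv, map_one, map_one]

theorem integ_sigma_adjoin (𝔇 : Data ℓ V C κ) (σ : F1 N →ₐ[K0] Lbar C N)
    (S : Set ↥(modularFunctionFieldFull N)) (hS : S ⊆ {jFull N, (jFull N)⁻¹})
    (x : ↥(modularFunctionFieldFull N))
    (hx : x ∈ Algebra.adjoin ↥(GaloisRep.ratLocalizedAt ℓ) S) :
    σ (incF N x) ∈ (eV V C N).range := by
  induction hx using Algebra.adjoin_induction with
  | mem x hx =>
    rcases hS hx with rfl | hx'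
    · exact ⟨_, (integ_sigma_jFull σ).symm⟩
    · rw [Set.mem_singleton_iff] at hx'
      subst hx'
      exact ⟨_, (integ_sigma_jFull_inv σ).symm⟩
  | algebraMap r =>
    have h1 : algebraMap ↥(GaloisRep.ratLocalizedAt ℓ) ↥(modularFunctionFieldFull N) r
        = (((r : ℚ)) : ↥(modularFunctionFieldFull N)) := by
      show algebraMap ℚ ↥(modularFunctionFieldFull N) (r : ℚ) = _
      rw [eq_ratCast]
    rw [h1, map_ratCast, map_ratCast]
    exact integ_ratCast_mem_range 𝔇 N r
  | add x y _ _ hx hy =>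
    rw [map_add, map_add]; exact Subring.add_mem _ hx hy
  | mul x y _ _ hx hy =>
    rw [map_mul, map_mul]; exact Subring.mul_mem _ hx hy

include 𝔇 in
/-- (J1) all conjugates of an element of a chart algebra lie in `V((t))`. -/
theorem sigma_mem_range_of_chartAlg (hℓN : ¬ ℓ ∣ N) (σ : F1 N →ₐ[K0] Lbar C N)
    (S : Set ↥(modularFunctionFieldFull N)) (hS : S ⊆ {jFull N, (jFull N)⁻¹})
    (f : ↥(modularFunctionFieldFull N)) (hf : f ∈ chartAlg N ℓ S) :
    σ (incF N f) ∈ (eV V C N).range := by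
  haveI := laurentSeries_isIntegrallyClosed V
  have hf' : (algebraMap (Algebra.adjoin ↥(GaloisRep.ratLocalizedAt ℓ) S)
      ↥(modularFunctionFieldFull N)).IsIntegralElem f := (mem_chartAlg_iff N ℓ).mp hf
  have hint := isIntegralElem_transfer _ f hf' (σ.toRingHom.comp (incF N)) (eV V C N)
    (fun c => integ_sigma_adjoin 𝔇 σ S hS c.1 c.2)
  refine mem_range_of_isIntegralElem_of_mem_closure (eV V C N) (eV_injective N) _ ?_ hint
  first
    | exact sigma_mem_closure 𝔇 hℓN σ _
    | exact sigma_mem_closure hℓN σ _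

include 𝔇 in
/-- (I1) the `q`-expansion of an element of a chart algebra has `ℤ_(ℓ)`-coefficients. -/
theorem mem_intSeries_of_chartAlg (hℓN : ¬ ℓ ∣ N)
    (S : Set ↥(modularFunctionFieldFull N)) (hS : S ⊆ {jFull N, (jFull N)⁻¹})
    (f : ↥(modularFunctionFieldFull N)) (hf : f ∈ chartAlg N ℓ S) :
    f.1 ∈ intSeries (GaloisRep.ratLocalizedAt ℓ) := by
  obtain ⟨w, hw⟩ := sigma_mem_range_of_chartAlg 𝔇 hℓN (iota1 C N) S hS f hf
  rw [iota1_apply, incF_coe] at hw
  exact 𝔇.mem_intSeries_of_eV N f.1 w hw.symm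

theorem integ_val_adjoin (y : ↥(modularFunctionFieldFull N))
    (x : ↥(modularFunctionFieldFull N))
    (hx : x ∈ Algebra.adjoin ↥(GaloisRep.ratLocalizedAt ℓ) {y}) :
    x.1 ∈ (pe ℚ y.1).range := by
  induction hx using Algebra.adjoin_induction with
  | mem x hx =>
    rw [Set.mem_singleton_iff] at hx
    subst hx
    exact ⟨X, by rw [pe_apply, eval₂_X]⟩
  | algebraMap r =>
    refine ⟨Polynomial.C (r : ℚ), ?_⟩
    rw [pe_apply, eval₂_C]
    show (algebraMap ℚ (LaurentSeries ℚ)) (algebraMap ℚ ℚ (r : ℚ)) =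
      ((algebraMap ℚ ↥(modularFunctionFieldFull N) (r : ℚ) : ↥(modularFunctionFieldFull N)) :
        LaurentSeries ℚ)
    rw [eq_ratCast, eq_ratCast, eq_ratCast]
    simp
  | add x y _ _ hx hy => exact Subring.add_mem _ hx hy
  | mul x y _ _ hx hy => exact Subring.mul_mem _ hx hy

theorem integ_isIntegralElem_of_chartAlg (y f : ↥(modularFunctionFieldFull N))
    (hf : f ∈ chartAlg N ℓ {y}) : (pe ℚ y.1).IsIntegralElem f.1 := by
  have hf' : (algebraMap (Algebra.adjoin ↥(GaloisRep.ratLocalizedAt ℓ) {y})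
      ↥(modularFunctionFieldFull N)).IsIntegralElem f := (mem_chartAlg_iff N ℓ).mp hf
  exact isIntegralElem_transfer _ f hf' (modularFunctionFieldFull N).toSubfield.subtype
    (pe ℚ y.1) (fun c => integ_val_adjoin y c.1 c.2)

/-- elements of the finite chart are integral over `ℚ[j]`. -/
theorem intJ_of_chartAlgFin (f : ↥(modularFunctionFieldFull N)) (hf : f ∈ chartAlgFin N ℓ) :
    IntJ f.1 :=
  integ_isIntegralElem_of_chartAlg (jFull N) f hf

/-- elements of the infinite chart are integral over `ℚ[1/j]`. -/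
theorem intJinv_of_chartAlgInf (f : ↥(modularFunctionFieldFull N)) (hf : f ∈ chartAlgInf N ℓ) :
    (pe ℚ jq⁻¹).IsIntegralElem f.1 :=
  integ_isIntegralElem_of_chartAlg (jFull N)⁻¹ f hf

end Fermat.Agent.S28
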