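import Mathlib

set_option autoImplicit false

noncomputable section

namespace Fermat.Agent.S28

open Finset

/-- Newton: if all power sums lie in a subring containing the rationals, so do the
elementary symmetric functions. -/
theorem esymm_mem_of_psum_mem {𝕃 I : Type*} [CommRing 𝕃] [Fintype I] (r : ℚ →+* 𝕃)
    (𝒜 : Subring 𝕃) (hr : ∀ c, r c ∈ 𝒜) (z : I → 𝕃) (hps : ∀ m, ∑ i, z i ^ m ∈ 𝒜) :
    ∀ k, (Finset.univ.val.map z).esymm k ∈ 𝒜 := by
  intro k
  induction k using Nat.strong_induction_on with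
  | _ k ih =>
    rcases Nat.eq_zero_or_pos k with rfl | hk
    · simp only [Multiset.esymm, Multiset.powersetCard_zero_left, Multiset.map_singleton, Multiset.prod_zero, Multiset.sum_singleton]; exact 𝒜.one_mem
    · have hN := congrArg (MvPolynomial.aeval z) (MvPolynomial.mul_esymm_eq_sum I ℤ k)
      simp only [map_mul, map_natCast, map_pow, map_neg, map_one, map_sum,
        MvPolynomial.aeval_esymm_eq_multiset_esymm, MvPolynomial.psum, MvPolynomial.aeval_X] at hN
      have hk' : r (k : ℚ)⁻¹ * (k : 𝕃) = 1 := by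
        have : (k : 𝕃) = r (k : ℚ) := by simp
        rw [this, ← map_mul, inv_mul_cancel₀ (by exact_mod_cast hk.ne'), map_one]
      have : (Finset.univ.val.map z).esymm k = r (k : ℚ)⁻¹ * ((k : 𝕃) * (Finset.univ.val.map z).esymm k) := by
        rw [← mul_assoc, hk', one_mul]
      rw [this, hN]
      refine 𝒜.mul_mem (hr _) (𝒜.mul_mem (𝒜.pow_mem (𝒜.neg_mem 𝒜.one_mem) _) ?_)
      refine Subring.sum_mem _ fun a ha => ?_
      have ha' : a.1 < k := (Finset.mem_filter.mp ha).2
      exact 𝒜.mul_mem (𝒜.mul_mem (𝒜.pow_mem (𝒜.neg_mem 𝒜.one_mem) _) (ih _ ha')) (hps _)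

/-- the product `∏ (X - z i)` in terms of elementary symmetric functions. -/
theorem prod_X_sub_C_eq {𝕃 I : Type*} [CommRing 𝕃] [Fintype I] (z : I → 𝕃) :
    ∏ i, (Polynomial.X - Polynomial.C (z i)) =
      ∑ k ∈ Finset.range (Fintype.card I + 1), (-1) ^ k *
        (Polynomial.C ((Finset.univ.val.map z).esymm k) * Polynomial.X ^ (Fintype.card I - k)) := by
  have h := Multiset.prod_X_sub_X_eq_sum_esymm (Finset.univ.val.map z)
  rw [Multiset.map_map, Multiset.card_map] at h
  exact h

end Fermat.Agent.S28
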