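import Fermat.Agent.S28.Series
import Fermat.Agent.S28.Newton

set_option autoImplicit false

noncomputable section

namespace Fermat.Agent.S28

open ModularCurve HahnSeries

/-- The statement of `formal_hecke` (proved in `FormalHecke.lean`), used here as a hypothesis. -/
def HeckeHyp (p : ℕ) : Prop :=
  ∀ a b : ℕ, ∃ c : ℕ → ℚ, ∀ n : ℕ,
      (p : ℚ) * PowerSeries.coeff (n * p) ((eisenstein4.map (Int.castRingHom ℚ)) ^ (3 * a) *
          (PowerSeries.X * dedekindEtaUnit.map (Int.castRingHom ℚ)) ^ b) +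
        (if p ∣ n then (p : ℚ) ^ (12 * (a + b)) *
          PowerSeries.coeff (n / p) ((eisenstein4.map (Int.castRingHom ℚ)) ^ (3 * a) *
          (PowerSeries.X * dedekindEtaUnit.map (Int.castRingHom ℚ)) ^ b) else 0)
      = PowerSeries.coeff n (∑ i ∈ Finset.range (a + b + 1),
          PowerSeries.C (c i) * (eisenstein4.map (Int.castRingHom ℚ)) ^ (3 * i) *
            (PowerSeries.X * dedekindEtaUnit.map (Int.castRingHom ℚ)) ^ (a + b - i))

section

variable {C : Type*} [Field C]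

theorem ev_one_coeff (u : Cˣ) (ψ : LaurentSeries C) (n : ℤ) :
    (ev u 1 ψ).coeff n = ((u ^ n : Cˣ) : C) * ψ.coeff n := by
  have := ev_coeff_mul u 1 ψ n
  simpa using this

variable (p : ℕ) [Fact p.Prime] (ζ : Cˣ) (hζ : IsPrimitiveRoot ζ p)

include hζ in
theorem sum_zpow_root (n : ℤ) :
    ∑ b : Fin p, ((((ζ ^ (b : ℕ)) ^ n : Cˣ)) : C) = if (p : ℤ) ∣ n then (p : C) else 0 := by
  have h1 : ∀ b : Fin p, ((((ζ ^ (b : ℕ)) ^ n : Cˣ)) : C) = (((ζ ^ n : Cˣ)) : C) ^ (b : ℕ) := by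
    intro b
    rw [← Units.val_pow_eq_pow_val, ← zpow_natCast, ← zpow_natCast, ← zpow_mul, ← zpow_mul, mul_comm]
  rw [Finset.sum_congr rfl fun b _ => h1 b, Fin.sum_univ_eq_sum_range (fun b => (((ζ ^ n : Cˣ)) : C) ^ b)]
  split_ifs with h
  · rw [(hζ.zpow_eq_one_iff_dvd n).mpr h]
    simp
  · have hp : p.Prime := Fact.out
    have hg : n.gcd (p : ℤ) = 1 := by
      have : Nat.Coprime p n.natAbs := (Nat.Prime.coprime_iff_not_dvd hp).mpr (by
        intro hd
        exact h (Int.natCast_dvd.mpr hd))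
      rw [Int.gcd_comm]
      simpa [Int.gcd] using this
    have h2 : IsPrimitiveRoot (ζ ^ n) p := hζ.zpow_of_gcd_eq_one n hg
    have h3 : IsPrimitiveRoot (((ζ ^ n : Cˣ)) : C) p := IsPrimitiveRoot.coe_units_iff.mpr h2
    exact h3.geom_sum_eq_zero hp.one_lt

include hζ in
/-- The formal Hecke sum. -/
theorem hecke_sum (ψ H : LaurentSeries C) (M : C)
    (hH : ∀ n : ℤ, H.coeff n = (p : C) * ψ.coeff ((p : ℤ) * n) +
      (if (p : ℤ) ∣ n then M * ψ.coeff (n / p) else 0)) :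
    algebraMap C (LaurentSeries C) M * ev 1 (p * p) ψ + ∑ b : Fin p, ev (ζ ^ (b : ℕ)) 1 ψ =
      ev 1 p H := by
  have hp0 : (p : ℤ) ≠ 0 := by exact_mod_cast (Fact.out : p.Prime).ne_zero
  ext n
  rw [HahnSeries.coeff_add, coeff_algebraMap_mul, HahnSeries.coeff_sum]
  simp only [ev_one_coeff]
  rw [← Finset.sum_mul, sum_zpow_root p ζ hζ]
  by_cases h : (p : ℤ) ∣ n
  · obtain ⟨n', rfl⟩ := h
    rw [if_pos (Dvd.intro _ rfl), ev_coeff_mul, hH]
    simp only [one_zpow, Units.val_one, one_mul]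
    by_cases h' : (p : ℤ) ∣ n'
    · obtain ⟨n'', rfl⟩ := h'
      rw [if_pos (Dvd.intro _ rfl)]
      have : (p : ℤ) * ((p : ℤ) * n'') = ((p * p : ℕ) : ℤ) * n'' := by push_cast; ring
      rw [this, ev_coeff_mul, Int.mul_ediv_cancel_left _ hp0]
      simp only [one_zpow, Units.val_one, one_mul]
      ring
    · rw [if_neg h', ev_coeff_of_not_dvd]
      · ring
      · rintro ⟨c, hc⟩
        apply h'
        refine ⟨c, ?_⟩
        have : (p : ℤ) * n' = (p : ℤ) * ((p : ℤ) * c) := by rw [hc]; push_cast; ring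
        exact mul_left_cancel₀ hp0 this
  · rw [if_neg h, ev_coeff_of_not_dvd _ _ _ h, ev_coeff_of_not_dvd]
    · simp
    · intro hd
      apply h
      exact Dvd.dvd.trans ⟨(p : ℤ), by push_cast; ring⟩ hd

end


section Lift

variable (C : Type*) [Field C] [CharZero C]

/-- power series over `ℚ` as Laurent series over `C`. -/
def Lf : PowerSeries ℚ →+* LaurentSeries C :=
  (coeffMap (algebraMap ℚ C)).comp (HahnSeries.ofPowerSeries ℤ ℚ)

theorem Lf_coeff_nat (φ : PowerSeries ℚ) (n : ℕ) :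
    (Lf C φ).coeff (n : ℤ) = algebraMap ℚ C (PowerSeries.coeff n φ) := by
  simp only [Lf, RingHom.comp_apply, coeffMap_coeff, HahnSeries.ofPowerSeries_apply_coeff]

theorem Lf_coeff_neg (φ : PowerSeries ℚ) {k : ℤ} (hk : k < 0) : (Lf C φ).coeff k = 0 := by
  simp only [Lf, RingHom.comp_apply, coeffMap_coeff, ofPowerSeries_coeff_of_neg _ hk, map_zero]

theorem Lf_E : Lf C (eisenstein4.map (Int.castRingHom ℚ)) = eS C := by
  simp only [Lf, RingHom.comp_apply, coeffMap_ofPowerSeries, map_map_intCast, eS]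

theorem Lf_D : Lf C (PowerSeries.X * dedekindEtaUnit.map (Int.castRingHom ℚ)) = dS C := by
  simp only [Lf, RingHom.comp_apply, map_mul, coeffMap_ofPowerSeries, map_map_intCast, dS,
    HahnSeries.ofPowerSeries_X, coeffMap_single, map_one]

/-- the ring hom `ℚ → C((t))`. -/
def rQ : ℚ →+* LaurentSeries C := (algebraMap C (LaurentSeries C)).comp (algebraMap ℚ C)

theorem Lf_C (c : ℚ) : Lf C (PowerSeries.C c) = rQ C c := by
  simp only [Lf, RingHom.comp_apply, HahnSeries.ofPowerSeries_C, rQ, algebraMap_eq_single']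
  rw [HahnSeries.C_apply, coeffMap_single]

end Lift

theorem ev_algebraMap {A : Type*} [CommRing A] (u : Aˣ) (a : ℕ) [NeZero a] (c : A) :
    ev u a (algebraMap A (LaurentSeries A) c) = algebraMap A (LaurentSeries A) c := by
  rw [algebraMap_eq_single', ev_single]
  simp

section Mixed

variable {C : Type*} [Field C] [CharZero C] (p : ℕ) [Fact p.Prime] (ζ : Cˣ)

/-- the `p+1` substitutions. -/
def evI : Option (Fin p) → (LaurentSeries C →+* LaurentSeries C)
  | none => ev 1 (p * p)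
  | some b => ev (ζ ^ (b : ℕ)) 1

/-- normalising constants. -/
def nI (C : Type*) [Field C] : Option (Fin p) → C
  | none => (p : C) ^ 12
  | some _ => 1

def Xi (i : Option (Fin p)) : LaurentSeries C :=
  algebraMap C _ (nI p C i) * evI p ζ i (eS C ^ 3) * ev 1 p (dInv C)

def Yi (i : Option (Fin p)) : LaurentSeries C :=
  algebraMap C _ (nI p C i) * evI p ζ i (dS C) * ev 1 p (dInv C)

variable (hζ : IsPrimitiveRoot ζ p)

include hζ in
theorem mixed_psum (hH : HeckeHyp p) (a b : ℕ) : ∃ P : Polynomial ℚ,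
    ∑ i : Option (Fin p), Xi p ζ i ^ a * Yi p ζ i ^ b =
      P.eval₂ (rQ C) (ev 1 p (jqModC C)) := by
  obtain ⟨c, hc⟩ := hH a b
  set E : PowerSeries ℚ := eisenstein4.map (Int.castRingHom ℚ) with hE
  set D : PowerSeries ℚ := PowerSeries.X * dedekindEtaUnit.map (Int.castRingHom ℚ) with hD
  set φ₀ : PowerSeries ℚ := E ^ (3 * a) * D ^ b with hφ₀
  set H₀ : PowerSeries ℚ := ∑ i ∈ Finset.range (a + b + 1),
          PowerSeries.C (c i) * E ^ (3 * i) * D ^ (a + b - i) with hH₀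
  have hp0 : (p : ℤ) ≠ 0 := by exact_mod_cast (Fact.out : p.Prime).ne_zero
  have hppos : (0 : ℤ) < p := by exact_mod_cast (Fact.out : p.Prime).pos
  have key := hecke_sum p ζ hζ (Lf C φ₀) (Lf C H₀) ((p : C) ^ (12 * (a + b))) (by
    intro n
    rcases lt_or_ge n 0 with hn | hn
    · rw [Lf_coeff_neg C _ hn, Lf_coeff_neg C _ (by nlinarith)]
      split_ifs with h
      · rw [Lf_coeff_neg C _ (Int.ediv_neg_of_neg_of_pos hn hppos)]
        simp
      · simp
    · lift n to ℕ using hn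
      have h1 : (p : ℤ) * (n : ℤ) = ((n * p : ℕ) : ℤ) := by push_cast; ring
      have h2 : (n : ℤ) / (p : ℤ) = ((n / p : ℕ) : ℤ) := by push_cast; rfl
      rw [h1, h2, Lf_coeff_nat, Lf_coeff_nat, Lf_coeff_nat, ← hc n]
      have h3 : ((p : ℤ) ∣ (n : ℤ)) ↔ p ∣ n := Int.natCast_dvd_natCast
      simp only [h3]
      split_ifs <;> simp)
  have hLE : Lf C E = eS C := Lf_E C
  have hLD : Lf C D = dS C := Lf_D C
  have hφ : Lf C φ₀ = eS C ^ (3 * a) * dS C ^ b := by
    rw [hφ₀, map_mul, map_pow, map_pow, hLE, hLD]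
  have hsum : ∑ i : Option (Fin p), Xi p ζ i ^ a * Yi p ζ i ^ b =
      (algebraMap C (LaurentSeries C) ((p : C) ^ (12 * (a + b))) * ev 1 (p * p) (Lf C φ₀) +
        ∑ b : Fin p, ev (ζ ^ (b : ℕ)) 1 (Lf C φ₀)) * ev 1 p (dInv C) ^ (a + b) := by
    rw [Fintype.sum_option, add_mul, Finset.sum_mul, hφ]
    congr 1
    · simp only [Xi, Yi, evI, nI, map_mul, map_pow]
      ring
    · refine Finset.sum_congr rfl fun i _ => ?_
      simp only [Xi, Yi, evI, nI, map_mul, map_pow, map_one]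
      ring
  have hHd : Lf C H₀ * dInv C ^ (a + b) =
      ∑ i ∈ Finset.range (a + b + 1), rQ C (c i) * jqModC C ^ i := by
    rw [hH₀, map_sum, Finset.sum_mul]
    refine Finset.sum_congr rfl fun i hi => ?_
    have hi' : i ≤ a + b := Nat.lt_succ_iff.mp (Finset.mem_range.mp hi)
    rw [map_mul, map_mul, map_pow, map_pow, hLE, hLD, Lf_C, jq_eq_eS_mul_dInv]
    have : dInv C ^ (a + b) = dInv C ^ i * dInv C ^ (a + b - i) := by
      rw [← _root_.pow_add]; congr 1; omega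
    rw [this]
    calc rQ C (c i) * eS C ^ (3 * i) * dS C ^ (a + b - i) * (dInv C ^ i * dInv C ^ (a + b - i))
        = rQ C (c i) * eS C ^ (3 * i) * dInv C ^ i * (dS C * dInv C) ^ (a + b - i) := by
          rw [mul_pow]; ring
      _ = rQ C (c i) * (eS C ^ 3 * dInv C) ^ i := by
          rw [dS_mul_dInv, one_pow, mul_one, mul_pow, ← pow_mul, mul_assoc]
  refine ⟨∑ i ∈ Finset.range (a + b + 1), Polynomial.C (c i) * Polynomial.X ^ i, ?_⟩
  rw [hsum, key, ← map_pow, ← map_mul, hHd, map_sum, Polynomial.eval₂_finsetSum]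
  refine Finset.sum_congr rfl fun i _ => ?_
  rw [Polynomial.eval₂_mul, Polynomial.eval₂_C, Polynomial.eval₂_pow, Polynomial.eval₂_X,
    map_mul, map_pow]
  congr 1
  exact ev_algebraMap _ _ _

include hζ in
theorem exists_eps (hH : HeckeHyp p) (c₁ c₂ : ℚ) : ∃ ε : ℕ → Polynomial ℚ,
    ∏ i : Option (Fin p), (Polynomial.X -
        Polynomial.C (rQ C c₁ * Xi p ζ i + rQ C c₂ * Yi p ζ i)) =
      ∑ k ∈ Finset.range (p + 2), (-1) ^ k *
        (Polynomial.C ((ε k).eval₂ (rQ C) (ev 1 p (jqModC C))) * Polynomial.X ^ (p + 1 - k)) := by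
  set y : LaurentSeries C := ev 1 p (jqModC C) with hy
  set 𝒜 : Subring (LaurentSeries C) := (Polynomial.eval₂RingHom (rQ C) y).range with h𝒜
  have hr : ∀ c, rQ C c ∈ 𝒜 := fun c => ⟨Polynomial.C c, by simp⟩
  have hps : ∀ m, ∑ i : Option (Fin p), (rQ C c₁ * Xi p ζ i + rQ C c₂ * Yi p ζ i) ^ m ∈ 𝒜 := by
    intro m
    simp only [add_pow]
    rw [Finset.sum_comm]
    refine Subring.sum_mem _ fun s _ => ?_
    have : ∑ i : Option (Fin p), (rQ C c₁ * Xi p ζ i) ^ s * (rQ C c₂ * Yi p ζ i) ^ (m - s) *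
          (m.choose s : LaurentSeries C)
        = (rQ C c₁ ^ s * rQ C c₂ ^ (m - s) * (m.choose s : LaurentSeries C)) *
          ∑ i : Option (Fin p), Xi p ζ i ^ s * Yi p ζ i ^ (m - s) := by
      rw [Finset.mul_sum]
      refine Finset.sum_congr rfl fun i _ => ?_
      rw [mul_pow, mul_pow]; ring
    rw [this]
    obtain ⟨P, hP⟩ := mixed_psum p ζ hζ hH s (m - s)
    refine 𝒜.mul_mem (𝒜.mul_mem (𝒜.mul_mem (𝒜.pow_mem (hr c₁) _) (𝒜.pow_mem (hr c₂) _))
      (natCast_mem 𝒜 _)) ?_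
    rw [hP]
    exact ⟨P, rfl⟩
  have hes := esymm_mem_of_psum_mem (rQ C) 𝒜 hr
    (fun i => rQ C c₁ * Xi p ζ i + rQ C c₂ * Yi p ζ i) hps
  choose ε hε using hes
  refine ⟨ε, ?_⟩
  rw [prod_X_sub_C_eq]
  have hcard : Fintype.card (Option (Fin p)) = p + 1 := by simp
  rw [hcard]
  refine Finset.sum_congr rfl fun k _ => ?_
  rw [← hε k]
  rfl

theorem ev_rQ (u : Cˣ) (a : ℕ) [NeZero a] (c : ℚ) : ev u a (rQ C c) = rQ C c := by
  have hr : (ev u a).comp (rQ C) = rQ C := Subsingleton.elim _ _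
  exact congrArg (fun f => f c) hr

include hζ in
theorem nbr_poly (hH : HeckeHyp p) (c₁ c₂ : ℚ) : ∃ ε : ℕ → Polynomial ℚ,
    ∀ (u : Cˣ) (a : ℕ) [NeZero a],
    ∏ i : Option (Fin p), (Polynomial.X -
        Polynomial.C (rQ C c₁ * ev u a (Xi p ζ i) + rQ C c₂ * ev u a (Yi p ζ i))) =
      ∑ k ∈ Finset.range (p + 2), (-1) ^ k *
        (Polynomial.C ((ε k).eval₂ (rQ C) (ev u a (ev 1 p (jqModC C)))) *
          Polynomial.X ^ (p + 1 - k)) := by
  obtain ⟨ε, hε⟩ := exists_eps p ζ hζ hH c₁ c₂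
  refine ⟨ε, fun u a _ => ?_⟩
  have h := congrArg (Polynomial.map (ev u a)) hε
  rw [Polynomial.map_prod, Polynomial.map_sum] at h
  have hr : (ev u a).comp (rQ C) = rQ C := Subsingleton.elim _ _
  have hL : ∀ i : Option (Fin p), Polynomial.map (ev u a) (Polynomial.X -
        Polynomial.C (rQ C c₁ * Xi p ζ i + rQ C c₂ * Yi p ζ i)) =
      Polynomial.X -
        Polynomial.C (rQ C c₁ * ev u a (Xi p ζ i) + rQ C c₂ * ev u a (Yi p ζ i)) := by
    intro i
    rw [Polynomial.map_sub, Polynomial.map_X, Polynomial.map_C, map_add, map_mul, map_mul,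
      ev_rQ, ev_rQ]
  have hR : ∀ k : ℕ, Polynomial.map (ev u a) ((-1) ^ k *
        (Polynomial.C ((ε k).eval₂ (rQ C) (ev 1 p (jqModC C))) * Polynomial.X ^ (p + 1 - k))) =
      (-1) ^ k *
        (Polynomial.C ((ε k).eval₂ (rQ C) (ev u a (ev 1 p (jqModC C)))) *
          Polynomial.X ^ (p + 1 - k)) := by
    intro k
    rw [Polynomial.map_mul, Polynomial.map_mul, Polynomial.map_pow, Polynomial.map_pow,
      Polynomial.map_neg, Polynomial.map_one, Polynomial.map_X, Polynomial.map_C,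
      Polynomial.hom_eval₂, hr]
  rw [Finset.prod_congr rfl fun i _ => hL i, Finset.sum_congr rfl fun k _ => hR k] at h
  exact h

end Mixed

end Fermat.Agent.S28
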