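import Fermat.Agent.S28.Setup

set_option autoImplicit false
set_option linter.style.haveILetI false

noncomputable section

namespace Fermat.Agent.S28

open ModularCurve HahnSeries Polynomial

/-- The abstract coefficient data: `V` a characteristic-zero PID with `V/ℓ = κ` (think
`V = W(𝔽̄_ℓ)`), `C = Frac V`, with Teichmüller units `τ`. -/
structure Data (ℓ : ℕ) (V C κ : Type) [CommRing V] [Field C] [CharZero C] [Algebra V C]
    [Field κ] where
  red : V →+* κ
  τ : κˣ →* Vˣ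
  red_τ : ∀ x : κˣ, red (τ x : V) = x
  ker_red : RingHom.ker red = Ideal.span {(ℓ : V)}
  mem_iff : ∀ c : ℚ, (∃ v : V, algebraMap V C v = algebraMap ℚ C c) ↔
    c ∈ GaloisRep.ratLocalizedAt ℓ

/-- points `(x, a)`, standing for the substitution `q ↦ τ(x) t^a`. -/
abbrev Pt (κ : Type) [Field κ] : Type := κˣ × ℕ

/-- the "upper" `p`-neighbour `(x^p, p a)`. -/
def up {κ : Type} [Field κ] (p : ℕ) (P : Pt κ) : Pt κ := (P.1 ^ p, p * P.2)

/-- the normalising constant of the edge `P → Q`. -/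
def nrm {κ : Type} [Field κ] (p : ℕ) (P Q : Pt κ) : ℕ := if Q.2 = p * P.2 then p ^ 12 else 1

section

variable {ℓ : ℕ} {V C κ : Type} [CommRing V] [Field C] [CharZero C] [Algebra V C] [Field κ]

/-- substitution `q ↦ τ(x) t^a` on `V((q))`. -/
def Data.EvV (𝔇 : Data ℓ V C κ) (P : Pt κ) : LaurentSeries V →+* LaurentSeries V :=
  evz (𝔇.τ P.1) P.2

/-- Teichmüller units in `C`. -/
def Data.T (𝔇 : Data ℓ V C κ) : κˣ →* Cˣ :=
  (Units.map (algebraMap V C : V →* C)).comp 𝔇.τ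

variable (V C) in
/-- `V((t)) → Lbar`. -/
def eV (N : ℕ) : LaurentSeries V →+* Lbar C N :=
  (inc C N).comp (coeffMap (algebraMap V C))

/-- reduction `V((t)) → κ((t))`. -/
def Data.redS (𝔇 : Data ℓ V C κ) : LaurentSeries V →+* LaurentSeries κ := coeffMap 𝔇.red

/-- `σ (j(q^d)) = j(τ(x) t^a)` (plus divisibility bookkeeping). -/
def Good (𝔇 : Data ℓ V C κ) {N : ℕ} (σ : F1 N →ₐ[K0] Lbar C N) (d : ℕ) (P : Pt κ) : Prop :=
  P.2 ≠ 0 ∧ (N / d) ∣ P.2 ∧ Maps σ (jd d) (eV V C N (𝔇.EvV P (jqModC V)))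

end

end Fermat.Agent.S28
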