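import Mathlib
import Fermat.Prelude.Def_GaloisRep_Flat
import Fermat.Prelude.Def_ModularCurve_LaurentCoeff

set_option autoImplicit false

noncomputable section

namespace Fermat.Agent.S28

open ModularCurve

/-! Task F -/
section F
variable (ℓ : ℕ) [Fact ℓ.Prime]

theorem resR_den_ne_zero (x : ↥(GaloisRep.ratLocalizedAt ℓ)) : ((x : ℚ).den : ZMod ℓ) ≠ 0 := by
  have hx : (x : ℚ).den.Coprime ℓ := x.2
  rw [Ne, ZMod.natCast_eq_zero_iff]
  intro h
  have h1 : ℓ ∣ Nat.gcd (x : ℚ).den ℓ := Nat.dvd_gcd h dvd_rfl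
  rw [hx] at h1
  exact (Fact.out : ℓ.Prime).one_lt.ne' (Nat.dvd_one.mp h1)

def resR : ↥(GaloisRep.ratLocalizedAt ℓ) →+* ZMod ℓ where
  toFun x := ((x : ℚ) : ZMod ℓ)
  map_one' := by simp
  map_zero' := by simp
  map_mul' x y := by
    simpa using Rat.cast_mul_of_ne_zero (resR_den_ne_zero ℓ x) (resR_den_ne_zero ℓ y)
  map_add' x y := by
    simpa using Rat.cast_add_of_ne_zero (resR_den_ne_zero ℓ x) (resR_den_ne_zero ℓ y)

theorem resR_apply (x : ↥(GaloisRep.ratLocalizedAt ℓ)) : resR ℓ x = ((x : ℚ) : ZMod ℓ) := rfl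

theorem ker_resR : RingHom.ker (resR ℓ) = Ideal.span {(ℓ : ↥(GaloisRep.ratLocalizedAt ℓ))} := by
  have hℓ : ℓ.Prime := Fact.out
  ext x
  rw [RingHom.mem_ker, Ideal.mem_span_singleton, resR_apply]
  constructor
  · intro h
    rw [Rat.cast_def, div_eq_zero_iff, or_iff_left (resR_den_ne_zero ℓ x),
      ZMod.intCast_zmod_eq_zero_iff_dvd] at h
    obtain ⟨m, hm⟩ := h
    have hden : ((x : ℚ).den : ℚ) ≠ 0 := by exact_mod_cast (x : ℚ).den_ne_zero
    have hy : ((m : ℚ) / (x : ℚ).den) ∈ GaloisRep.ratLocalizedAt ℓ := by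
      show ((m : ℚ) / (x : ℚ).den).den.Coprime ℓ
      have h1 : ((m : ℚ) / (x : ℚ).den).den ∣ (x : ℚ).den := by
        have := Rat.den_dvd m (x : ℚ).den
        rw [Rat.divInt_eq_div] at this
        exact_mod_cast this
      exact Nat.Coprime.coprime_dvd_left h1 x.2
    refine ⟨⟨_, hy⟩, Subtype.ext ?_⟩
    have hx : (x : ℚ) = (x : ℚ).num / (x : ℚ).den := (Rat.num_div_den _).symm
    have hm' : ((x : ℚ).num : ℚ) = ℓ * m := by exact_mod_cast congrArg (Int.cast : ℤ → ℚ) hm
    push_cast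
    calc (x : ℚ) = (x : ℚ).num / (x : ℚ).den := hx
      _ = ℓ * (m / (x : ℚ).den) := by rw [hm']; ring
  · rintro ⟨y, rfl⟩
    have := (resR ℓ).map_mul (ℓ : ↥(GaloisRep.ratLocalizedAt ℓ)) y
    rw [resR_apply] at this
    rw [this, map_natCast]
    simp

theorem coeffMap_eq_zero_iff {A B : Type*} [CommRing A] [IsDomain A] [CommRing B] (f : A →+* B)
    (n : ℕ) (hn : (n : A) ≠ 0) (hker : RingHom.ker f = Ideal.span {(n : A)}) (x : LaurentSeries A) :
    coeffMap f x = 0 ↔ ∃ y : LaurentSeries A, x = (n : LaurentSeries A) * y := by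
  have hcoeff : ∀ (y : LaurentSeries A) (k : ℤ),
      ((n : LaurentSeries A) * y).coeff k = (n : A) * y.coeff k := by
    intro y k
    rw [← nsmul_eq_mul, ← nsmul_eq_mul, HahnSeries.coeff_nsmul]
    rfl
  constructor
  · intro h
    have h1 : ∀ k : ℤ, ∃ c : A, x.coeff k = (n : A) * c := by
      intro k
      have h2 : f (x.coeff k) = 0 := by
        have := congrArg (fun z => HahnSeries.coeff z k) h
        simpa using this
      rw [← RingHom.mem_ker, hker, Ideal.mem_span_singleton] at h2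
      exact h2
    choose c hc using h1
    have hsupp : Function.support c ⊆ x.support := by
      intro k hk
      rw [HahnSeries.mem_support, hc k]
      exact mul_ne_zero hn hk
    refine ⟨⟨c, x.isPWO_support.mono hsupp⟩, ?_⟩
    ext k
    rw [hcoeff, hc k]
  · rintro ⟨y, rfl⟩
    ext k
    rw [coeffMap_coeff, hcoeff, map_mul]
    have : f (n : A) = 0 := by
      rw [← RingHom.mem_ker, hker]
      exact Ideal.mem_span_singleton_self _
    rw [this, zero_mul]
    rfl

end F

end Fermat.Agent.S28
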