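import Fermat.Agent.S28.Points
import Fermat.Agent.S28.Residue

set_option autoImplicit false
set_option linter.style.haveILetI false
set_option linter.unusedSectionVars false

noncomputable section

namespace Fermat.Agent.S28

open ModularCurve HahnSeries Polynomial

variable {ℓ : ℕ} [Fact ℓ.Prime] {V C κ : Type} [CommRing V] [IsDomain V]
  [Field C] [CharZero C] [Algebra V C] [IsFractionRing V C] [Field κ]
  (𝔇 : Data ℓ V C κ)

theorem eV_injective (N : ℕ) : Function.Injective (eV V C N) :=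
  (inc_injective C N).comp (coeffMap_injective (IsFractionRing.injective V C))

include 𝔇 in
theorem Data.isUnit_natCast (m : ℕ) (h : ¬ ℓ ∣ m) : IsUnit (m : V) := by
  have hℓ : ℓ.Prime := Fact.out
  have hm0 : m ≠ 0 := by rintro rfl; exact h (dvd_zero _)
  have hmem : ((1 : ℚ) / m) ∈ GaloisRep.ratLocalizedAt ℓ := by
    show ((1 : ℚ) / m).den.Coprime ℓ
    have h1 : ((1 : ℚ) / m).den ∣ m := by
      have := Rat.den_dvd 1 (m : ℤ)
      rw [Rat.divInt_eq_div] at this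
      have e : ((1 : ℤ) : ℚ) / ((m : ℤ) : ℚ) = (1 : ℚ) / m := by push_cast; rfl
      rw [e] at this
      exact Int.natCast_dvd_natCast.mp this
    exact Nat.Coprime.coprime_dvd_left h1 ((Nat.Prime.coprime_iff_not_dvd hℓ).2 h).symm
  obtain ⟨v, hv⟩ := (𝔇.mem_iff _).mpr hmem
  have hmC : (m : C) ≠ 0 := by exact_mod_cast hm0
  have : v * (m : V) = 1 := by
    apply IsFractionRing.injective V C
    rw [map_mul, hv, map_natCast, map_one, map_div₀, map_one, map_natCast]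
    field_simp
  exact IsUnit.of_mul_eq_one _ (by rw [mul_comm]; exact this)

include 𝔇 in
theorem Data.natCast_ne_zero (m : ℕ) (h : ¬ ℓ ∣ m) : (m : κ) ≠ 0 := by
  have := (𝔇.isUnit_natCast m h).map 𝔇.red
  rw [map_natCast] at this
  exact this.ne_zero

theorem Data.T_injective : Function.Injective 𝔇.T := by
  intro x y hxy
  have h1 : (algebraMap V C) (𝔇.τ x : V) = (algebraMap V C) (𝔇.τ y : V) :=
    congrArg (fun u : Cˣ => (u : C)) hxy
  have h2 := IsFractionRing.injective V C h1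
  apply Units.ext
  rw [← 𝔇.red_τ x, ← 𝔇.red_τ y, h2]

theorem Data.coeffMap_EvV (P : Pt κ) (ψ : LaurentSeries V) :
    coeffMap (algebraMap V C) (𝔇.EvV P ψ) =
      evz (𝔇.T P.1) P.2 (coeffMap (algebraMap V C) ψ) :=
  coeffMap_evz _ _ _ _

theorem Data.redS_EvV (P : Pt κ) (ψ : LaurentSeries V) :
    𝔇.redS (𝔇.EvV P ψ) = evz P.1 P.2 (𝔇.redS ψ) := by
  have h : Units.map (𝔇.red : V →* κ) (𝔇.τ P.1) = P.1 := Units.ext (𝔇.red_τ P.1)
  have := coeffMap_evz 𝔇.red (𝔇.τ P.1) P.2 ψ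
  rw [h] at this
  exact this

/-- the point is determined by the reduction of `j(τ(x) t^a)` (leading term `x⁻¹ t^{-a}`). -/
theorem Data.redS_EvV_jq_inj {P P' : Pt κ} (h : P.2 ≠ 0) (h' : P'.2 ≠ 0)
    (he : 𝔇.redS (𝔇.EvV P (jqModC V)) = 𝔇.redS (𝔇.EvV P' (jqModC V))) : P = P' := by
  rw [𝔇.redS_EvV, 𝔇.redS_EvV] at he
  have hj : 𝔇.redS (jqModC V) = jqModC κ := coeffMap_jq 𝔇.red
  rw [hj] at he
  have o1 := orderTop_evz_eq P.1 h (jqModC κ) (orderTop_jq κ)
  have o2 := orderTop_evz_eq P'.1 h' (jqModC κ) (orderTop_jq κ)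
  rw [he, o2] at o1
  have ha : P.2 = P'.2 := by
    have : ((P'.2 : ℤ) * (-1 : ℤ)) = (P.2 : ℤ) * (-1 : ℤ) := by exact_mod_cast o1
    omega
  have c1 := evz_coeff_mul P.1 h (jqModC κ) (-1)
  have c2 := evz_coeff_mul P'.1 h' (jqModC κ) (-1)
  rw [he, ha, c2, coeff_jqModC_neg_one, mul_one, mul_one] at c1
  have hx : P'.1 ^ (-1 : ℤ) = P.1 ^ (-1 : ℤ) := Units.ext c1
  have hx' : P.1 = P'.1 := by
    simpa using hx.symm
  exact Prod.ext hx' ha

theorem Data.redS_eq_zero_iff (w : LaurentSeries V) :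
    𝔇.redS w = 0 ↔ ∃ w' : LaurentSeries V, w = (ℓ : LaurentSeries V) * w' := by
  have hℓ : ℓ.Prime := Fact.out
  have hn : (ℓ : V) ≠ 0 := by
    intro h0
    have := congrArg (algebraMap V C) h0
    rw [map_natCast, map_zero] at this
    exact hℓ.ne_zero (by exact_mod_cast this)
  exact coeffMap_eq_zero_iff 𝔇.red ℓ hn 𝔇.ker_red w

include 𝔇 in
/-- series with `ℤ_(ℓ)`-coefficients land in `V((t))`. -/
theorem Data.exists_eV_of_mem_intSeries (N : ℕ) (y : LaurentSeries ℚ)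
    (hy : y ∈ intSeries (GaloisRep.ratLocalizedAt ℓ)) :
    ∃ w : LaurentSeries V, inc C N (iotaC C N y) = eV V C N w := by
  have h1 : coeffMap (algebraMap ℚ C) y ∈ (coeffMap (algebraMap V C)).range := by
    rw [range_coeffMap (IsFractionRing.injective V C)]
    intro n
    rw [coeffMap_coeff]
    exact (𝔇.mem_iff _).mpr (hy n)
  obtain ⟨w₀, hw₀⟩ := h1
  refine ⟨evz 1 N w₀, ?_⟩
  show inc C N (evz 1 N (coeffMap (algebraMap ℚ C) y)) =
    inc C N (coeffMap (algebraMap V C) (evz 1 N w₀))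
  rw [coeffMap_evz, hw₀, map_one]

include 𝔇 in
/-- conversely. -/
theorem Data.mem_intSeries_of_eV (N : ℕ) [NeZero N] (y : LaurentSeries ℚ) (w : LaurentSeries V)
    (h : inc C N (iotaC C N y) = eV V C N w) :
    y ∈ intSeries (GaloisRep.ratLocalizedAt ℓ) := by
  have h1 : evz 1 N (coeffMap (algebraMap ℚ C) y) = coeffMap (algebraMap V C) w :=
    inc_injective C N h
  intro n
  rw [← 𝔇.mem_iff]
  refine ⟨w.coeff ((N : ℤ) * n), ?_⟩
  have h2 := congrArg (fun z => z.coeff ((N : ℤ) * n)) h1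
  simp only [coeffMap_coeff] at h2
  rw [evz_coeff_mul _ (NeZero.ne N)] at h2
  simpa using h2.symm

/-- the images of the universal series. -/
theorem iotaC_evz (N : ℕ) [NeZero N] {d : ℕ} (hd : d ≠ 0) (ψ : LaurentSeries ℚ) :
    iotaC C N (evz 1 d ψ) = evz 1 (N * d) (coeffMap (algebraMap ℚ C) ψ) := by
  show evz 1 N (coeffMap (algebraMap ℚ C) (evz 1 d ψ)) = _
  rw [coeffMap_evz, map_one, evz_evz _ _ (NeZero.ne N) hd]
  simp

theorem inc_iotaC_jq (N : ℕ) :
    inc C N (iotaC C N jq) = eV V C N (evz 1 N (jqModC V)) := by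
  show inc C N (evz 1 N (coeffMap (algebraMap ℚ C) jq)) =
    inc C N (coeffMap (algebraMap V C) (evz 1 N (jqModC V)))
  rw [coeffMap_evz, map_one, coeffMap_jq, ← jqModC_rat, coeffMap_jq]

theorem orderTop_natCast_of_ne_zero (m : ℕ) (h : (m : κ) ≠ 0) :
    ((m : LaurentSeries κ)).orderTop = 0 := by
  have : (m : LaurentSeries κ) = HahnSeries.single 0 (m : κ) := by
    rw [← HahnSeries.C_apply, map_natCast]
  rw [this, HahnSeries.orderTop_single h]
  rfl

end Fermat.Agent.S28
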