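import Fermat.Agent.S28.Neighbors
import Fermat.Prelude.Def_GaloisRep_Flat

set_option autoImplicit false
set_option linter.style.haveILetI false

noncomputable section

namespace Fermat.Agent.S28

open ModularCurve HahnSeries Polynomial

/-! ### A total version of `ev` -/

section Evz

variable {A B : Type*} [CommRing A] [CommRing B]

/-- `ψ(q) ↦ ψ(u t^a)`, total in `a` (junk for `a = 0`). -/
def evz (u : Aˣ) (a : ℕ) : LaurentSeries A →+* LaurentSeries A := ev u (a - 1 + 1)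

theorem evz_eq_ev (u : Aˣ) (a : ℕ) [NeZero a] : evz u a = ev u a := by
  ext1 ψ
  exact ev_congr rfl (by have := NeZero.ne a; omega) ψ

theorem evz_evz (u u' : Aˣ) {a a' : ℕ} (ha : a ≠ 0) (ha' : a' ≠ 0) (ψ : LaurentSeries A) :
    evz u a (evz u' a' ψ) = evz (u' * u ^ a') (a * a') ψ := by
  haveI : NeZero a := ⟨ha⟩
  haveI : NeZero a' := ⟨ha'⟩
  haveI : NeZero (a * a') := ⟨Nat.mul_ne_zero ha ha'⟩
  rw [evz_eq_ev, evz_eq_ev, evz_eq_ev, ev_ev]

theorem coeffMap_evz (f : A →+* B) (u : Aˣ) (a : ℕ) (ψ : LaurentSeries A) :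
    coeffMap f (evz u a ψ) = evz (Units.map (f : A →* B) u) a (coeffMap f ψ) :=
  coeffMap_ev f u _ ψ

theorem evz_injective (u : Aˣ) (a : ℕ) : Function.Injective (evz (A := A) u a) :=
  ev_injective u _

theorem qExpand_eq_evz (d : ℕ) [NeZero d] (ψ : LaurentSeries A) :
    qExpand A d ψ = evz 1 d ψ := by
  rw [evz_eq_ev]
  have : twist (1 : Aˣ) ψ = ψ := by ext n; simp
  simp only [ev, RingHom.comp_apply, this]

theorem evz_coeff_mul (u : Aˣ) {a : ℕ} (ha : a ≠ 0) (ψ : LaurentSeries A) (k : ℤ) :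
    (evz u a ψ).coeff ((a : ℤ) * k) = ((u ^ k : Aˣ) : A) * ψ.coeff k := by
  haveI : NeZero a := ⟨ha⟩
  rw [evz_eq_ev, ev_coeff_mul]

theorem evz_coeff_of_not_dvd (u : Aˣ) {a : ℕ} (ha : a ≠ 0) (ψ : LaurentSeries A) {k : ℤ}
    (hk : ¬ (a : ℤ) ∣ k) : (evz u a ψ).coeff k = 0 := by
  haveI : NeZero a := ⟨ha⟩
  rw [evz_eq_ev, ev_coeff_of_not_dvd _ _ _ hk]

theorem orderTop_evz_eq (u : Aˣ) {a : ℕ} (ha : a ≠ 0) (ψ : LaurentSeries A) {m : ℤ}
    (h : ψ.orderTop = m) : (evz u a ψ).orderTop = (((a : ℤ) * m : ℤ) : WithTop ℤ) := by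
  haveI : NeZero a := ⟨ha⟩
  rw [evz_eq_ev, orderTop_ev_eq _ _ _ h]

theorem evz_one_one (ψ : LaurentSeries A) : evz (1 : Aˣ) 1 ψ = ψ := by
  rw [evz_eq_ev, ev_one_one]

end Evz

/-! ### The inverse of `j` -/

section JInv

variable (A : Type*) [CommRing A]

/-- `1/j` as a Laurent series. -/
def jInv : LaurentSeries A :=
  HahnSeries.single (1 : ℤ) 1 *
    HahnSeries.ofPowerSeries ℤ A ((jNum.invOfUnit 1).map (Int.castRingHom A))

theorem jq_mul_jInv : jqModC A * jInv A = 1 := by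
  have h1 : (HahnSeries.single (-1 : ℤ) (1 : A)) * HahnSeries.single (1 : ℤ) 1 = 1 := by
    rw [HahnSeries.single_mul_single]; simp
  have h0 : jNum * jNum.invOfUnit 1 = 1 :=
    PowerSeries.mul_invOfUnit _ _ (by rw [constantCoeff_jNum]; rfl)
  have h2 : HahnSeries.ofPowerSeries ℤ A (jNum.map (Int.castRingHom A)) *
      HahnSeries.ofPowerSeries ℤ A ((jNum.invOfUnit 1).map (Int.castRingHom A)) = 1 := by
    rw [← map_mul, ← map_mul, h0, map_one, map_one]
  calc jqModC A * jInv A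
      = (HahnSeries.single (-1 : ℤ) (1 : A) * HahnSeries.single (1 : ℤ) 1) *
        (HahnSeries.ofPowerSeries ℤ A (jNum.map (Int.castRingHom A)) *
      HahnSeries.ofPowerSeries ℤ A ((jNum.invOfUnit 1).map (Int.castRingHom A))) := by
        rw [jqModC, jInv]; ring
    _ = 1 := by rw [h1, h2, one_mul]

variable {A} in
theorem coeffMap_jInv {B : Type*} [CommRing B] (f : A →+* B) : coeffMap f (jInv A) = jInv B := by
  rw [jInv, map_mul, coeffMap_ofPowerSeries, map_map_intCast, coeffMap_single, map_one, jInv]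

variable {A} in
theorem coeffMap_jq {B : Type*} [CommRing B] (f : A →+* B) :
    coeffMap f (jqModC A) = jqModC B := by
  rw [jqModC, map_mul, coeffMap_ofPowerSeries, map_map_intCast, coeffMap_single, map_one, jqModC]

end JInv

/-! ### The base field `K0 = ℚ(X)`, `X ↦ j` -/

/-- polynomials over `ℚ` evaluated at a Laurent series over `C`. -/
def pe (C : Type*) [Field C] [CharZero C] (y : LaurentSeries C) : ℚ[X] →+* LaurentSeries C :=
  Polynomial.eval₂RingHom (rQ C) y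

theorem pe_apply (C : Type*) [Field C] [CharZero C] (y : LaurentSeries C) (P : ℚ[X]) :
    pe C y P = P.eval₂ (rQ C) y := rfl

theorem pe_jq_injective : Function.Injective (pe ℚ jq) := by
  rw [injective_iff_map_eq_zero]
  intro P hP
  apply eq_zero_of_orderTop_aeval_pos (1 : ℚˣ) 1 P
  rw [ev_one_one, Polynomial.aeval_def]
  have : P.eval₂ (algebraMap ℚ (LaurentSeries ℚ)) (jqModC ℚ) = pe ℚ jq P := by
    rw [pe_apply]
    congr 1
  rw [this, hP]
  simp

/-- the rational function field `ℚ(X)` (a type synonym, to control instances). -/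
def K0 : Type := FractionRing ℚ[X]

instance : Field K0 := inferInstanceAs (Field (FractionRing ℚ[X]))
instance : Algebra ℚ[X] K0 := inferInstanceAs (Algebra ℚ[X] (FractionRing ℚ[X]))
instance : IsFractionRing ℚ[X] K0 := inferInstanceAs (IsFractionRing ℚ[X] (FractionRing ℚ[X]))
instance : CharZero K0 :=
  charZero_of_injective_algebraMap (IsFractionRing.injective ℚ[X] K0)

/-- `K0 → ℚ((q))`, `X ↦ j`. -/
def kap : K0 →+* LaurentSeries ℚ := IsFractionRing.lift pe_jq_injective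

theorem kap_algebraMap (P : ℚ[X]) : kap (algebraMap ℚ[X] K0 P) = pe ℚ jq P :=
  IsFractionRing.lift_algebraMap _ _

instance : Algebra K0 (LaurentSeries ℚ) := kap.toAlgebra

theorem algebraMap_K0_eq : algebraMap K0 (LaurentSeries ℚ) = kap := rfl

/-! ### Generators -/

/-- `j(q^d)`. -/
def jd (d : ℕ) : LaurentSeries ℚ := evz 1 d jq

/-- `p¹² E₄(q^{dp})³ / Δ(q^d)`. -/
def Xg (d p : ℕ) : LaurentSeries ℚ :=
  (p : LaurentSeries ℚ) ^ 12 * evz 1 (d * p) (eS ℚ ^ 3) * evz 1 d (dInv ℚ)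

/-- `p¹² Δ(q^{dp}) / Δ(q^d)`. -/
def Yg (d p : ℕ) : LaurentSeries ℚ :=
  (p : LaurentSeries ℚ) ^ 12 * evz 1 (d * p) (dS ℚ) * evz 1 d (dInv ℚ)

/-- the generators of the auxiliary field. -/
def gens (N : ℕ) : Set (LaurentSeries ℚ) :=
  {x | ∃ d p : ℕ, p.Prime ∧ d * p ∣ N ∧ (x = Xg d p ∨ x = Yg d p)}

/-- the auxiliary field `F₁ ⊇ ℚ(j(q^d) : d ∣ N)`. -/
def F1 (N : ℕ) : IntermediateField K0 (LaurentSeries ℚ) := IntermediateField.adjoin K0 (gens N)

/-! ### The big field -/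

/-- an algebraic closure of `C((t))`; the parameter `N` records the `K0`-algebra structure
`X ↦ j(t^N)`. -/
def Lbar (C : Type) [Field C] (_N : ℕ) : Type := AlgebraicClosure (LaurentSeries C)

section Lbar

variable (C : Type) [Field C] (N : ℕ)

instance : Field (Lbar C N) := inferInstanceAs (Field (AlgebraicClosure (LaurentSeries C)))
instance : Algebra (LaurentSeries C) (Lbar C N) :=
  inferInstanceAs (Algebra (LaurentSeries C) (AlgebraicClosure (LaurentSeries C)))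
instance : IsAlgClosed (Lbar C N) :=
  inferInstanceAs (IsAlgClosed (AlgebraicClosure (LaurentSeries C)))

/-- `C((t)) → Lbar`. -/
def inc : LaurentSeries C →+* Lbar C N := algebraMap _ _

theorem inc_injective : Function.Injective (inc C N) := (inc C N).injective

variable [CharZero C]

/-- `ℚ((q)) → C((t))`, `q ↦ t^N`. -/
def iotaC : LaurentSeries ℚ →+* LaurentSeries C :=
  (evz 1 N).comp (coeffMap (algebraMap ℚ C))

theorem iotaC_injective : Function.Injective (iotaC C N) :=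
  (evz_injective 1 N).comp (coeffMap_injective (algebraMap ℚ C).injective)

instance : Algebra K0 (Lbar C N) := ((inc C N).comp ((iotaC C N).comp kap)).toAlgebra

theorem algebraMap_K0_Lbar (k : K0) :
    algebraMap K0 (Lbar C N) k = inc C N (iotaC C N (kap k)) := rfl

/-- the standard embedding (the cusp `∞`). -/
def iota1 : F1 N →ₐ[K0] Lbar C N where
  toRingHom := ((inc C N).comp (iotaC C N)).comp (F1 N).val.toRingHom
  commutes' _ := rfl

theorem iota1_apply (x : F1 N) : iota1 C N x = inc C N (iotaC C N x.1) := rfl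

end Lbar

/-! ### The graph of an embedding -/

section Maps

variable {C : Type} [Field C] [CharZero C] {N : ℕ}

/-- `σ x = y`, bundling the membership `x ∈ F₁`. -/
def Maps (σ : F1 N →ₐ[K0] Lbar C N) (x : LaurentSeries ℚ) (y : Lbar C N) : Prop :=
  ∃ h : x ∈ F1 N, σ ⟨x, h⟩ = y

variable {σ : F1 N →ₐ[K0] Lbar C N} {x x' : LaurentSeries ℚ} {y y' : Lbar C N}

theorem Maps.mem (h : Maps σ x y) : x ∈ F1 N := h.1

theorem Maps.of_mem (h : x ∈ F1 N) : Maps σ x (σ ⟨x, h⟩) := ⟨h, rfl⟩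

theorem Maps.eq (h : Maps σ x y) (hx : x ∈ F1 N) : σ ⟨x, hx⟩ = y := h.2

theorem Maps.unique (h : Maps σ x y) (h' : Maps σ x y') : y = y' := by
  obtain ⟨h1, rfl⟩ := h
  obtain ⟨h2, rfl⟩ := h'
  rfl

theorem Maps.inj (h : Maps σ x y) (h' : Maps σ x' y) : x = x' := by
  obtain ⟨h1, e1⟩ := h
  obtain ⟨h2, e2⟩ := h'
  have := σ.injective (e1.trans e2.symm)
  exact congrArg Subtype.val this

theorem Maps.mul (h : Maps σ x y) (h' : Maps σ x' y') : Maps σ (x * x') (y * y') := by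
  obtain ⟨h1, rfl⟩ := h
  obtain ⟨h2, rfl⟩ := h'
  refine ⟨(F1 N).mul_mem h1 h2, ?_⟩
  rw [← map_mul]
  congr 1

theorem Maps.add (h : Maps σ x y) (h' : Maps σ x' y') : Maps σ (x + x') (y + y') := by
  obtain ⟨h1, rfl⟩ := h
  obtain ⟨h2, rfl⟩ := h'
  exact ⟨(F1 N).add_mem h1 h2, map_add σ ⟨x, h1⟩ ⟨x', h2⟩⟩

theorem Maps.neg (h : Maps σ x y) : Maps σ (-x) (-y) := by
  obtain ⟨h1, rfl⟩ := h
  exact ⟨(F1 N).neg_mem h1, map_neg σ ⟨x, h1⟩⟩

theorem Maps.inv (h : Maps σ x y) : Maps σ x⁻¹ y⁻¹ := by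
  obtain ⟨h1, rfl⟩ := h
  refine ⟨(F1 N).inv_mem h1, ?_⟩
  rw [← map_inv₀]
  congr 1

theorem Maps.pow (h : Maps σ x y) (n : ℕ) : Maps σ (x ^ n) (y ^ n) := by
  obtain ⟨h1, rfl⟩ := h
  exact ⟨(F1 N).pow_mem h1 n, map_pow σ ⟨x, h1⟩ n⟩

theorem Maps.one : Maps σ 1 1 := ⟨(F1 N).one_mem, map_one σ⟩

theorem Maps.zero : Maps σ 0 0 := ⟨(F1 N).zero_mem, map_zero σ⟩

theorem Maps.natCast (n : ℕ) : Maps σ (n : LaurentSeries ℚ) (n : Lbar C N) :=
  ⟨natCast_mem (F1 N) n, map_natCast σ n⟩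

theorem Maps.kap (k : K0) : Maps σ (kap k) (inc C N (iotaC C N (kap k))) :=
  ⟨(F1 N).algebraMap_mem k, σ.commutes k⟩

theorem Maps.iota1 (hx : x ∈ F1 N) : Maps (iota1 C N) x (inc C N (iotaC C N x)) := ⟨hx, rfl⟩

end Maps

end Fermat.Agent.S28
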