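import Fermat.Agent.S28.Edge

set_option autoImplicit false
set_option linter.style.haveILetI false

noncomputable section

namespace Fermat.Agent.S28

open ModularCurve HahnSeries Polynomial

theorem jd_injOn {d d' : ℕ} (hd : d ≠ 0) (hd' : d' ≠ 0) (h : jd d = jd d') : d = d' := by
  have h1 : (jd d).orderTop = (((d : ℤ) * (-1) : ℤ) : WithTop ℤ) :=
    orderTop_evz_eq 1 hd jq (orderTop_jq ℚ)
  have h2 : (jd d').orderTop = (((d' : ℤ) * (-1) : ℤ) : WithTop ℤ) :=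
    orderTop_evz_eq 1 hd' jq (orderTop_jq ℚ)
  rw [h, h2] at h1
  have h3 : (d' : ℤ) * (-1) = (d : ℤ) * (-1) := by exact_mod_cast h1
  omega

theorem Yg_ne_zero (d p : ℕ) (hp : p.Prime) : Yg d p ≠ 0 := by
  have hdS : dS ℚ ≠ 0 := left_ne_zero_of_mul_eq_one (dS_mul_dInv ℚ)
  have hdI : dInv ℚ ≠ 0 := right_ne_zero_of_mul_eq_one (dS_mul_dInv ℚ)
  have hp0 : (p : LaurentSeries ℚ) ≠ 0 := by
    have : (p : LaurentSeries ℚ) = algebraMap ℚ (LaurentSeries ℚ) (p : ℚ) := by simp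
    rw [this]
    exact (_root_.map_ne_zero _).mpr (by exact_mod_cast hp.ne_zero)
  refine mul_ne_zero (mul_ne_zero (pow_ne_zero _ hp0) ?_) ?_
  · exact (map_ne_zero_iff _ (evz_injective 1 _)).mpr hdS
  · exact (map_ne_zero_iff _ (evz_injective 1 _)).mpr hdI

theorem jd_mul_Yg (d p : ℕ) : jd (d * p) * Yg d p = Xg d p := by
  have h : evz 1 (d * p) jq * evz 1 (d * p) (dS ℚ) = evz 1 (d * p) (eS ℚ ^ 3) := by
    rw [← map_mul]
    congr 1
    exact jq_mul_dS ℚ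
  rw [jd, Yg, Xg, ← h]
  ring

theorem jq_mem_F1 (N : ℕ) : jq ∈ F1 N := by
  have h : jq = algebraMap K0 (LaurentSeries ℚ) (algebraMap ℚ[X] K0 X) := by
    rw [algebraMap_K0_eq, kap_algebraMap, pe_apply, eval₂_X]
  rw [h]
  exact (F1 N).algebraMap_mem _

theorem jd_mem_F1 {N d : ℕ} (hd : d ∣ N) : jd d ∈ F1 N := by
  rcases Nat.eq_zero_or_pos d with rfl | hpos
  · have : jd 0 = jq := ev_one_one jq
    rw [this]
    exact jq_mem_F1 N
  rcases Nat.eq_or_lt_of_le hpos with h1 | h1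
  · rw [← h1]
    have : jd 1 = jq := evz_one_one jq
    rw [this]
    exact jq_mem_F1 N
  · obtain ⟨p, hp, d', rfl⟩ := Nat.exists_prime_and_dvd (n := d) (by omega)
    rw [mul_comm] at hd ⊢
    have hX : Xg d' p ∈ F1 N := IntermediateField.subset_adjoin _ _ ⟨d', p, hp, hd, Or.inl rfl⟩
    have hY : Yg d' p ∈ F1 N := IntermediateField.subset_adjoin _ _ ⟨d', p, hp, hd, Or.inr rfl⟩
    have : jd (d' * p) = Xg d' p * (Yg d' p)⁻¹ := by
      rw [← jd_mul_Yg, mul_assoc, mul_inv_cancel₀ (Yg_ne_zero d' p hp), mul_one]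
    rw [this]
    exact (F1 N).mul_mem hX ((F1 N).inv_mem hY)

variable {ℓ : ℕ} [Fact ℓ.Prime] {V C κ : Type} [CommRing V] [IsDomain V]
  [Field C] [CharZero C] [Algebra V C] [IsFractionRing V C] [Field κ] [IsAlgClosed κ]
  (𝔇 : Data ℓ V C κ) {N : ℕ} [NeZero N]

theorem Good.unique {σ : F1 N →ₐ[K0] Lbar C N} {d : ℕ} {P P' : Pt κ} (h : Good 𝔇 σ d P)
    (h' : Good 𝔇 σ d P') : P = P' := by
  have h1 := eV_injective (V := V) (C := C) N (Maps.unique h.2.2 h'.2.2)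
  exact 𝔇.redS_EvV_jq_inj h.1 h'.1 (congrArg 𝔇.redS h1)

theorem good_one (σ : F1 N →ₐ[K0] Lbar C N) : Good 𝔇 σ 1 (1, N) := by
  refine ⟨NeZero.ne N, by simp, ?_⟩
  have h1 : jd 1 = kap (algebraMap ℚ[X] K0 X) := by
    rw [kap_algebraMap, pe_apply, eval₂_X]
    exact evz_one_one jq
  have h2 : kap (algebraMap ℚ[X] K0 X) = jq := by
    rw [kap_algebraMap, pe_apply, eval₂_X]
  have h3 := Maps.kap (σ := σ) (algebraMap ℚ[X] K0 X)
  rw [← h1] at h3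
  rw [h1, h2, inc_iotaC_jq (V := V)] at h3
  rw [← h2, ← h1] at h3
  convert h3 using 3
  simp [Data.EvV]

/-- The structure of an embedding: a system of points indexed by the divisors of `N`. -/
theorem exists_pts (hℓN : ¬ ℓ ∣ N) (σ : F1 N →ₐ[K0] Lbar C N) :
    ∃ pt : ℕ → Pt κ, pt 1 = (1, N) ∧ (∀ d, d ∣ N → Good 𝔇 σ d (pt d)) ∧
      (∀ d p : ℕ, p.Prime → d * p ∣ N →
        (pt (d * p) = up p (pt d) ∨ pt d = up p (pt (d * p))) ∧
        Maps σ (Xg d p) (eV V C N ((nrm p (pt d) (pt (d * p)) : LaurentSeries V) *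
          𝔇.EvV (pt (d * p)) (eS V ^ 3) * 𝔇.EvV (pt d) (dInv V))) ∧
        Maps σ (Yg d p) (eV V C N ((nrm p (pt d) (pt (d * p)) : LaurentSeries V) *
          𝔇.EvV (pt (d * p)) (dS V) * 𝔇.EvV (pt d) (dInv V)))) ∧
      (∀ d p : ℕ, p.Prime → d * p * p ∣ N → pt (d * p * p) ≠ pt d) := by
  classical
  have hN0 : N ≠ 0 := NeZero.ne N
  have hpℓ : ∀ p : ℕ, p ∣ N → p ≠ ℓ := fun p hp h => hℓN (h ▸ hp)
  -- existence of good points
  have hex : ∀ d : ℕ, d ∣ N → ∃ P : Pt κ, Good 𝔇 σ d P := by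
    intro d
    induction d using Nat.strong_induction_on with
    | _ d ih =>
      intro hd
      have hd0 : d ≠ 0 := fun h => hN0 (Nat.eq_zero_of_zero_dvd (h ▸ hd))
      rcases Nat.eq_or_lt_of_le (Nat.pos_of_ne_zero hd0) with h1 | h1
      · exact ⟨(1, N), h1 ▸ good_one 𝔇 σ⟩
      · obtain ⟨p, hp, d', rfl⟩ := Nat.exists_prime_and_dvd (n := d) (by omega)
        have hd'0 : d' ≠ 0 := fun h => hd0 (by rw [h, mul_zero])
        have hlt : d' < p * d' := by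
          have := hp.two_le
          nlinarith [Nat.pos_of_ne_zero hd'0]
        obtain ⟨P, hP⟩ := ih d' hlt ((Dvd.intro_left p rfl).trans hd)
        rw [mul_comm] at hd ⊢
        obtain ⟨Q, hQ, -⟩ := edge 𝔇 σ d' p hp (hpℓ p ((Dvd.intro_left d' rfl).trans hd)) hd P hP
        exact ⟨Q, hQ⟩
  refine ⟨fun d => if h : d ∣ N then (hex d h).choose else default, ?_, ?_, ?_, ?_⟩
  · have h1 : (1 : ℕ) ∣ N := one_dvd N
    simp only [dif_pos h1]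
    exact Good.unique 𝔇 (hex 1 h1).choose_spec (good_one 𝔇 σ)
  · intro d hd
    simp only [dif_pos hd]
    exact (hex d hd).choose_spec
  · intro d p hp hdp
    have hd : d ∣ N := (Dvd.intro p rfl).trans hdp
    simp only [dif_pos hd, dif_pos hdp]
    obtain ⟨Q, hQ, h1, h2, h3⟩ := edge 𝔇 σ d p hp (hpℓ p ((Dvd.intro_left d rfl).trans hdp)) hdp
      _ (hex d hd).choose_spec
    have hQe : Q = (hex (d * p) hdp).choose := Good.unique 𝔇 hQ (hex (d * p) hdp).choose_spec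
    rw [← hQe]
    exact ⟨h1, h2, h3⟩
  · intro d p hp hdpp heq
    have hd : d ∣ N := (Dvd.intro (p * p) (by ring)).trans hdpp
    have hd0 : d ≠ 0 := fun h => hN0 (Nat.eq_zero_of_zero_dvd (h ▸ hd))
    simp only [dif_pos hd, dif_pos hdpp] at heq
    have g1 := (hex (d * p * p) hdpp).choose_spec.2.2
    have g2 := (hex d hd).choose_spec.2.2
    rw [heq] at g1
    have h4 := jd_injOn (Nat.mul_ne_zero (Nat.mul_ne_zero hd0 hp.ne_zero) hp.ne_zero) hd0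
      (Maps.inj g1 g2)
    have h5 := hp.two_le
    have h6 : d * 1 < d * (p * p) :=
      Nat.mul_lt_mul_of_pos_left (by nlinarith) (Nat.pos_of_ne_zero hd0)
    rw [← mul_assoc, h4] at h6
    omega

/-- the points of an embedding. -/
def pts (hℓN : ¬ ℓ ∣ N) (σ : F1 N →ₐ[K0] Lbar C N) : ℕ → Pt κ :=
  Classical.choose (exists_pts 𝔇 hℓN σ)

theorem pts_one (hℓN : ¬ ℓ ∣ N) (σ : F1 N →ₐ[K0] Lbar C N) : pts 𝔇 hℓN σ 1 = (1, N) :=
  (Classical.choose_spec (exists_pts 𝔇 hℓN σ)).1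

theorem pts_good (hℓN : ¬ ℓ ∣ N) (σ : F1 N →ₐ[K0] Lbar C N) {d : ℕ} (hd : d ∣ N) :
    Good 𝔇 σ d (pts 𝔇 hℓN σ d) :=
  (Classical.choose_spec (exists_pts 𝔇 hℓN σ)).2.1 d hd

theorem pts_edge (hℓN : ¬ ℓ ∣ N) (σ : F1 N →ₐ[K0] Lbar C N) {d p : ℕ} (hp : p.Prime)
    (hdp : d * p ∣ N) :
    (pts 𝔇 hℓN σ (d * p) = up p (pts 𝔇 hℓN σ d) ∨ pts 𝔇 hℓN σ d = up p (pts 𝔇 hℓN σ (d * p))) ∧
        Maps σ (Xg d p) (eV V C N
          ((nrm p (pts 𝔇 hℓN σ d) (pts 𝔇 hℓN σ (d * p)) : LaurentSeries V) *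
          𝔇.EvV (pts 𝔇 hℓN σ (d * p)) (eS V ^ 3) * 𝔇.EvV (pts 𝔇 hℓN σ d) (dInv V))) ∧
        Maps σ (Yg d p) (eV V C N
          ((nrm p (pts 𝔇 hℓN σ d) (pts 𝔇 hℓN σ (d * p)) : LaurentSeries V) *
          𝔇.EvV (pts 𝔇 hℓN σ (d * p)) (dS V) * 𝔇.EvV (pts 𝔇 hℓN σ d) (dInv V))) :=
  (Classical.choose_spec (exists_pts 𝔇 hℓN σ)).2.2.1 d p hp hdp

theorem pts_noback (hℓN : ¬ ℓ ∣ N) (σ : F1 N →ₐ[K0] Lbar C N) {d p : ℕ} (hp : p.Prime)
    (hdp : d * p * p ∣ N) : pts 𝔇 hℓN σ (d * p * p) ≠ pts 𝔇 hℓN σ d :=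
  (Classical.choose_spec (exists_pts 𝔇 hℓN σ)).2.2.2 d p hp hdp

end Fermat.Agent.S28
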