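import Fermat.Agent.S28.Struct

set_option autoImplicit false
set_option linter.style.haveILetI false
set_option linter.unusedSectionVars false

noncomputable section

namespace Fermat.Agent.S28

open ModularCurve HahnSeries Polynomial

variable {ℓ : ℕ} [Fact ℓ.Prime] {V C κ : Type} [CommRing V] [IsDomain V]
  [Field C] [CharZero C] [Algebra V C] [IsFractionRing V C] [Field κ] [IsAlgClosed κ]
  (𝔇 : Data ℓ V C κ) {N : ℕ} [NeZero N]

/-- an embedding is determined by its points. -/
theorem eq_of_pts_eq (hℓN : ¬ ℓ ∣ N) (σ σ' : F1 N →ₐ[K0] Lbar C N)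
    (h : ∀ d, d ∣ N → pts 𝔇 hℓN σ d = pts 𝔇 hℓN σ' d) : σ = σ' := by
  apply IntermediateField.algHom_ext_of_eq_adjoin (F := K0) (S := F1 N) (s := gens N) rfl
  rintro x ⟨d, p, hp, hdp, hx⟩
  have hd : d ∣ N := (Dvd.intro p rfl).trans hdp
  obtain ⟨-, h1, h2⟩ := pts_edge 𝔇 hℓN σ hp hdp
  obtain ⟨-, h1', h2'⟩ := pts_edge 𝔇 hℓN σ' hp hdp
  rw [← h d hd, ← h (d * p) hdp] at h1' h2'
  rcases hx with rfl | rfl
  · rw [h1.eq, h1'.eq]
  · rw [h2.eq, h2'.eq]

namespace Struct2

/-- polynomials in `j` with rational coefficients land in the closure. -/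
theorem algebraMap_poly_mem (P : ℚ[X]) :
    algebraMap K0 (Lbar C N) (algebraMap ℚ[X] K0 P) ∈
      Subfield.closure ((eV V C N).range : Set (Lbar C N)) := by
  rw [algebraMap_K0_Lbar, kap_algebraMap, pe_apply, ← RingHom.comp_apply, Polynomial.hom_eval₂,
    RingHom.comp_apply, inc_iotaC_jq (V := V), Polynomial.eval₂_eq_sum_range]
  refine sum_mem fun i _ => mul_mem ?_
    (pow_mem (Subfield.subset_closure (RingHom.mem_range_self (eV V C N) _)) _)
  rw [eq_ratCast]
  exact SubfieldClass.ratCast_mem _ _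

theorem algebraMap_mem (k : K0) :
    algebraMap K0 (Lbar C N) k ∈ Subfield.closure ((eV V C N).range : Set (Lbar C N)) := by
  obtain ⟨a, b, -, rfl⟩ := IsFractionRing.div_surjective (A := ℚ[X]) k
  rw [map_div₀]
  exact div_mem (algebraMap_poly_mem a) (algebraMap_poly_mem b)

end Struct2

include 𝔇 in
/-- every embedding has image in the fraction field of `V((t))`. -/
theorem sigma_mem_closure (hℓN : ¬ ℓ ∣ N) (σ : F1 N →ₐ[K0] Lbar C N) (x : F1 N) :
    σ x ∈ Subfield.closure ((eV V C N).range : Set (Lbar C N)) := by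
  obtain ⟨x, hx⟩ := x
  have key : ∃ y ∈ Subfield.closure ((eV V C N).range : Set (Lbar C N)), Maps σ x y := by
    induction hx using IntermediateField.adjoin_induction with
    | mem x hx =>
      obtain ⟨d, p, hp, hdp, hx⟩ := hx
      obtain ⟨-, h1, h2⟩ := pts_edge 𝔇 hℓN σ hp hdp
      rcases hx with rfl | rfl
      · exact ⟨_, Subfield.subset_closure (RingHom.mem_range_self (eV V C N) _), h1⟩
      · exact ⟨_, Subfield.subset_closure (RingHom.mem_range_self (eV V C N) _), h2⟩
    | algebraMap k => exact ⟨_, Struct2.algebraMap_mem (V := V) k, Maps.kap k⟩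
    | add x y hx hy h1 h2 =>
      obtain ⟨a, ha, ha'⟩ := h1
      obtain ⟨b, hb, hb'⟩ := h2
      exact ⟨_, add_mem ha hb, ha'.add hb'⟩
    | inv x hx h1 =>
      obtain ⟨a, ha, ha'⟩ := h1
      exact ⟨_, inv_mem ha, ha'.inv⟩
    | mul x y hx hy h1 h2 =>
      obtain ⟨a, ha, ha'⟩ := h1
      obtain ⟨b, hb, hb'⟩ := h2
      exact ⟨_, mul_mem ha hb, ha'.mul hb'⟩
  obtain ⟨y, hy, hm⟩ := key
  rw [hm.eq hx]
  exact hy

namespace Struct2

theorem algebraMap_rat_eq_kap (c : ℚ) :
    algebraMap ℚ (LaurentSeries ℚ) c = kap (algebraMap ℚ[X] K0 (Polynomial.C c)) := by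
  rw [kap_algebraMap, pe_apply, Polynomial.eval₂_C]
  rfl

end Struct2

/-- if all points of `σ` are the standard ones then `σ` is the standard embedding on the
modular function field. -/
theorem maps_of_pts_std (hℓN : ¬ ℓ ∣ N) (σ : F1 N →ₐ[K0] Lbar C N)
    (h : ∀ d, d ∣ N → pts 𝔇 hℓN σ d = (1, N * d)) {x : LaurentSeries ℚ}
    (hx : x ∈ modularFunctionFieldFull N) : Maps σ x (inc C N (iotaC C N x)) := by
  induction hx using IntermediateField.adjoin_induction with
  | mem x hx =>
    obtain ⟨d, hne, hd, rfl⟩ := hx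
    haveI := hne
    have hg := (pts_good 𝔇 hℓN σ hd).2.2
    rw [h d hd] at hg
    have e1 : qExpand ℚ d jq = jd d := qExpand_eq_evz d jq
    rw [e1]
    have e2 : inc C N (iotaC C N (jd d)) = eV V C N (𝔇.EvV (1, N * d) (jqModC V)) := by
      rw [jd, iotaC_evz N (NeZero.ne d), eV, RingHom.comp_apply, 𝔇.coeffMap_EvV, coeffMap_jq,
        ← jqModC_rat, coeffMap_jq, map_one]
    rw [e2]
    exact hg
  | algebraMap c =>
    rw [Struct2.algebraMap_rat_eq_kap]
    exact Maps.kap _
  | add x y hx hy h1 h2 =>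
    rw [map_add, map_add]
    exact h1.add h2
  | inv x hx h1 =>
    rw [map_inv₀, map_inv₀]
    exact h1.inv
  | mul x y hx hy h1 h2 =>
    rw [map_mul, map_mul]
    exact h1.mul h2

theorem full_le_F1 {x : LaurentSeries ℚ} (hx : x ∈ modularFunctionFieldFull N) : x ∈ F1 N := by
  induction hx using IntermediateField.adjoin_induction with
  | mem x hx =>
    obtain ⟨d, hne, hd, rfl⟩ := hx
    haveI := hne
    have e1 : qExpand ℚ d jq = jd d := qExpand_eq_evz d jq
    rw [e1]
    exact jd_mem_F1 hd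
  | algebraMap c =>
    rw [Struct2.algebraMap_rat_eq_kap]
    exact (F1 N).algebraMap_mem _
  | add x y hx hy h1 h2 => exact add_mem h1 h2
  | inv x hx h1 => exact inv_mem h1
  | mul x y hx hy h1 h2 => exact mul_mem h1 h2

end Fermat.Agent.S28
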