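import Fermat.Statements.S28

/-!
S28, sub-task C1 (pure algebra): if `A` is an algebra over `R = ℤ_(ℓ)` with a ring homomorphism
to `(ZMod ℓ)((q))` whose kernel is `(ℓ)`, then `A ⊗[R] K` is a domain for every field `K` of
characteristic `ℓ`.
-/

set_option autoImplicit false

open ModularCurve TensorProduct

noncomputable section

namespace Fermat.Agent.S28

variable {ℓ : ℕ} [Fact ℓ.Prime]

/-- the base ring `ℤ_(ℓ)` -/
abbrev Rl (ℓ : ℕ) : Type := ↥(GaloisRep.ratLocalizedAt ℓ)

omit [Fact ℓ.Prime] in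
/-- Ring homomorphisms out of `ℤ_(ℓ)` are unique. -/
theorem ratLoc_ringHom_ext {B : Type*} [CommRing B] (f g : Rl ℓ →+* B) : f = g := by
  ext r
  obtain ⟨q, hq⟩ := r
  have hden : ((q.den : ℚ)⁻¹) ∈ GaloisRep.ratLocalizedAt ℓ := by
    show ((q.den : ℚ)⁻¹).den.Coprime ℓ
    have : ((q.den : ℚ)⁻¹).den = q.den := by
      rw [Rat.inv_natCast_den]
      simp [q.den_ne_zero]
    rw [this]
    exact hq
  set d : Rl ℓ := (q.den : Rl ℓ) with hd
  set dinv : Rl ℓ := ⟨(q.den : ℚ)⁻¹, hden⟩ with hdinv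
  have h1 : d * dinv = 1 := by
    apply Subtype.ext
    simp [hd, hdinv, q.den_ne_zero]
  have h2 : (⟨q, hq⟩ : Rl ℓ) * d = (q.num : Rl ℓ) := by
    apply Subtype.ext
    simp [hd, Rat.mul_den_eq_num]
  have hf : f ⟨q, hq⟩ * (q.den : B) = (q.num : B) := by
    have := congrArg f h2
    simpa [hd] using this
  have hg : g ⟨q, hq⟩ * (q.den : B) = (q.num : B) := by
    have := congrArg g h2
    simpa [hd] using this
  have hu : (q.den : B) * f dinv = 1 := by
    have := congrArg f h1
    simpa [hd] using this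
  calc f ⟨q, hq⟩ = f ⟨q, hq⟩ * ((q.den : B) * f dinv) := by rw [hu, mul_one]
    _ = g ⟨q, hq⟩ * ((q.den : B) * f dinv) := by rw [← mul_assoc, hf, ← mul_assoc, hg]
    _ = g ⟨q, hq⟩ := by rw [hu, mul_one]

section Psi

variable {A : Type} [CommRing A] [Algebra (Rl ℓ) A] (φ : A →+* LaurentSeries (ZMod ℓ))
variable (K : Type) [Field K] [CharP K ℓ] [Algebra (Rl ℓ) K]

/-- `A → (ZMod ℓ)((q)) → K((q))` as an algebra homomorphism. -/
def alphaHom : A →ₐ[Rl ℓ] LaurentSeries K :=
  { (coeffMap (ZMod.castHom (dvd_refl ℓ) K)).comp φ with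
    commutes' := fun r => by
      have := ratLoc_ringHom_ext
        (((coeffMap (ZMod.castHom (dvd_refl ℓ) K)).comp φ).comp (algebraMap (Rl ℓ) A))
        (algebraMap (Rl ℓ) (LaurentSeries K))
      exact congrArg (fun f => f r) this }

/-- constants -/
def betaHom : K →ₐ[Rl ℓ] LaurentSeries K :=
  { (HahnSeries.C : K →+* LaurentSeries K) with
    commutes' := fun r => by
      have := ratLoc_ringHom_ext
        ((HahnSeries.C : K →+* LaurentSeries K).comp (algebraMap (Rl ℓ) K))
        (algebraMap (Rl ℓ) (LaurentSeries K))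
      exact congrArg (fun f => f r) this }

/-- The comparison map `A ⊗ K → K((q))`. -/
def psiHom : A ⊗[Rl ℓ] K →ₐ[Rl ℓ] LaurentSeries K :=
  Algebra.TensorProduct.productMap (alphaHom φ K) (betaHom K)

theorem psiHom_tmul_coeff (a : A) (c : K) (n : ℤ) :
    (psiHom φ K (a ⊗ₜ c)).coeff n = ZMod.castHom (dvd_refl ℓ) K ((φ a).coeff n) * c := by
  have h1 : psiHom φ K (a ⊗ₜ c) = alphaHom φ K a * betaHom K c :=
    Algebra.TensorProduct.productMap_apply_tmul _ _ _ _
  have h2 : betaHom (ℓ := ℓ) K c = (HahnSeries.C c : LaurentSeries K) := rfl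
  have h3 : alphaHom φ K a = coeffMap (ZMod.castHom (dvd_refl ℓ) K) (φ a) := rfl
  rw [h1, h2, h3, mul_comm, HahnSeries.C_mul_eq_smul, HahnSeries.coeff_smul, coeffMap_coeff,
    smul_eq_mul, mul_comm]

include φ in
theorem nontrivial_tensor : Nontrivial (A ⊗[Rl ℓ] K) :=
  (psiHom φ K).toRingHom.domain_nontrivial

omit [Fact ℓ.Prime] in
theorem natCast_tmul (n : ℕ) (a : A) (c : K) :
    (((n : A) * a) ⊗ₜ[Rl ℓ] c : A ⊗[Rl ℓ] K) = a ⊗ₜ ((n : K) * c) := by
  have h1 : (n : A) * a = (n : Rl ℓ) • a := by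
    rw [Algebra.smul_def, map_natCast]
  have h2 : (n : K) * c = (n : Rl ℓ) • c := by
    rw [Algebra.smul_def, map_natCast]
  rw [h1, h2, TensorProduct.smul_tmul]

theorem psiHom_injective (hφ : RingHom.ker φ = Ideal.span {(ℓ : A)}) :
    Function.Injective (psiHom φ K) := by
  classical
  letI := ZMod.algebra K ℓ
  have halg : ∀ z : ZMod ℓ, algebraMap (ZMod ℓ) K z = ZMod.castHom (dvd_refl ℓ) K z := fun _ => rfl
  set b := Module.Basis.ofVectorSpace (ZMod ℓ) K with hb
  -- every tensor is a combination of `a_i ⊗ b_i`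
  have hsurj : ∀ x : A ⊗[Rl ℓ] K, ∃ v : _ →₀ A, x = v.sum fun i a => a ⊗ₜ[Rl ℓ] b i := by
    intro x
    induction x using TensorProduct.induction_on with
    | zero => exact ⟨0, by simp⟩
    | tmul a c =>
      refine ⟨(b.repr c).mapRange (fun z => ((z.val : ℕ) : A) * a) (by simp), ?_⟩
      rw [Finsupp.sum_mapRange_index (by simp)]
      simp only [natCast_tmul]
      conv_lhs => rw [← b.linearCombination_repr c]
      rw [Finsupp.linearCombination_apply, Finsupp.sum, Finsupp.sum, TensorProduct.tmul_sum]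
      refine Finset.sum_congr rfl fun i _ => ?_
      congr 1
      rw [Algebra.smul_def, halg]
      congr 1
      simp
    | add x y hx hy =>
      obtain ⟨v, rfl⟩ := hx
      obtain ⟨w, rfl⟩ := hy
      refine ⟨v + w, ?_⟩
      rw [Finsupp.sum_add_index' (by simp) (by intro i a a'; rw [TensorProduct.add_tmul])]
  rw [injective_iff_map_eq_zero]
  intro x hx
  obtain ⟨v, rfl⟩ := hsurj x
  have hv : ∀ i, φ (v i) = 0 := by
    intro i
    ext n
    have h1 := congrArg (fun s : LaurentSeries K => s.coeff n) hx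
    simp only [Finsupp.sum, map_sum, HahnSeries.coeff_sum, psiHom_tmul_coeff,
      HahnSeries.coeff_zero] at h1
    have h2 : Finsupp.linearCombination (ZMod ℓ) b
        (v.mapRange (fun a => (φ a).coeff n) (by simp)) = 0 := by
      rw [Finsupp.linearCombination_apply, Finsupp.sum_mapRange_index (by simp), Finsupp.sum]
      rw [← h1]
      refine Finset.sum_congr rfl fun j _ => ?_
      rw [Algebra.smul_def, halg]
    have h3 := (linearIndependent_iff.mp b.linearIndependent) _ h2
    have h4 := DFunLike.congr_fun h3 i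
    simpa using h4
  rw [Finsupp.sum]
  refine Finset.sum_eq_zero fun i _ => ?_
  have h5 : v i ∈ Ideal.span {(ℓ : A)} := by rw [← hφ]; exact hv i
  obtain ⟨a', ha'⟩ := Ideal.mem_span_singleton'.mp h5
  rw [← ha', mul_comm, natCast_tmul, CharP.cast_eq_zero K ℓ, zero_mul, TensorProduct.tmul_zero]

theorem isDomain_tensor (hφ : RingHom.ker φ = Ideal.span {(ℓ : A)}) :
    IsDomain (A ⊗[Rl ℓ] K) :=
  Function.Injective.isDomain (psiHom φ K).toRingHom (psiHom_injective φ K hφ)

end Psi

end Fermat.Agent.S28
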